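import Fermat.Agent.Corollaries.Gold.Germain

/-!
# The Brun - Titchmarsh inequality

`#{p ∈ (x, x + y] : p ≡ a mod q} ≤ C y / (φ(q) log (y / q))` for `y ≥ 2 q`.
-/

set_option autoImplicit false

open Finset Filter
open Fermat.Agent.Cor.Brun (abs_card_modEq_sub_le modEq_prod_iff)

namespace Fermat.Agent.Cor.Gold

/-- `(σ(q) / q) φ(q) ≤ q` -/
theorem s_mul_totient_le (q : ℕ) (hq : q ≠ 0) : s q * q.totient ≤ q := by
  induction q using Nat.recOnPosPrimePosCoprime with
  | prime_pow p n hp hn =>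
    have hp1 : (1 : ℝ) < p := by exact_mod_cast hp.one_lt
    have h1 : s (p ^ n) = ∑ i ∈ range (n + 1), ((p : ℝ)⁻¹) ^ i := by
      rw [s, Nat.sum_divisors_prime_pow hp]
      refine sum_congr rfl fun i _ => ?_
      push_cast
      rw [one_div, inv_pow]
    have h2 : ((p ^ n).totient : ℝ) = p ^ n * (1 - (p : ℝ)⁻¹) := by
      rw [Nat.totient_prime_pow hp hn]
      have h3 : (p : ℝ) ^ n = p ^ (n - 1) * p := by
        rw [← pow_succ, Nat.sub_add_cancel hn]
      push_cast [Nat.cast_sub hp.one_le]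
      rw [h3]
      field_simp
    have h3 : (∑ i ∈ range (n + 1), ((p : ℝ)⁻¹) ^ i) * (1 - (p : ℝ)⁻¹) =
        1 - ((p : ℝ)⁻¹) ^ (n + 1) := geom_sum_mul_neg _ _
    have h4 : (0 : ℝ) ≤ ((p : ℝ)⁻¹) ^ (n + 1) := by positivity
    rw [h1, h2]
    push_cast
    have h5 : (∑ i ∈ range (n + 1), ((p : ℝ)⁻¹) ^ i) * ((p : ℝ) ^ n * (1 - (p : ℝ)⁻¹)) =
        (p : ℝ) ^ n * (1 - ((p : ℝ)⁻¹) ^ (n + 1)) := by
      rw [← h3]
      ring
    rw [h5]
    have h6 : (0 : ℝ) ≤ (p : ℝ) ^ n := by positivity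
    nlinarith
  | zero => exact absurd rfl hq
  | one => simp [s]
  | coprime a b ha hb hab iha ihb =>
    have ha0 : a ≠ 0 := by omega
    have hb0 : b ≠ 0 := by omega
    rw [Nat.totient_mul hab]
    push_cast
    have h0 : ∀ n, 0 ≤ s n := fun n => sum_nonneg fun _ _ => by positivity
    have h1 : s (a * b) ≤ s a * s b := by
      unfold s
      rw [sum_mul_sum, ← sum_product']
      refine sum_le_of_inj (fun e => (e.gcd a, e / e.gcd a)) (fun e he => ?_)
        (fun e he f hf hef => ?_) (fun x _ => by positivity) fun e he => ?_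
      · have he' := Nat.dvd_of_mem_divisors he
        have he0 : 0 < e := Nat.pos_of_mem_divisors he
        refine mem_product.mpr ⟨Nat.mem_divisors.mpr ⟨Nat.gcd_dvd_right e a, ha0⟩,
          Nat.mem_divisors.mpr ⟨?_, hb0⟩⟩
        have hg : 0 < e.gcd a := Nat.gcd_pos_of_pos_left _ he0
        have h1 : (e / e.gcd a).Coprime (a / e.gcd a) := Nat.coprime_div_gcd_div_gcd hg
        refine h1.dvd_of_dvd_mul_left ?_
        rw [← Nat.mul_div_right_comm (Nat.gcd_dvd_right e a)]
        exact Nat.div_dvd_div (Nat.gcd_dvd_left e a) he'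
      · simp only [Prod.mk.injEq] at hef
        exact (Nat.mul_div_cancel' (Nat.gcd_dvd_left e a)).symm.trans
          ((congrArg₂ (· * ·) hef.1 hef.2).trans (Nat.mul_div_cancel' (Nat.gcd_dvd_left f a)))
      · have h1 : (e : ℝ) = (e.gcd a : ℝ) * ((e / e.gcd a : ℕ) : ℝ) := by
          exact_mod_cast (Nat.mul_div_cancel' (Nat.gcd_dvd_left e a)).symm
        rw [one_div_mul_one_div, ← h1]
    calc s (a * b) * (a.totient * b.totient) ≤ s a * s b * (a.totient * b.totient) :=
          mul_le_mul_of_nonneg_right h1 (by positivity)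
      _ = (s a * a.totient) * (s b * b.totient) := by ring
      _ ≤ a * b := mul_le_mul (iha ha0) (ihb hb0) (mul_nonneg (h0 b) (Nat.cast_nonneg _))
          (Nat.cast_nonneg a)

/-- the sum of `1 / d` over the square-free `d ≤ z` prime to `q` -/
theorem QQ_le (q z : ℕ) (hq : q ≠ 0) :
    QQ z ≤ s q * ∑ d ∈ Icc 1 z with (Squarefree d ∧ d.Coprime q), 1 / (d : ℝ) := by
  unfold QQ s
  rw [sum_mul_sum, ← sum_product']
  refine sum_le_of_inj (fun e => (e.gcd q, e / e.gcd q)) (fun e he => ?_)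
    (fun e he f hf hef => ?_) (fun x _ => by positivity) fun e he => ?_
  · obtain ⟨he1, he2⟩ := mem_filter.mp he
    rw [mem_Icc] at he1
    have hg : 0 < e.gcd q := Nat.gcd_pos_of_pos_left _ he1.1
    have hd : e.gcd q ∣ e := Nat.gcd_dvd_left e q
    refine mem_product.mpr ⟨Nat.mem_divisors.mpr ⟨Nat.gcd_dvd_right e q, hq⟩,
      mem_filter.mpr ⟨mem_Icc.mpr ⟨Nat.div_pos (Nat.le_of_dvd he1.1 hd) hg,
        (Nat.div_le_self _ _).trans he1.2⟩, he2.squarefree_of_dvd (Nat.div_dvd_of_dvd hd), ?_⟩⟩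
    refine Nat.coprime_of_dvd fun p hp h1 h2 => ?_
    have h3 : p ∣ e.gcd q := Nat.dvd_gcd (h1.trans (Nat.div_dvd_of_dvd hd)) h2
    have h4 : p * p ∣ e := by
      rw [← Nat.div_mul_cancel hd]
      exact mul_dvd_mul h1 h3
    exact hp.one_lt.ne' (Nat.isUnit_iff.mp (he2 p h4))
  · simp only [Prod.mk.injEq] at hef
    exact (Nat.mul_div_cancel' (Nat.gcd_dvd_left e q)).symm.trans
      ((congrArg₂ (· * ·) hef.1 hef.2).trans (Nat.mul_div_cancel' (Nat.gcd_dvd_left f q)))
  · have h1 : (e : ℝ) = (e.gcd q : ℝ) * ((e / e.gcd q : ℕ) : ℝ) := by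
      exact_mod_cast (Nat.mul_div_cancel' (Nat.gcd_dvd_left e q)).symm
    rw [one_div_mul_one_div, ← h1]

theorem log_le_QQ (z : ℕ) : Real.log z ≤ 2 * QQ z := by
  refine le_trans ?_ (harm_le z)
  rcases Nat.eq_zero_or_pos z with rfl | hz
  · simp
  · have h1 := log_add_one_le_harmonic z
    have h2 : ((harmonic z : ℚ) : ℝ) = ∑ a ∈ Icc 1 z, 1 / (a : ℝ) := by
      rw [harmonic_eq_sum_Icc]
      push_cast
      exact sum_congr rfl fun a _ => (one_div _).symm
    rw [← h2]
    refine le_trans (Real.log_le_log (by exact_mod_cast hz) ?_) h1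
    push_cast
    linarith

/-- Selberg's denominator for one class modulo the primes prime to `q` -/
noncomputable def GQ (q z : ℕ) : ℝ :=
  ∑ D ∈ ((P z).filter (fun p => ¬ p ∣ q)).powerset with ∏ p ∈ D, p ≤ z,
    ∏ p ∈ D, (1 : ℝ) / (p - 1)

theorem log_le_GQ (q z : ℕ) (hq : q ≠ 0) : Real.log z ≤ 2 * s q * GQ q z := by
  have h0 : 0 ≤ s q := sum_nonneg fun _ _ => by positivity
  have h1 : ∑ d ∈ Icc 1 z with (Squarefree d ∧ d.Coprime q), 1 / (d : ℝ) ≤ GQ q z := by
    unfold GQ
    refine sum_le_of_inj Nat.primeFactors (fun d hd => ?_) (fun d hd e he hde => ?_)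
      (fun D hD => ?_) fun d hd => ?_
    · obtain ⟨hd1, hd2, hd3⟩ := mem_filter.mp hd
      rw [mem_Icc] at hd1
      refine mem_filter.mpr ⟨mem_powerset.mpr fun p hp => ?_, ?_⟩
      · have hp' := Nat.prime_of_mem_primeFactors hp
        have hpd := Nat.dvd_of_mem_primeFactors hp
        refine mem_filter.mpr ⟨mem_filter.mpr ⟨mem_Icc.mpr ⟨hp'.one_le, ?_⟩, hp'⟩, fun hpq => ?_⟩
        · exact (Nat.le_of_dvd (by omega) hpd).trans hd1.2
        · exact hp'.one_lt.ne' (Nat.dvd_one.mp (hd3 ▸ Nat.dvd_gcd hpd hpq))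
      · rw [Nat.prod_primeFactors_of_squarefree hd2]
        exact hd1.2
    · have hd' := (mem_filter.mp (mem_coe.mp hd)).2.1
      have he' := (mem_filter.mp (mem_coe.mp he)).2.1
      rw [← Nat.prod_primeFactors_of_squarefree hd', ← Nat.prod_primeFactors_of_squarefree he']
      exact congrArg (fun D : Finset ℕ => ∏ p ∈ D, p) hde
    · refine prod_nonneg fun p hp => ?_
      have h2 := (mem_filter.mp (mem_filter.mp (mem_powerset.mp (mem_filter.mp hD).1 hp)).1).2
      have h3 : (1 : ℝ) < p := by exact_mod_cast h2.one_lt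
      exact div_nonneg zero_le_one (by linarith)
    · have hd2 := (mem_filter.mp hd).2.1
      have h2 : 1 / (d : ℝ) = ∏ p ∈ d.primeFactors, 1 / (p : ℝ) := by
        rw [prod_div_distrib, prod_const_one, ← Nat.cast_prod,
          Nat.prod_primeFactors_of_squarefree hd2]
      rw [h2]
      refine prod_le_prod (fun p _ => by positivity) fun p hp => ?_
      have h3 : (1 : ℝ) < p := by exact_mod_cast (Nat.prime_of_mem_primeFactors hp).one_lt
      exact one_div_le_one_div_of_le (by linarith) (by linarith)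
  calc Real.log z ≤ 2 * QQ z := log_le_QQ z
    _ ≤ 2 * (s q * ∑ d ∈ Icc 1 z with (Squarefree d ∧ d.Coprime q), 1 / (d : ℝ)) :=
        mul_le_mul_of_nonneg_left (QQ_le q z hq) (by norm_num)
    _ ≤ 2 * (s q * GQ q z) := by gcongr
    _ = _ := by ring

/-- the sieve for an arithmetic progression -/
theorem prog_le (q m N z : ℕ) (hq : q ≠ 0) (hz : 1 ≤ z) :
    (#{i ∈ range N | (m + q * i).Prime} : ℝ) ≤ z + (N / GQ q z + (z : ℝ) ^ 6) := by
  set P' := (P z).filter (fun p => ¬ p ∣ q) with hP'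
  have hP1 : ∀ p ∈ P', p.Prime ∧ p ≤ z ∧ ¬ p ∣ q := by
    intro p hp
    obtain ⟨h1, h2⟩ := mem_filter.mp hp
    obtain ⟨h3, h4⟩ := mem_filter.mp h1
    exact ⟨h4, (mem_Icc.mp h3).2, h2⟩
  have h1 : #{i ∈ range N | (m + q * i).Prime} ≤
      z + #{i ∈ range N | ∀ p ∈ P', ¬ p ∣ m + q * i} := by
    have h2 : {i ∈ range N | (m + q * i).Prime} ⊆
        {i ∈ range N | 1 ≤ m + q * i ∧ m + q * i ≤ z} ∪
          {i ∈ range N | ∀ p ∈ P', ¬ p ∣ m + q * i} := by
      intro i hi
      rw [mem_filter] at hi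
      rw [mem_union]
      by_cases h : ∀ p ∈ P', ¬ p ∣ m + q * i
      · exact Or.inr (mem_filter.mpr ⟨hi.1, h⟩)
      · push Not at h
        obtain ⟨p, hp, hd⟩ := h
        have h3 := (Nat.prime_dvd_prime_iff_eq (hP1 p hp).1 hi.2).mp hd
        exact Or.inl (mem_filter.mpr ⟨hi.1, hi.2.one_le, h3 ▸ (hP1 p hp).2.1⟩)
    have h3 : #{i ∈ range N | 1 ≤ m + q * i ∧ m + q * i ≤ z} ≤ z := by
      have h4 : #{i ∈ range N | 1 ≤ m + q * i ∧ m + q * i ≤ z} ≤ #(Icc 1 z) := by
        refine card_le_card_of_injOn (fun i => m + q * i) (fun i hi => ?_) fun i _ j _ h => ?_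
        · exact mem_coe.mpr (mem_Icc.mpr (mem_filter.mp (mem_coe.mp hi)).2)
        · have h5 : m + q * i = m + q * j := h
          exact Nat.eq_of_mul_eq_mul_left (Nat.pos_of_ne_zero hq) (by omega)
      rwa [Nat.card_Icc, Nat.add_sub_cancel] at h4
    exact (card_le_card h2).trans ((card_union_le _ _).trans (by omega))
  have h2 := selbergStmt (range N) P' (fun p hp => (hP1 p hp).1)
    (fun p i => p ∣ m + q * i) N (Nat.cast_nonneg N) (fun _ => 1) (fun p hp =>
      ⟨le_rfl, by norm_num, by exact_mod_cast (hP1 p hp).1.one_lt⟩)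
    (fun D hDs => by
      have hD : ∀ p ∈ D, p.Prime := fun p hp => (hP1 p (hDs hp)).1
      have hM : 0 < ∏ p ∈ D, p := prod_pos fun p hp => (hD p hp).pos
      obtain ⟨c, hc⟩ := exists_class_lin hD q m ∅ (fun p hp _ => (hP1 p (hDs hp)).2.2)
      have h3 : {i ∈ range N | ∀ p ∈ D, p ∣ m + q * i} =
          {i ∈ range N | i ≡ c [MOD ∏ p ∈ D, p]} := by
        ext i
        rw [mem_filter, mem_filter, modEq_prod_iff hD]
        refine and_congr_right fun _ => forall₂_congr fun p hp => ?_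
        have h4 : p ∣ q * c + m := (hc p hp).2 (notMem_empty p)
        constructor
        · intro h5
          have h6 : q * i ≡ q * c [MOD p] := Nat.ModEq.add_right_cancel' m
            ((Nat.modEq_zero_iff_dvd.mpr (by rwa [add_comm] at h5)).trans
              (Nat.modEq_zero_iff_dvd.mpr h4).symm)
          exact Nat.ModEq.cancel_left_of_coprime
            ((Nat.Prime.coprime_iff_not_dvd (hD p hp)).mpr (hP1 p (hDs hp)).2.2) h6
        · intro h5
          rw [add_comm]
          exact (((h5.mul_left q).add_right m).dvd_iff dvd_rfl).mpr h4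
      have h6 : (N : ℝ) * ∏ p ∈ D, ((1 : ℝ) / p) = N / ∏ p ∈ D, (p : ℝ) := by
        rw [prod_div_distrib, prod_const_one, mul_one_div]
      rw [h3, h6]
      have h4 := abs_card_modEq_sub_le N c hM
      push_cast at h4
      exact h4.trans (one_le_pow₀ (by norm_num))) z hz
  have h3 : (#{i ∈ range N | (m + q * i).Prime} : ℝ) ≤
      z + (#{i ∈ range N | ∀ p ∈ P', ¬ p ∣ m + q * i} : ℝ) := by exact_mod_cast h1
  refine h3.trans ?_
  gcongr
  exact h2

/-- the number of primes of an arithmetic progression of `N` terms -/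
theorem prog_bound (q m N : ℕ) (hq : q ≠ 0) (hN : 2 ≤ N) :
    (#{i ∈ range N | (m + q * i).Prime} : ℝ) ≤ 56 * s q * (N / Real.log N) := by
  set R : ℕ := #{i ∈ range N | (m + q * i).Prime} with hR
  have hN0 : (2 : ℝ) ≤ N := by exact_mod_cast hN
  have hs : 1 ≤ s q := one_le_s hq
  have hlog : 0 < Real.log N := Real.log_pos (by linarith)
  set L := Real.log N with hLdef
  have hD : 0 < (N : ℝ) / L := by positivity
  obtain ⟨z, hz, hz'⟩ := exists_seventh_root N
  have hz1 : 1 ≤ z := by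
    rcases Nat.eq_zero_or_pos z with h | h
    · rw [h] at hz'; norm_num at hz'; omega
    · exact h
  have hlz1 : L ≤ 7 * Real.log (z + 1) := by
    have h4 : (N : ℝ) ≤ (z + 1 : ℝ) ^ 7 := by exact_mod_cast hz'.le
    calc L ≤ Real.log ((z + 1 : ℝ) ^ 7) := Real.log_le_log (by linarith) h4
      _ = 7 * Real.log (z + 1) := by rw [Real.log_pow]; norm_num
  rcases Nat.lt_or_ge z 2 with hz2 | hz2
  · have hz0 : z = 1 := by omega
    have h4 : (R : ℝ) ≤ N := by
      have : R ≤ N := (card_filter_le _ _).trans (card_range N).le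
      exact_mod_cast this
    have h5 : L ≤ 7 := by
      rw [hz0] at hlz1
      have := Real.log_two_lt_d9
      norm_num at hlz1
      linarith
    have h6 : (N : ℝ) ≤ 7 * (N / L) := by
      rw [mul_div_assoc', le_div_iff₀ (by positivity)]
      nlinarith
    nlinarith [mul_le_mul_of_nonneg_right hs hD.le]
  · have hzr : (2 : ℝ) ≤ z := by exact_mod_cast hz2
    have hlz0 : 0 < Real.log z := Real.log_pos (by linarith)
    have hlz : L ≤ 14 * Real.log z := by
      have h4 : Real.log (z + 1) ≤ 2 * Real.log z := by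
        have : (z : ℝ) + 1 ≤ (z : ℝ) ^ 2 := by nlinarith
        calc Real.log (z + 1) ≤ Real.log ((z : ℝ) ^ 2) := Real.log_le_log (by linarith) this
          _ = 2 * Real.log z := by rw [Real.log_pow]; norm_num
      linarith
    have hG := prog_le q m N z hq hz1
    have hGl := log_le_GQ q z hq
    have hs0 : 0 < s q := by linarith
    have hG0 : 0 < GQ q z := by
      have : 0 < 2 * s q * GQ q z := lt_of_lt_of_le hlz0 hGl
      exact (pos_iff_pos_of_mul_pos this).1 (by positivity)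
    have hA : (N : ℝ) / GQ q z ≤ 28 * s q * (N / L) := by
      rw [div_le_iff₀ hG0]
      calc (N : ℝ) = (N / L) * L := by field_simp
        _ ≤ (N / L) * (14 * (2 * s q * GQ q z)) := by
          refine mul_le_mul_of_nonneg_left ?_ hD.le
          linarith
        _ = _ := by ring
    have hB : (z : ℝ) ^ 6 ≤ 14 * (N / L) := by
      rw [mul_div_assoc', le_div_iff₀ (by positivity)]
      have h4 : L ≤ 14 * z := by
        have := Real.log_le_sub_one_of_pos (show (0 : ℝ) < z by linarith)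
        linarith
      have h5 : (z : ℝ) ^ 7 ≤ N := by exact_mod_cast hz
      calc (z : ℝ) ^ 6 * L ≤ (z : ℝ) ^ 6 * (14 * z) :=
            mul_le_mul_of_nonneg_left h4 (by positivity)
        _ = 14 * (z : ℝ) ^ 7 := by ring
        _ ≤ 14 * (N : ℝ) := by linarith
    have hz6 : (z : ℝ) ≤ (z : ℝ) ^ 6 := le_self_pow₀ (by linarith) (by norm_num)
    calc (R : ℝ) ≤ z + (N / GQ q z + (z : ℝ) ^ 6) := hG
      _ ≤ 28 * (N / L) + 28 * s q * (N / L) := by linarith
      _ ≤ 28 * s q * (N / L) + 28 * s q * (N / L) := by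
        have : (28 : ℝ) ≤ 28 * s q := by linarith
        have := mul_le_mul_of_nonneg_right this hD.le
        linarith
      _ = _ := by ring

/-- **The Brun - Titchmarsh inequality** (with an explicit constant). -/
theorem brun_titchmarsh' (q a x y : ℕ) (hq : q ≠ 0) (hy : 2 * q ≤ y) :
    (#{p ∈ Ioc x (x + y) | p.Prime ∧ p ≡ a [MOD q]} : ℝ) ≤
      112 * y / (q.totient * Real.log (y / q)) := by
  have hq0 : 0 < q := Nat.pos_of_ne_zero hq
  have hq' : (0 : ℝ) < q := by exact_mod_cast hq0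
  have hY : (2 : ℝ) ≤ y / q := by
    rw [le_div_iff₀ hq']
    exact_mod_cast hy
  have hlogY : 0 < Real.log (y / q) := Real.log_pos (by linarith)
  have hφ : (0 : ℝ) < q.totient := by exact_mod_cast Nat.totient_pos.mpr hq0
  rcases (Finset.eq_empty_or_nonempty {p ∈ Ioc x (x + y) | p.Prime ∧ p ≡ a [MOD q]}) with h0 | h0
  · rw [h0, card_empty, Nat.cast_zero]
    positivity
  · set S := {p ∈ Ioc x (x + y) | p.Prime ∧ p ≡ a [MOD q]} with hS
    set m := S.min' h0 with hm
    have hmS : m ∈ S := S.min'_mem h0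
    have hmS' := mem_filter.mp hmS
    have hmI := mem_Ioc.mp hmS'.1
    have hi : ∀ p ∈ S, m ≤ p ∧ m + q * ((p - m) / q) = p ∧ (p - m) / q < y / q + 1 := by
      intro p hp
      have h1 : m ≤ p := S.min'_le p hp
      have hp' := mem_filter.mp hp
      have hpI := mem_Ioc.mp hp'.1
      have h2 : q ∣ p - m := (Nat.modEq_iff_dvd' h1).mp (hmS'.2.2.trans hp'.2.2.symm)
      refine ⟨h1, ?_, ?_⟩
      · rw [Nat.mul_div_cancel' h2]
        omega
      · exact Nat.lt_succ_of_le (Nat.div_le_div_right (by omega))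
    have h1 : #S ≤ #{i ∈ range (y / q + 1) | (m + q * i).Prime} := by
      refine card_le_card_of_injOn (fun p => (p - m) / q) (fun p hp => ?_) fun p hp p' hp' h => ?_
      · have h2 := hi p (mem_coe.mp hp)
        refine mem_coe.mpr (mem_filter.mpr ⟨mem_range.mpr h2.2.2, ?_⟩)
        rw [h2.2.1]
        exact (mem_filter.mp (mem_coe.mp hp)).2.1
      · have h2 := hi p (mem_coe.mp hp)
        have h3 := hi p' (mem_coe.mp hp')
        have h4 : (p - m) / q = (p' - m) / q := h
        rw [← h2.2.1, ← h3.2.1, h4]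
    have hN2 : 2 ≤ y / q := (Nat.le_div_iff_mul_le hq0).mpr hy
    have h2 := prog_bound q m (y / q + 1) hq (by omega)
    have hNu : ((y / q + 1 : ℕ) : ℝ) ≤ 2 * (y / q) := by
      have h3 : ((y / q : ℕ) : ℝ) ≤ (y : ℝ) / q := Nat.cast_div_le
      push_cast
      linarith
    have hNl : (y : ℝ) / q ≤ ((y / q + 1 : ℕ) : ℝ) := by
      rw [div_le_iff₀ hq']
      have h3 : y ≤ (y / q + 1) * q := by
        rw [mul_comm]
        exact (Nat.lt_mul_div_succ y hq0).le
      exact_mod_cast h3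
    have h3 : ((y / q + 1 : ℕ) : ℝ) / Real.log ((y / q + 1 : ℕ) : ℝ) ≤
        2 * (y / q) / Real.log (y / q) :=
      div_le_div₀ (by positivity) hNu hlogY (Real.log_le_log (by linarith) hNl)
    have hs0 : 0 ≤ s q := sum_nonneg fun _ _ => by positivity
    have h4 : s q ≤ q / q.totient := by
      rw [le_div_iff₀ hφ]
      exact s_mul_totient_le q hq
    calc (#S : ℝ) ≤ (#{i ∈ range (y / q + 1) | (m + q * i).Prime} : ℝ) := by exact_mod_cast h1
      _ ≤ 56 * s q * (((y / q + 1 : ℕ) : ℝ) / Real.log ((y / q + 1 : ℕ) : ℝ)) := h2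
      _ ≤ 56 * (q / q.totient) * (2 * (y / q) / Real.log (y / q)) := by
        gcongr
      _ = _ := by
        field_simp
        ring

/-- **The Brun - Titchmarsh inequality.** -/
theorem brun_titchmarsh : ∃ C : ℝ, 0 < C ∧ ∀ q a x y : ℕ, q ≠ 0 → 2 * q ≤ y →
    (#{p ∈ Ioc x (x + y) | p.Prime ∧ p ≡ a [MOD q]} : ℝ) ≤
      C * y / (q.totient * Real.log (y / q)) :=
  ⟨112, by norm_num, fun q a x y hq hy => brun_titchmarsh' q a x y hq hy⟩

end Fermat.Agent.Cor.Gold
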