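import Fermat.Agent.Corollaries.Gold.Defs

/-!
# Schnirelmann's inequality and Schnirelmann's theorem on bases

`σ(A + B) ≥ σ(A) + σ(B) - σ(A) σ(B)` for sets which contain `0`, and every set of positive
density which contains `0` is a basis of finite order.
-/

set_option autoImplicit false

open Finset Filter
open scoped Pointwise

namespace Fermat.Agent.Cor.Gold

/-- Schnirelmann's inequality for the counting functions. -/
theorem count_add_le {A B C : Set ℕ} [DecidablePred (· ∈ A)] [DecidablePred (· ∈ B)]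
    [DecidablePred (· ∈ C)] (hA : 0 ∈ A) (hB : 0 ∈ B) (h : ∀ a ∈ A, ∀ b ∈ B, a + b ∈ C) (n : ℕ) :
    (#{x ∈ Ioc 0 n | x ∈ A} : ℝ) + schnirelmannDensity B * (n - #{x ∈ Ioc 0 n | x ∈ A}) ≤
      #{x ∈ Ioc 0 n | x ∈ C} := by
  induction n using Nat.strong_induction_on with
  | _ n ih =>
  obtain ⟨a, ha, hmax⟩ := exists_max_image {x ∈ range (n + 1) | x ∈ A} id
    ⟨0, mem_filter.2 ⟨mem_range.2 (Nat.succ_pos n), hA⟩⟩
  rw [mem_filter, mem_range] at ha
  have hmax' : ∀ x, x ∈ A → x ≤ n → x ≤ a := fun x hx hxn =>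
    hmax x (mem_filter.2 ⟨mem_range.2 (by omega), hx⟩)
  rcases Nat.eq_zero_or_pos a with h0 | h0
  · have h1 : {x ∈ Ioc 0 n | x ∈ A} = ∅ := by
      refine filter_eq_empty_iff.2 fun x hx hxA => ?_
      rw [mem_Ioc] at hx
      have := hmax' x hxA hx.2
      omega
    rw [h1]
    have h2 : #{x ∈ Ioc 0 n | x ∈ B} ≤ #{x ∈ Ioc 0 n | x ∈ C} := by
      refine card_le_card fun x hx => ?_
      rw [mem_filter] at hx ⊢
      exact ⟨hx.1, by simpa using h 0 hA x hx.2⟩
    have h3 := schnirelmannDensity_mul_le_card_filter (A := B) (n := n)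
    have h4 : (#{x ∈ Ioc 0 n | x ∈ B} : ℝ) ≤ #{x ∈ Ioc 0 n | x ∈ C} := by exact_mod_cast h2
    simp only [card_empty, Nat.cast_zero, zero_add, sub_zero]
    linarith
  · have h1 := ih (a - 1) (by omega)
    have h2 : {x ∈ Ioc 0 n | x ∈ A} = insert a {x ∈ Ioc 0 (a - 1) | x ∈ A} := by
      ext x
      rw [mem_insert, mem_filter, mem_filter, mem_Ioc, mem_Ioc]
      constructor
      · rintro ⟨hx, hxA⟩
        have := hmax' x hxA hx.2
        rcases eq_or_ne x a with h | h
        · exact Or.inl h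
        · exact Or.inr ⟨by omega, hxA⟩
      · rintro (h | h)
        · exact ⟨by omega, h ▸ ha.2⟩
        · exact ⟨by omega, h.2⟩
    have h3 : #{x ∈ Ioc 0 n | x ∈ A} = #{x ∈ Ioc 0 (a - 1) | x ∈ A} + 1 := by
      rw [h2, card_insert_of_notMem]
      rw [mem_filter, mem_Ioc]
      omega
    have h4 : #{x ∈ Ioc 0 (a - 1) | x ∈ C} + (1 + #{x ∈ Ioc 0 (n - a) | x ∈ B}) ≤
        #{x ∈ Ioc 0 n | x ∈ C} := by
      have e1 : #(insert a ({x ∈ Ioc 0 (n - a) | x ∈ B}.image (fun b => a + b))) =
          1 + #{x ∈ Ioc 0 (n - a) | x ∈ B} := by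
        rw [card_insert_of_notMem, card_image_of_injective _ (add_right_injective a), add_comm]
        rw [mem_image]
        rintro ⟨b, hb, hab⟩
        rw [mem_filter, mem_Ioc] at hb
        omega
      rw [← e1, ← card_union_of_disjoint]
      · refine card_le_card fun x hx => ?_
        rw [mem_union, mem_insert, mem_image, mem_filter, mem_Ioc] at hx
        rw [mem_filter, mem_Ioc]
        rcases hx with hx | hx | ⟨b, hb, hx⟩
        · exact ⟨by omega, hx.2⟩
        · exact ⟨by omega, by simpa [hx] using h a ha.2 0 hB⟩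
        · rw [mem_filter, mem_Ioc] at hb
          exact ⟨by omega, hx ▸ h a ha.2 b hb.2⟩
      · rw [disjoint_left]
        intro x hx hx'
        rw [mem_filter, mem_Ioc] at hx
        rw [mem_insert, mem_image] at hx'
        rcases hx' with hx' | ⟨b, hb, hx'⟩ <;> omega
    have h5 := schnirelmannDensity_mul_le_card_filter (A := B) (n := n - a)
    have h6 : (#{x ∈ Ioc 0 (a - 1) | x ∈ C} : ℝ) + (1 + #{x ∈ Ioc 0 (n - a) | x ∈ B}) ≤
        #{x ∈ Ioc 0 n | x ∈ C} := by exact_mod_cast h4
    rw [Nat.cast_sub (by omega)] at h5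
    rw [Nat.cast_sub (by omega), Nat.cast_one] at h1
    rw [h3, Nat.cast_add, Nat.cast_one]
    linarith

/-- **Schnirelmann's inequality** (1930): if `0 ∈ A`, `0 ∈ B` and `A + B ⊆ C`, then
`σ(C) ≥ σ(A) + σ(B) - σ(A) σ(B)`. -/
theorem schnirelmann_add_le {A B C : Set ℕ} [DecidablePred (· ∈ A)] [DecidablePred (· ∈ B)]
    [DecidablePred (· ∈ C)] (hA : 0 ∈ A) (hB : 0 ∈ B) (h : ∀ a ∈ A, ∀ b ∈ B, a + b ∈ C) :
    schnirelmannDensity A + schnirelmannDensity B - schnirelmannDensity A * schnirelmannDensity B ≤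
      schnirelmannDensity C := by
  rw [le_schnirelmannDensity_iff]
  intro n hn
  rw [le_div_iff₀ (by exact_mod_cast hn)]
  have h1 := count_add_le hA hB h n
  have h2 := schnirelmannDensity_mul_le_card_filter (A := A) (n := n)
  have h3 := schnirelmannDensity_le_one (A := B)
  nlinarith [mul_le_mul_of_nonneg_right h2 (sub_nonneg.2 h3)]

/-- the sums of at most `j` elements of `B` -/
def sums (B : Set ℕ) (j : ℕ) : Set ℕ :=
  {n | ∃ t : Multiset ℕ, (∀ b ∈ t, b ∈ B) ∧ Multiset.card t ≤ j ∧ t.sum = n}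

theorem zero_mem_sums (B : Set ℕ) (j : ℕ) : 0 ∈ sums B j := ⟨0, by simp, by simp, by simp⟩

open Classical in
theorem one_sub_pow_le (B : Set ℕ) (hB : 0 ∈ B) (j : ℕ) :
    1 - (1 - schnirelmannDensity B) ^ j ≤ schnirelmannDensity (sums B j) := by
  induction j with
  | zero => simpa using schnirelmannDensity_nonneg
  | succ j ih =>
    have h1 := schnirelmann_add_le (C := sums B (j + 1)) (zero_mem_sums B j) hB (by
      rintro _ ⟨t, ht, hc, rfl⟩ b hb
      refine ⟨b ::ₘ t, ?_, ?_, ?_⟩
      · intro x hx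
        rcases Multiset.mem_cons.1 hx with rfl | hx
        · exact hb
        · exact ht x hx
      · rw [Multiset.card_cons]; omega
      · rw [Multiset.sum_cons, add_comm])
    have h2 := schnirelmannDensity_le_one (A := B)
    have h3 := mul_le_mul_of_nonneg_right ih (sub_nonneg.2 h2)
    calc 1 - (1 - schnirelmannDensity B) ^ (j + 1)
        = (1 - (1 - schnirelmannDensity B) ^ j) * (1 - schnirelmannDensity B) +
          schnirelmannDensity B := by ring
      _ ≤ schnirelmannDensity (sums B j) * (1 - schnirelmannDensity B) +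
          schnirelmannDensity B := by linarith
      _ = schnirelmannDensity (sums B j) + schnirelmannDensity B -
          schnirelmannDensity (sums B j) * schnirelmannDensity B := by ring
      _ ≤ _ := h1

/-- (B) **Schnirelmann's theorem on bases** (1930): a set of positive density which contains `0`
is a basis of finite order. -/
theorem basisStmt : BasisStmt := by
  classical
  intro B _ h0 hd
  have hd' : schnirelmannDensity B ≤ 1 := schnirelmannDensity_le_one
  obtain ⟨j, hj⟩ := exists_pow_lt_of_lt_one (show (0 : ℝ) < 1 / 2 by norm_num)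
    (show 1 - schnirelmannDensity B < 1 by linarith)
  have h1 := one_sub_pow_le B h0 j
  have h2 : (1 : ℝ) / 2 ≤ schnirelmannDensity (sums B j) := by
    refine le_trans ?_ (le_trans ?_ h1) (b := 1 - (1 - schnirelmannDensity B) ^ j)
    · linarith
    · apply le_of_eq
      congr!
  have h3 := add_eq_univ_of_one_le_schirelmannDensity_add_schnirelmannDensity
    (zero_mem_sums B j) (zero_mem_sums B j) (by linarith)
  refine ⟨2 * j, fun n => ?_⟩
  obtain ⟨_, ⟨t, ht, hc, rfl⟩, _, ⟨u, hu, hc', rfl⟩, hn⟩ : n ∈ sums B j + sums B j := by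
    rw [h3]; trivial
  refine ⟨t + u, ?_, ?_, ?_⟩
  · intro x hx
    rcases Multiset.mem_add.1 hx with hx | hx
    · exact ht x hx
    · exact hu x hx
  · rw [Multiset.card_add]; omega
  · rw [Multiset.sum_add]; exact hn

end Fermat.Agent.Cor.Gold
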