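import Mathlib

/-!
# Schnirelmann's theorem: every integer `≥ 2` is a sum of a bounded number of primes

The statements of the parts of the proof (Schnirelmann 1930; the sieve is Selberg's).
-/

set_option autoImplicit false

open Finset Filter

namespace Fermat.Agent.Cor.Gold

/-- the number of `p` such that `p` and `n - p` are primes -/
def r (n : ℕ) : ℕ := #{p ∈ range n | p.Prime ∧ (n - p).Prime}

/-- `∑_{e ∣ n} 1 / e = σ(n) / n` -/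
noncomputable def s (n : ℕ) : ℝ := ∑ e ∈ n.divisors, 1 / (e : ℝ)

/-- the primes `≤ z` -/
def P (z : ℕ) : Finset ℕ := (Icc 1 z).filter Nat.Prime

/-- the number of residue classes modulo `p` in which `i (n - i)` is divisible by `p` -/
def om (n p : ℕ) : ℝ := if p ∣ n then 1 else 2

/-- Selberg's denominator -/
noncomputable def G (n z : ℕ) : ℝ :=
  ∑ D ∈ (P z).powerset with ∏ p ∈ D, p ≤ z, ∏ p ∈ D, om n p / (p - om n p)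

/-- (S) Selberg's sieve, with a crude error term -/
def SelbergStmt : Prop := ∀ (A : Finset ℕ) (P : Finset ℕ) (_ : ∀ p ∈ P, p.Prime)
  (Q : ℕ → ℕ → Prop) [∀ p i, Decidable (Q p i)] (X : ℝ) (_ : 0 ≤ X) (ω : ℕ → ℝ)
  (_ : ∀ p ∈ P, 1 ≤ ω p ∧ ω p ≤ 2 ∧ ω p < p)
  (_ : ∀ D ⊆ P, |(#{i ∈ A | ∀ p ∈ D, Q p i} : ℝ) - X * ∏ p ∈ D, (ω p / p)| ≤ 2 ^ #D)
  (z : ℕ) (_ : 1 ≤ z), (#{i ∈ A | ∀ p ∈ P, ¬ Q p i} : ℝ) ≤
    X / (∑ D ∈ P.powerset with ∏ p ∈ D, p ≤ z, ∏ p ∈ D, ω p / (p - ω p)) + (z : ℝ) ^ 6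

/-- (L) the local count -/
def LocalStmt : Prop := ∀ (n : ℕ) (D : Finset ℕ), (∀ p ∈ D, p.Prime) →
  |(#{i ∈ range n | ∀ p ∈ D, p ∣ i * (n - i)} : ℝ) - n * ∏ p ∈ D, (om n p / p)| ≤ 2 ^ #D

/-- (G1) Selberg's denominator and the square-free numbers -/
def GOneStmt : Prop := ∀ n z : ℕ, Even n →
  ∑ d ∈ Icc 1 z with Squarefree d, (2 : ℝ) ^ #{p ∈ d.primeFactors | ¬ p ∣ n} / d ≤ G n z

/-- (G2) -/
def GTwoStmt : Prop := ∀ n z : ℕ, n ≠ 0 →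
  ∑ d ∈ Icc 1 z with Squarefree d, (2 : ℝ) ^ #d.primeFactors / d ≤
    s n * ∑ d ∈ Icc 1 z with Squarefree d, (2 : ℝ) ^ #{p ∈ d.primeFactors | ¬ p ∣ n} / d

/-- (G3) -/
def GThreeStmt : Prop := ∃ c : ℝ, 0 < c ∧ ∀ z : ℕ, 1 ≤ z →
  c * Real.log z ^ 2 ≤ ∑ d ∈ Icc 1 z with Squarefree d, (2 : ℝ) ^ #d.primeFactors / d

/-- (R) the upper bound for the number of representations -/
def UpperStmt : Prop := ∃ C : ℝ, 0 < C ∧ ∀ n : ℕ, 2 ≤ n → (r n : ℝ) ≤ C * s n * n / Real.log n ^ 2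

/-- (M1) -/
def LowerStmt : Prop := ∃ c : ℝ, 0 < c ∧ ∀ᶠ N : ℕ in atTop,
  c * N ^ 2 / Real.log N ^ 2 ≤ ∑ n ∈ Icc 1 N, (r n : ℝ)

/-- (M2) -/
def MeanSqStmt : Prop := ∃ C : ℝ, 0 < C ∧ ∀ N : ℕ, ∑ n ∈ Icc 1 N, s n ^ 2 ≤ C * N

/-- (B) Schnirelmann's theorem on bases -/
def BasisStmt : Prop := ∀ (B : Set ℕ) [DecidablePred (· ∈ B)], 0 ∈ B →
  0 < schnirelmannDensity B → ∃ k : ℕ, ∀ n : ℕ, ∃ t : Multiset ℕ,
    (∀ b ∈ t, b ∈ B) ∧ Multiset.card t ≤ k ∧ t.sum = n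

/-- (D) the sums of two primes have positive density -/
def DensityStmt : Prop := ∃ c : ℝ, 0 < c ∧ ∀ᶠ N : ℕ in atTop,
  c * N ≤ (#{n ∈ Icc 1 N | 0 < r n} : ℝ)

/-- (MAIN) -/
def MainStmt : Prop := ∃ k : ℕ, ∀ n : ℕ, 2 ≤ n → ∃ t : Multiset ℕ,
  (∀ p ∈ t, p.Prime) ∧ Multiset.card t ≤ k ∧ t.sum = n

end Fermat.Agent.Cor.Gold
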