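import Fermat.Agent.Corollaries.Gold.Defs

/-!
# Schnirelmann's theorem: the sums of two primes have positive lower density

From the upper bound for the number of representations (Selberg's sieve), the lower bound for its
mean and the bound for the mean square of `σ(n) / n`, by Cauchy and Schwarz.
-/

set_option autoImplicit false

open Finset Filter

namespace Fermat.Agent.Cor.Gold

/-- `n / (log n)²` is almost increasing. -/
theorem div_log_sq_le {n N : ℕ} (hn : 2 ≤ n) (h : n ≤ N) :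
    (n : ℝ) / Real.log n ^ 2 ≤ 16 * (N / Real.log N ^ 2) := by
  have hn0 : (2 : ℝ) ≤ n := by exact_mod_cast hn
  have hN0 : (n : ℝ) ≤ N := by exact_mod_cast h
  have hl2 : (0.6931471803 : ℝ) < Real.log 2 := Real.log_two_gt_d9
  have hln : Real.log 2 ≤ Real.log n := Real.log_le_log (by norm_num) hn0
  have hlN : Real.log n ≤ Real.log N := Real.log_le_log (by linarith) hN0
  set x : ℝ := N / n with hx
  have hx1 : 1 ≤ x := by rw [hx, le_div_iff₀ (by linarith)]; linarith
  have hs1 : 1 ≤ √x := by rw [Real.one_le_sqrt]; exact hx1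
  have hsx : √x ^ 2 = x := Real.sq_sqrt (by linarith)
  have hlx : Real.log x ≤ 2 * √x := by
    have h1 := Real.log_le_sub_one_of_pos (show 0 < √x by linarith)
    rw [Real.log_sqrt (by linarith)] at h1
    linarith
  have hlog : Real.log N = Real.log n + Real.log x := by
    rw [hx, Real.log_div (by linarith) (by linarith)]; ring
  have h4 : Real.log N ≤ 4 * √x * Real.log n := by
    nlinarith [mul_nonneg (show 0 ≤ √x - 1 by linarith) (show 0 ≤ Real.log n by linarith),
      mul_nonneg (show 0 ≤ √x by linarith) (show 0 ≤ Real.log n - 0.6931471803 by linarith)]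
  have h5 : Real.log N ^ 2 ≤ 16 * x * Real.log n ^ 2 := by
    calc Real.log N ^ 2 ≤ (4 * √x * Real.log n) ^ 2 := pow_le_pow_left₀ (by linarith) h4 2
      _ = 16 * √x ^ 2 * Real.log n ^ 2 := by ring
      _ = _ := by rw [hsx]
  rw [mul_div_assoc', div_le_div_iff₀ (by
    have : 0 < Real.log n := by linarith
    positivity) (by
    have : 0 < Real.log N := by linarith
    positivity)]
  have hxn : x * n = N := by rw [hx]; field_simp
  calc (n : ℝ) * Real.log N ^ 2 ≤ n * (16 * x * Real.log n ^ 2) := by gcongr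
    _ = 16 * (x * n) * Real.log n ^ 2 := by ring
    _ = _ := by rw [hxn]

theorem s_nonneg (n : ℕ) : 0 ≤ s n := sum_nonneg fun _ _ => by positivity

theorem r_one : r 1 = 0 := by decide +kernel

/-- (D) the sums of two primes have positive density -/
theorem densityStmt (hU : UpperStmt) (h1 : LowerStmt) (h2 : MeanSqStmt) : DensityStmt := by
  obtain ⟨C, hC, hU⟩ := hU
  obtain ⟨c, hc, h1⟩ := h1
  obtain ⟨M, hM, h2⟩ := h2
  refine ⟨c ^ 2 / (256 * C ^ 2 * M), by positivity, ?_⟩
  filter_upwards [h1, eventually_ge_atTop 2] with N hN hN2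
  set T := {n ∈ Icc 1 N | 0 < r n} with hT
  have hN0 : (2 : ℝ) ≤ N := by exact_mod_cast hN2
  have hlog : 0 < Real.log N := Real.log_pos (by linarith)
  set L := Real.log N with hL
  have hsum : ∑ n ∈ Icc 1 N, (r n : ℝ) = ∑ n ∈ T, (r n : ℝ) := by
    refine (sum_filter_of_ne fun n _ hne => ?_).symm
    rcases Nat.eq_zero_or_pos (r n) with h | h
    · simp [h] at hne
    · exact h
  have hb : ∀ n ∈ T, (r n : ℝ) ≤ 16 * C * (N / L ^ 2) * s n := by
    intro n hn
    rw [hT, mem_filter, mem_Icc] at hn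
    have hn2 : 2 ≤ n := by
      rcases Nat.lt_or_ge n 2 with h | h
      · have : n = 1 := by omega
        rw [this, r_one] at hn
        omega
      · exact h
    calc (r n : ℝ) ≤ C * s n * n / Real.log n ^ 2 := hU n hn2
      _ = C * s n * (n / Real.log n ^ 2) := by ring
      _ ≤ C * s n * (16 * (N / L ^ 2)) :=
        mul_le_mul_of_nonneg_left (div_log_sq_le hn2 hn.1.2) (mul_nonneg hC.le (s_nonneg n))
      _ = _ := by ring
  have hq : ∑ n ∈ T, (r n : ℝ) ^ 2 ≤ (16 * C * (N / L ^ 2)) ^ 2 * (M * N) := by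
    calc ∑ n ∈ T, (r n : ℝ) ^ 2 ≤ ∑ n ∈ T, (16 * C * (N / L ^ 2)) ^ 2 * s n ^ 2 :=
          sum_le_sum fun n hn => by
            rw [← mul_pow]; exact pow_le_pow_left₀ (Nat.cast_nonneg _) (hb n hn) 2
      _ = (16 * C * (N / L ^ 2)) ^ 2 * ∑ n ∈ T, s n ^ 2 := by rw [mul_sum]
      _ ≤ (16 * C * (N / L ^ 2)) ^ 2 * ∑ n ∈ Icc 1 N, s n ^ 2 := by
        refine mul_le_mul_of_nonneg_left ?_ (sq_nonneg _)
        exact sum_le_sum_of_subset_of_nonneg (filter_subset _ _) fun _ _ _ => sq_nonneg _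
      _ ≤ _ := mul_le_mul_of_nonneg_left (h2 N) (sq_nonneg _)
  have hcs : (∑ n ∈ T, (r n : ℝ)) ^ 2 ≤ #T * ∑ n ∈ T, (r n : ℝ) ^ 2 := sq_sum_le_card_mul_sum_sq
  have hall : (c * N ^ 2 / L ^ 2) ^ 2 ≤ #T * ((16 * C * (N / L ^ 2)) ^ 2 * (M * N)) := by
    calc (c * N ^ 2 / L ^ 2) ^ 2 ≤ (∑ n ∈ T, (r n : ℝ)) ^ 2 := by
          refine pow_le_pow_left₀ (by positivity) ?_ 2
          rw [← hsum]; exact hN
      _ ≤ _ := hcs
      _ ≤ _ := mul_le_mul_of_nonneg_left hq (Nat.cast_nonneg _)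
  have hfin : c ^ 2 * N ≤ #T * (256 * C ^ 2 * M) := by
    have e1 : (c * (N : ℝ) ^ 2 / L ^ 2) ^ 2 = c ^ 2 * N * (N ^ 3 / L ^ 4) := by
      field_simp
    have e2 : (#T : ℝ) * ((16 * C * (N / L ^ 2)) ^ 2 * (M * N)) =
        #T * (256 * C ^ 2 * M) * (N ^ 3 / L ^ 4) := by
      field_simp; ring
    rw [e1, e2] at hall
    exact le_of_mul_le_mul_right hall (by positivity)
  rw [div_mul_eq_mul_div, div_le_iff₀ (by positivity)]
  exact hfin

end Fermat.Agent.Cor.Gold
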