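import Mathlib

/-!
# Covering congruences

* P. Erdős 1950: there is an arithmetic progression of odd numbers none of which is the sum of a
  prime and a power of two; in particular a positive proportion of the odd numbers is not of this
  form (conjecture of de Polignac 1849; the counterpart of the theorem of Romanov).
* H. Riesel 1956, W. Sierpiński 1960: there are arithmetic progressions of numbers `K` for which
  `K 2 ^ n - 1`, respectively `K 2 ^ n + 1`, is composite for all `n`; J. Selfridge 1962: `78557`.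
* J. Brier 1998: both at once.
-/

set_option autoImplicit false

open Finset Filter

namespace Fermat.Agent.Cor.Gold.Covering

/-- A system of covering congruences. -/
theorem exists_dvd {L : ℕ} (hL : 0 < L) (Q : List ℕ) (hQ : ∀ q ∈ Q, 2 ^ L ≡ 1 [MOD q])
    {A₀ B₀ A B : ℤ} (hcov : ∀ r < L, ∃ q ∈ Q, (A₀ * 2 ^ r + B₀) % (q : ℤ) = 0)
    (hA : ∀ q ∈ Q, A ≡ A₀ [ZMOD q]) (hB : ∀ q ∈ Q, B ≡ B₀ [ZMOD q]) (k : ℕ) :
    ∃ q ∈ Q, (q : ℤ) ∣ A * 2 ^ k + B := by
  obtain ⟨q, hq, h⟩ := hcov (k % L) (Nat.mod_lt _ hL)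
  refine ⟨q, hq, ?_⟩
  have h1 : (2 : ℤ) ^ L ≡ 1 [ZMOD q] := by exact_mod_cast Int.natCast_modEq_iff.2 (hQ q hq)
  have h2 : (2 : ℤ) ^ k ≡ 2 ^ (k % L) [ZMOD q] := by
    calc (2 : ℤ) ^ k = (2 ^ L) ^ (k / L) * 2 ^ (k % L) := by
          rw [← pow_mul, ← pow_add, Nat.div_add_mod]
      _ ≡ 1 ^ (k / L) * 2 ^ (k % L) [ZMOD q] := (h1.pow _).mul_right _
      _ = 2 ^ (k % L) := by rw [one_pow, one_mul]
  have h3 : A * 2 ^ k + B ≡ A₀ * 2 ^ (k % L) + B₀ [ZMOD q] := ((hA q hq).mul h2).add (hB q hq)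
  exact Int.dvd_of_emod_eq_zero (Eq.trans h3 h)

/-- **Erdős 1950**: no number `≡ 18814027 mod 346729110` is the sum of a prime and a power of
two. -/
theorem ne_prime_add_two_pow {n : ℕ} (hn : n ≡ 18814027 [MOD 346729110]) (p k : ℕ)
    (hp : p.Prime) : n ≠ p + 2 ^ k := by
  intro h
  have hB : ∀ q ∈ ([3, 5, 7, 13, 17, 241] : List ℕ), (n : ℤ) ≡ 18814027 [ZMOD (q : ℤ)] := by
    intro q hq
    have hd : q ∣ 346729110 := by
      revert q; decide
    exact_mod_cast Int.natCast_modEq_iff.2 (hn.of_dvd hd)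
  obtain ⟨q, hq, hd⟩ := exists_dvd (L := 24) (by norm_num) [3, 5, 7, 13, 17, 241]
    (by decide) (A₀ := -1) (B₀ := 18814027) (A := -1) (B := n) (by decide +kernel)
    (fun _ _ => rfl) hB k
  have h1 : (-1 : ℤ) * 2 ^ k + n = p := by rw [h]; push_cast; ring
  rw [h1, Int.natCast_dvd_natCast] at hd
  have hq' : q.Prime := (by decide +kernel :
    ∀ q ∈ ([3, 5, 7, 13, 17, 241] : List ℕ), q.Prime) q hq
  have h2 : q = p := (Nat.prime_dvd_prime_iff_eq hq' hp).1 hd
  subst h2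
  have h3 : n ≡ 3 [MOD 31] := (hn.of_dvd (by norm_num : 31 ∣ 346729110)).trans (by decide)
  have h4 : 2 ^ k ≡ 2 ^ (k % 5) [MOD 31] := by
    calc 2 ^ k = (2 ^ 5) ^ (k / 5) * 2 ^ (k % 5) := by
          rw [← pow_mul, ← pow_add, Nat.div_add_mod]
      _ ≡ 1 ^ (k / 5) * 2 ^ (k % 5) [MOD 31] :=
          ((show 2 ^ 5 ≡ 1 [MOD 31] by decide).pow _).mul_right _
      _ = 2 ^ (k % 5) := by rw [one_pow, one_mul]
  have h5 : (q + 2 ^ (k % 5)) % 31 = 3 := by
    rw [h] at h3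
    exact (h4.add_left q).symm.trans h3
  have h6 : ∀ q ∈ [3, 5, 7, 13, 17, 241], ∀ r < 5, (q + 2 ^ r) % 31 ≠ 3 := by decide
  exact h6 q hq _ (Nat.mod_lt _ (by norm_num)) h5

/-- A positive proportion of the integers consists of odd numbers which are not the sum of a prime
and a power of two. -/
theorem erdos_density : ∃ c : ℝ, 0 < c ∧ ∀ᶠ N : ℕ in atTop,
    c * N ≤ (Nat.card {n : ℕ | n ≤ N ∧ Odd n ∧ ∀ p k : ℕ, p.Prime → n ≠ p + 2 ^ k} : ℝ) := by
  refine ⟨1 / (2 * 346729110), by norm_num, ?_⟩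
  filter_upwards [eventually_ge_atTop (2 * 346729110)] with N hN
  set S : Set ℕ := {n : ℕ | n ≤ N ∧ Odd n ∧ ∀ p k : ℕ, p.Prime → n ≠ p + 2 ^ k} with hS
  have hfin : S.Finite := (Set.finite_Iic N).subset fun n hn => hn.1
  have h1 : ((range (N / 346729110)).image (fun j => 18814027 + 346729110 * j) : Set ℕ) ⊆ S := by
    intro n hn
    rw [coe_image] at hn
    obtain ⟨j, hj, rfl⟩ := hn
    rw [coe_range, Set.mem_Iio] at hj
    dsimp only
    refine ⟨by omega, ⟨9407013 + 173364555 * j, by omega⟩, fun p k hp => ?_⟩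
    refine ne_prime_add_two_pow ?_ p k hp
    rw [Nat.ModEq, Nat.add_mul_mod_self_left]
  have h2 : N / 346729110 ≤ Nat.card S := by
    calc N / 346729110 =
          ((range (N / 346729110)).image (fun j => 18814027 + 346729110 * j)).card := by
          rw [card_image_of_injective _ (fun a b h => by simpa using h), card_range]
      _ = Set.ncard ((range (N / 346729110)).image (fun j => 18814027 + 346729110 * j) : Set ℕ) :=
          (Set.ncard_coe_finset _).symm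
      _ ≤ Set.ncard S := Set.ncard_le_ncard h1 hfin
      _ = Nat.card S := rfl
  have h3 : N ≤ 2 * 346729110 * Nat.card S := by omega
  have h4 : (N : ℝ) ≤ 2 * 346729110 * (Nat.card S : ℝ) := by exact_mod_cast h3
  linarith

/-- **Sierpiński 1960, Selfridge 1962**: `K 2 ^ n + 1` is composite for all `n` if
`K ≡ 78557 mod 140100870`. -/
theorem not_prime_mul_two_pow_add_one {K : ℕ} (hK : K ≡ 78557 [MOD 140100870]) (n : ℕ) :
    ¬ (K * 2 ^ n + 1).Prime := by
  intro hp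
  have hA : ∀ q ∈ ([3, 5, 7, 13, 19, 37, 73] : List ℕ), (K : ℤ) ≡ 78557 [ZMOD (q : ℤ)] := by
    intro q hq
    have hd : q ∣ 140100870 := by
      revert q; decide
    exact_mod_cast Int.natCast_modEq_iff.2 (hK.of_dvd hd)
  obtain ⟨q, hq, hd⟩ := exists_dvd (L := 36) (by norm_num) [3, 5, 7, 13, 19, 37, 73]
    (by decide) (A₀ := 78557) (B₀ := 1) (A := K) (B := 1) (by decide +kernel)
    hA (fun _ _ => rfl) n
  have hd' : q ∣ K * 2 ^ n + 1 := by exact_mod_cast hd
  have hq1 : q ≠ 1 ∧ q ≤ 73 := (by decide :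
    ∀ q ∈ ([3, 5, 7, 13, 19, 37, 73] : List ℕ), q ≠ 1 ∧ q ≤ 73) q hq
  have hK1 : 78557 ≤ K := by
    have h : K % 140100870 = 78557 := hK
    omega
  have h2 : 1 ≤ 2 ^ n := Nat.one_le_two_pow
  have h3 : q = K * 2 ^ n + 1 := (hp.eq_one_or_self_of_dvd q hd').resolve_left hq1.1
  nlinarith [Nat.mul_le_mul hK1 h2]

/-- **Riesel 1956**: `K 2 ^ n - 1` is composite for all `n` if `K ≡ 509203 mod 11184810`. -/
theorem not_prime_mul_two_pow_sub_one {K : ℕ} (hK : K ≡ 509203 [MOD 11184810]) (n : ℕ) :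
    ¬ (K * 2 ^ n - 1).Prime := by
  intro hp
  have hA : ∀ q ∈ ([3, 5, 7, 13, 17, 241] : List ℕ), (K : ℤ) ≡ 509203 [ZMOD (q : ℤ)] := by
    intro q hq
    have hd : q ∣ 11184810 := by
      revert q; decide
    exact_mod_cast Int.natCast_modEq_iff.2 (hK.of_dvd hd)
  obtain ⟨q, hq, hd⟩ := exists_dvd (L := 24) (by norm_num) [3, 5, 7, 13, 17, 241]
    (by decide) (A₀ := 509203) (B₀ := -1) (A := K) (B := -1) (by decide +kernel)
    hA (fun _ _ => rfl) n
  have hK1 : 509203 ≤ K := by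
    have h : K % 11184810 = 509203 := hK
    omega
  have h2 : 1 ≤ 2 ^ n := Nat.one_le_two_pow
  have h4 : 509203 * 1 ≤ K * 2 ^ n := Nat.mul_le_mul hK1 h2
  have hd' : q ∣ K * 2 ^ n - 1 := by
    rw [← Int.natCast_dvd_natCast, Nat.cast_sub (by omega)]
    push_cast
    simpa [sub_eq_add_neg] using hd
  have hq1 : q ≠ 1 ∧ q ≤ 241 := (by decide :
    ∀ q ∈ ([3, 5, 7, 13, 17, 241] : List ℕ), q ≠ 1 ∧ q ≤ 241) q hq
  have h3 : q = K * 2 ^ n - 1 := (hp.eq_one_or_self_of_dvd q hd').resolve_left hq1.1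
  omega

/-- **Selfridge 1962**: `78557 · 2 ^ n + 1` is composite for all `n`. -/
theorem selfridge (n : ℕ) : ¬ (78557 * 2 ^ n + 1).Prime := not_prime_mul_two_pow_add_one rfl n

/-- **Riesel 1956**: `509203 · 2 ^ n - 1` is composite for all `n`. -/
theorem riesel (n : ℕ) : ¬ (509203 * 2 ^ n - 1).Prime := not_prime_mul_two_pow_sub_one rfl n

/-- **Brier**: for `K = 3316923598096294713661` both `K 2 ^ n + 1` and `K 2 ^ n - 1` are composite
for all `n`. -/
theorem brier (n : ℕ) : ¬ (3316923598096294713661 * 2 ^ n + 1).Prime ∧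
    ¬ (3316923598096294713661 * 2 ^ n - 1).Prime := by
  have h2 : 1 ≤ 2 ^ n := Nat.one_le_two_pow
  constructor
  · intro hp
    obtain ⟨q, hq, hd⟩ := exists_dvd (L := 48) (by norm_num) [3, 5, 13, 17, 97, 241, 673]
      (by decide) (A₀ := 3316923598096294713661) (B₀ := 1) (A := 3316923598096294713661) (B := 1)
      (by decide +kernel) (fun _ _ => rfl) (fun _ _ => rfl) n
    have hd' : q ∣ 3316923598096294713661 * 2 ^ n + 1 := by exact_mod_cast hd
    have hq1 : q ≠ 1 ∧ q ≤ 673 := (by decide :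
      ∀ q ∈ ([3, 5, 13, 17, 97, 241, 673] : List ℕ), q ≠ 1 ∧ q ≤ 673) q hq
    have h3 := (hp.eq_one_or_self_of_dvd q hd').resolve_left hq1.1
    omega
  · intro hp
    obtain ⟨q, hq, hd⟩ := exists_dvd (L := 180) (by norm_num)
      [3, 7, 11, 19, 31, 37, 41, 73, 109, 151, 331, 1321]
      (by decide +kernel) (A₀ := 3316923598096294713661) (B₀ := -1) (A := 3316923598096294713661)
      (B := -1) (by decide +kernel) (fun _ _ => rfl) (fun _ _ => rfl) n
    have hd' : q ∣ 3316923598096294713661 * 2 ^ n - 1 := by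
      rw [← Int.natCast_dvd_natCast, Nat.cast_sub (by omega)]
      push_cast
      simpa [sub_eq_add_neg] using hd
    have hq1 : q ≠ 1 ∧ q ≤ 1321 := (by decide :
      ∀ q ∈ ([3, 7, 11, 19, 31, 37, 41, 73, 109, 151, 331, 1321] : List ℕ), q ≠ 1 ∧ q ≤ 1321) q hq
    have h3 := (hp.eq_one_or_self_of_dvd q hd').resolve_left hq1.1
    omega

end Fermat.Agent.Cor.Gold.Covering
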