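import Fermat.Agent.Corollaries.Gold.Defs

/-!
# Selberg's denominator and the square-free numbers
-/

set_option autoImplicit false

open Finset

namespace Fermat.Agent.Cor.Gold

theorem om_pos (n p : ℕ) : 0 < om n p := by
  unfold om
  split_ifs <;> norm_num

theorem om_lt {n p : ℕ} (hn : Even n) (hp : p.Prime) : om n p < p := by
  unfold om
  split_ifs with h
  · exact_mod_cast hp.one_lt
  · have h2 : p ≠ 2 := fun h2 => h (h2 ▸ hn.two_dvd)
    have h3 := hp.two_le
    exact_mod_cast (by omega : 2 < p)

/-- (G1) -/
theorem gOneStmt : GOneStmt := by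
  intro n z hn
  have h0 : ∀ p, p.Prime → 0 ≤ om n p / (p - om n p) := fun p hp =>
    div_nonneg (om_pos n p).le (by linarith [om_lt hn hp])
  unfold G
  calc ∑ d ∈ Icc 1 z with Squarefree d, (2 : ℝ) ^ #{p ∈ d.primeFactors | ¬ p ∣ n} / d
      ≤ ∑ d ∈ Icc 1 z with Squarefree d, ∏ p ∈ d.primeFactors, om n p / (p - om n p) := by
        refine sum_le_sum fun d hd => ?_
        have hd' := (mem_filter.mp hd).2
        have h1 : (2 : ℝ) ^ #{p ∈ d.primeFactors | ¬ p ∣ n} / d =
            ∏ p ∈ d.primeFactors, (om n p / p) := by
          rw [prod_div_distrib, ← Nat.cast_prod, Nat.prod_primeFactors_of_squarefree hd']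
          congr 1
          rw [← prod_const, prod_filter]
          refine prod_congr rfl fun p _ => ?_
          unfold om
          by_cases hpn : p ∣ n <;> simp [hpn]
        rw [h1]
        refine prod_le_prod (fun p _ => div_nonneg (om_pos n p).le (Nat.cast_nonneg p))
          fun p hp => ?_
        have hp' := Nat.prime_of_mem_primeFactors hp
        exact div_le_div_of_nonneg_left (om_pos n p).le (by linarith [om_lt hn hp'])
          (by linarith [om_pos n p])
    _ = ∑ D ∈ ((Icc 1 z).filter Squarefree).image Nat.primeFactors,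
          ∏ p ∈ D, om n p / (p - om n p) := by
        rw [sum_image]
        intro d hd e he hde
        have hd' := (mem_filter.mp (mem_coe.mp hd)).2
        have he' := (mem_filter.mp (mem_coe.mp he)).2
        rw [← Nat.prod_primeFactors_of_squarefree hd', ← Nat.prod_primeFactors_of_squarefree he']
        exact congrArg (fun D : Finset ℕ => ∏ p ∈ D, p) hde
    _ ≤ _ := by
        refine sum_le_sum_of_subset_of_nonneg (fun D hD => ?_) fun D hD _ => ?_
        · obtain ⟨d, hd, rfl⟩ := mem_image.mp hD
          have hd1 := mem_Icc.mp (mem_filter.mp hd).1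
          have hd2 := (mem_filter.mp hd).2
          refine mem_filter.mpr ⟨mem_powerset.mpr fun p hp => ?_, ?_⟩
          · have hp' := Nat.prime_of_mem_primeFactors hp
            refine mem_filter.mpr ⟨mem_Icc.mpr ⟨hp'.one_le, ?_⟩, hp'⟩
            exact (Nat.le_of_dvd (by omega) (Nat.dvd_of_mem_primeFactors hp)).trans hd1.2
          · rw [Nat.prod_primeFactors_of_squarefree hd2]
            exact hd1.2
        · refine prod_nonneg fun p hp => h0 p ?_
          have h2 := mem_powerset.mp (mem_filter.mp hD).1 hp
          exact (mem_filter.mp h2).2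

end Fermat.Agent.Cor.Gold
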