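import Fermat.Agent.Corollaries.Gold.Defs

/-!
# Schnirelmann's theorem, part (G3)
-/

set_option autoImplicit false

open Finset Filter

namespace Fermat.Agent.Cor.Gold

lemma sum_le_of_inj {ι κ : Type*} [DecidableEq κ] {S : Finset ι} {T : Finset κ} {f : ι → ℝ}
    {g : κ → ℝ} (e : ι → κ) (he : ∀ i ∈ S, e i ∈ T) (hinj : Set.InjOn e S)
    (hg : ∀ j ∈ T, 0 ≤ g j) (h : ∀ i ∈ S, f i ≤ g (e i)) : ∑ i ∈ S, f i ≤ ∑ j ∈ T, g j := by
  calc ∑ i ∈ S, f i ≤ ∑ i ∈ S, g (e i) := Finset.sum_le_sum h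
    _ = ∑ j ∈ S.image e, g j := (Finset.sum_image hinj).symm
    _ ≤ ∑ j ∈ T, g j := Finset.sum_le_sum_of_subset_of_nonneg (Finset.image_subset_iff.mpr he)
        fun j hj _ => hg j hj

lemma inv_sq_sum (y : ℕ) : ∑ b ∈ Icc 1 y, 1 / (b : ℝ) ^ 2 ≤ 2 := by
  rcases Nat.eq_zero_or_pos y with rfl | hy
  · simp
  · have h1 : Icc 1 y = insert 1 (Ioc 1 y) := by
      ext i
      simp only [mem_Icc, mem_insert, mem_Ioc]
      omega
    rw [h1, Finset.sum_insert (by simp)]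
    have h2 := sum_Ioc_inv_sq_le_sub (α := ℝ) one_ne_zero hy
    have h3 : ∑ i ∈ Ioc 1 y, 1 / (i : ℝ) ^ 2 = ∑ i ∈ Ioc 1 y, ((i : ℝ) ^ 2)⁻¹ :=
      Finset.sum_congr rfl fun i _ => one_div _
    rw [h3]
    have h4 : (0 : ℝ) ≤ (y : ℝ)⁻¹ := by positivity
    norm_num at h2 ⊢
    linarith

lemma card_divisors_sqf {d : ℕ} (hd : Squarefree d) : #d.divisors = 2 ^ #d.primeFactors := by
  rw [Nat.card_divisors hd.ne_zero, Finset.prod_congr rfl (g := fun _ => 2), Finset.prod_const]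
  intro p hp
  have h1 := Nat.prime_of_mem_primeFactors hp
  have h2 := Nat.dvd_of_mem_primeFactors hp
  have h3 := hd.natFactorization_le_one p
  have h4 := h1.factorization_pos_of_dvd hd.ne_zero h2
  omega

/-- the sum of `1 / d` over the square-free `d ≤ y` -/
noncomputable def QQ (y : ℕ) : ℝ := ∑ d ∈ Icc 1 y with Squarefree d, 1 / (d : ℝ)

lemma QQ_nonneg (y : ℕ) : 0 ≤ QQ y := Finset.sum_nonneg fun d _ => by positivity

lemma harm_le (y : ℕ) : ∑ a ∈ Icc 1 y, 1 / (a : ℝ) ≤ 2 * QQ y := by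
  have hex : ∀ n : ℕ, ∃ ab : ℕ × ℕ, 0 < n → 0 < ab.1 ∧ 0 < ab.2 ∧ ab.2 ^ 2 * ab.1 = n ∧
      Squarefree ab.1 := by
    intro n
    rcases Nat.eq_zero_or_pos n with rfl | hn
    · exact ⟨(0, 0), fun h => absurd h (lt_irrefl _)⟩
    · obtain ⟨a, b, h⟩ := Nat.sq_mul_squarefree_of_pos hn
      exact ⟨(a, b), fun _ => h⟩
  choose F hF using hex
  have h1 : ∑ a ∈ Icc 1 y, 1 / (a : ℝ) ≤
      ∑ x ∈ ((Icc 1 y).filter Squarefree) ×ˢ Icc 1 y, (1 / (x.1 : ℝ)) * (1 / (x.2 : ℝ) ^ 2) := by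
    refine sum_le_of_inj F (fun a ha => ?_) (fun a ha b hb hab => ?_) (fun x _ => by positivity)
      fun a ha => ?_
    · rw [mem_Icc] at ha
      obtain ⟨h1, h2, h3, h4⟩ := hF a (by omega)
      rw [mem_product, mem_filter, mem_Icc, mem_Icc]
      have h5 : (F a).1 ≤ a := by
        conv_rhs => rw [← h3]
        exact Nat.le_mul_of_pos_left _ (by positivity)
      have h6 : (F a).2 ≤ a := by
        conv_rhs => rw [← h3]
        calc (F a).2 ≤ (F a).2 ^ 2 := Nat.le_self_pow two_ne_zero _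
          _ ≤ (F a).2 ^ 2 * (F a).1 := Nat.le_mul_of_pos_right _ h1
      exact ⟨⟨⟨h1, by omega⟩, h4⟩, h2, by omega⟩
    · have ha' := mem_Icc.mp (mem_coe.mp ha)
      have hb' := mem_Icc.mp (mem_coe.mp hb)
      obtain ⟨-, -, h3, -⟩ := hF a (by omega)
      obtain ⟨-, -, h3', -⟩ := hF b (by omega)
      rw [← h3, ← h3', hab]
    · rw [mem_Icc] at ha
      obtain ⟨h1, h2, h3, h4⟩ := hF a (by omega)
      have h5 : ((F a).2 : ℝ) ^ 2 * (F a).1 = a := by exact_mod_cast h3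
      rw [← h5, ← one_div_mul_one_div, mul_comm]
  refine h1.trans ?_
  rw [Finset.sum_product, QQ]
  have h2 : ∀ d ∈ (Icc 1 y).filter Squarefree, ∑ b ∈ Icc 1 y, (1 / (d : ℝ)) * (1 / (b : ℝ) ^ 2) ≤
      1 / (d : ℝ) * 2 := by
    intro d _
    rw [← Finset.mul_sum]
    exact mul_le_mul_of_nonneg_left (inv_sq_sum y) (by positivity)
  refine (Finset.sum_le_sum h2).trans ?_
  rw [← Finset.sum_mul, mul_comm]

lemma QQ_sq_le (y z : ℕ) (hyz : y ^ 2 ≤ z) :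
    QQ y ^ 2 ≤ 2 * ∑ d ∈ Icc 1 z with Squarefree d, (2 : ℝ) ^ #d.primeFactors / d := by
  have h0 : QQ y ^ 2 = ∑ x ∈ ((Icc 1 y).filter Squarefree) ×ˢ ((Icc 1 y).filter Squarefree),
      (1 / (x.1 : ℝ)) * (1 / (x.2 : ℝ)) := by
    rw [sq, QQ, Finset.sum_mul_sum, Finset.sum_product]
  have h1 : QQ y ^ 2 ≤ ∑ x ∈ (Icc 1 y) ×ˢ (((Icc 1 z).filter Squarefree).sigma Nat.divisors),
      (1 / (x.1 : ℝ) ^ 2) * (1 / (x.2.1 : ℝ)) := by
    rw [h0]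
    refine sum_le_of_inj (fun x => (Nat.gcd x.1 x.2,
      (⟨(x.1 / Nat.gcd x.1 x.2) * (x.2 / Nat.gcd x.1 x.2), x.1 / Nat.gcd x.1 x.2⟩ :
        (_ : ℕ) × ℕ))) (fun x hx => ?_) (fun x hx x' hx' hxx => ?_) (fun x _ => by positivity)
      fun x hx => ?_
    · rw [mem_product, mem_filter, mem_filter, mem_Icc, mem_Icc] at hx
      obtain ⟨⟨⟨ha1, ha2⟩, ha3⟩, ⟨⟨hb1, hb2⟩, hb3⟩⟩ := hx
      have hg0 : 0 < Nat.gcd x.1 x.2 := Nat.gcd_pos_of_pos_left _ ha1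
      have hda : Nat.gcd x.1 x.2 ∣ x.1 := Nat.gcd_dvd_left _ _
      have hdb : Nat.gcd x.1 x.2 ∣ x.2 := Nat.gcd_dvd_right _ _
      have hq1 : 0 < x.1 / Nat.gcd x.1 x.2 := Nat.div_pos (Nat.le_of_dvd ha1 hda) hg0
      have hq2 : 0 < x.2 / Nat.gcd x.1 x.2 := Nat.div_pos (Nat.le_of_dvd hb1 hdb) hg0
      have hs1 : Squarefree (x.1 / Nat.gcd x.1 x.2) := ha3.squarefree_of_dvd (Nat.div_dvd_of_dvd hda)
      have hs2 : Squarefree (x.2 / Nat.gcd x.1 x.2) := hb3.squarefree_of_dvd (Nat.div_dvd_of_dvd hdb)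
      have hcop : (x.1 / Nat.gcd x.1 x.2).Coprime (x.2 / Nat.gcd x.1 x.2) :=
        Nat.coprime_div_gcd_div_gcd hg0
      rw [mem_product, mem_Icc, mem_sigma, mem_filter, mem_Icc, Nat.mem_divisors]
      refine ⟨⟨hg0, (Nat.le_of_dvd ha1 hda).trans ha2⟩, ⟨⟨Nat.mul_pos hq1 hq2, ?_⟩,
        (Nat.squarefree_mul hcop).mpr ⟨hs1, hs2⟩⟩, dvd_mul_right _ _, (Nat.mul_pos hq1 hq2).ne'⟩
      calc x.1 / Nat.gcd x.1 x.2 * (x.2 / Nat.gcd x.1 x.2) ≤ y * y :=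
            Nat.mul_le_mul ((Nat.div_le_self _ _).trans ha2) ((Nat.div_le_self _ _).trans hb2)
        _ ≤ z := by rw [← sq]; exact hyz
    · rw [mem_coe, mem_product, mem_filter, mem_filter, mem_Icc, mem_Icc] at hx hx'
      obtain ⟨⟨⟨ha1, ha2⟩, ha3⟩, ⟨⟨hb1, hb2⟩, hb3⟩⟩ := hx
      obtain ⟨⟨⟨ha1', ha2'⟩, ha3'⟩, ⟨⟨hb1', hb2'⟩, hb3'⟩⟩ := hx'
      have hg : Nat.gcd x.1 x.2 = Nat.gcd x'.1 x'.2 := congrArg Prod.fst hxx
      have hsig := congrArg Prod.snd hxx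
      have he1 : x.1 / Nat.gcd x.1 x.2 = x'.1 / Nat.gcd x'.1 x'.2 := congrArg (fun s => s.2) hsig
      have he : (x.1 / Nat.gcd x.1 x.2) * (x.2 / Nat.gcd x.1 x.2) =
        (x'.1 / Nat.gcd x'.1 x'.2) * (x'.2 / Nat.gcd x'.1 x'.2) := congrArg (fun s => s.1) hsig
      have hg0 : 0 < Nat.gcd x.1 x.2 := Nat.gcd_pos_of_pos_left _ ha1
      have hq1 : 0 < x.1 / Nat.gcd x.1 x.2 :=
        Nat.div_pos (Nat.le_of_dvd ha1 (Nat.gcd_dvd_left _ _)) hg0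
      have he2 : x.2 / Nat.gcd x.1 x.2 = x'.2 / Nat.gcd x'.1 x'.2 := by
        rw [← he1] at he
        exact Nat.eq_of_mul_eq_mul_left hq1 he
      have e1 : x.1 = x'.1 := by
        rw [← Nat.div_mul_cancel (Nat.gcd_dvd_left x.1 x.2), he1, hg,
          Nat.div_mul_cancel (Nat.gcd_dvd_left x'.1 x'.2)]
      have e2 : x.2 = x'.2 := by
        rw [← Nat.div_mul_cancel (Nat.gcd_dvd_right x.1 x.2), he2, hg,
          Nat.div_mul_cancel (Nat.gcd_dvd_right x'.1 x'.2)]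
      exact Prod.ext e1 e2
    · rw [mem_product, mem_filter, mem_filter, mem_Icc, mem_Icc] at hx
      obtain ⟨⟨⟨ha1, ha2⟩, ha3⟩, ⟨⟨hb1, hb2⟩, hb3⟩⟩ := hx
      have e1 : ((x.1 / Nat.gcd x.1 x.2 : ℕ) : ℝ) * (Nat.gcd x.1 x.2 : ℝ) = x.1 := by
        exact_mod_cast Nat.div_mul_cancel (Nat.gcd_dvd_left x.1 x.2)
      have e2 : ((x.2 / Nat.gcd x.1 x.2 : ℕ) : ℝ) * (Nat.gcd x.1 x.2 : ℝ) = x.2 := by
        exact_mod_cast Nat.div_mul_cancel (Nat.gcd_dvd_right x.1 x.2)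
      refine le_of_eq ?_
      rw [one_div_mul_one_div, one_div_mul_one_div]
      congr 1
      conv_lhs => rw [← e1, ← e2]
      rw [Nat.cast_mul]
      ring
  refine h1.trans ?_
  rw [Finset.sum_product]
  have h2 : ∀ b ∈ Icc 1 y, ∑ x ∈ ((Icc 1 z).filter Squarefree).sigma Nat.divisors,
      (1 / (b : ℝ) ^ 2) * (1 / (x.1 : ℝ)) = (1 / (b : ℝ) ^ 2) *
        ∑ d ∈ Icc 1 z with Squarefree d, (2 : ℝ) ^ #d.primeFactors / d := by
    intro b _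
    rw [← Finset.mul_sum, Finset.sum_sigma]
    congr 1
    refine Finset.sum_congr rfl fun d hd => ?_
    change ∑ _s ∈ d.divisors, 1 / (d : ℝ) = _
    rw [Finset.sum_const, card_divisors_sqf (mem_filter.mp hd).2, nsmul_eq_mul]
    push_cast
    rw [mul_one_div]
  rw [Finset.sum_congr rfl h2, ← Finset.sum_mul]
  exact mul_le_mul_of_nonneg_right (inv_sq_sum y) (Finset.sum_nonneg fun d _ => by positivity)

theorem gThreeStmt : GThreeStmt := by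
  refine ⟨1 / 32, by norm_num, fun z hz => ?_⟩
  set y := Nat.sqrt z with hy
  have h1 := QQ_sq_le y z (by rw [sq]; exact Nat.sqrt_le z)
  have h2 := harm_le y
  have h3 : Real.log ((y + 1 : ℕ) : ℝ) ≤ ∑ a ∈ Icc 1 y, 1 / (a : ℝ) := by
    have h4 := log_add_one_le_harmonic y
    rw [harmonic_eq_sum_Icc] at h4
    push_cast at h4 ⊢
    simpa only [one_div] using h4
  have h4 : Real.log z ≤ 2 * Real.log ((y + 1 : ℕ) : ℝ) := by
    have h5 : (z : ℝ) ≤ ((y + 1 : ℕ) : ℝ) ^ 2 := by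
      have h6 : z ≤ (y + 1) ^ 2 := by
        rw [sq]
        exact (Nat.lt_succ_sqrt z).le
      exact_mod_cast h6
    have h7 := Real.log_le_log (by exact_mod_cast hz) h5
    rw [Real.log_pow] at h7
    exact_mod_cast h7
  have h5 : 0 ≤ Real.log z := Real.log_nonneg (by exact_mod_cast hz)
  have h6 : Real.log z ≤ 4 * QQ y := by linarith
  have h7 : Real.log z ^ 2 ≤ (4 * QQ y) ^ 2 := pow_le_pow_left₀ h5 h6 2
  nlinarith

end Fermat.Agent.Cor.Gold
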