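import Fermat.Agent.Corollaries.Gold.GThree

/-!
# Schnirelmann's theorem, part (G2)
-/

set_option autoImplicit false

open Finset Filter

namespace Fermat.Agent.Cor.Gold

lemma primeFactors_gcd_eq {d n : ℕ} (hd : d ≠ 0) :
    (Nat.gcd d n).primeFactors = d.primeFactors.filter (· ∣ n) := by
  ext p
  rw [mem_filter, Nat.mem_primeFactors, Nat.mem_primeFactors, Nat.dvd_gcd_iff]
  exact ⟨fun h => ⟨⟨h.1, h.2.1.1, hd⟩, h.2.1.2⟩, fun h => ⟨h.1.1, ⟨h.1.2.1, h.2⟩,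
    Nat.gcd_ne_zero_left hd⟩⟩

lemma two_pow_eq {d n : ℕ} (hd : Squarefree d) : (2 : ℝ) ^ #d.primeFactors =
    (#(Nat.gcd d n).divisors : ℝ) * (2 : ℝ) ^ #{p ∈ d.primeFactors | ¬ p ∣ n} := by
  have h1 : Squarefree (Nat.gcd d n) := hd.squarefree_of_dvd (Nat.gcd_dvd_left _ _)
  rw [card_divisors_sqf h1, primeFactors_gcd_eq hd.ne_zero, Nat.cast_pow, Nat.cast_ofNat,
    ← pow_add, Finset.card_filter_add_card_filter_not]

lemma filter_div {d e n : ℕ} (hd : Squarefree d) (hed : e ∣ d) (hen : e ∣ n) :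
    (d / e).primeFactors.filter (fun p => ¬ p ∣ n) = d.primeFactors.filter (fun p => ¬ p ∣ n) := by
  have hd0 := hd.ne_zero
  have he0 : e ≠ 0 := fun h => hd0 (by rw [h] at hed; exact Nat.eq_zero_of_zero_dvd hed)
  have hde : d / e ≠ 0 := (Nat.div_pos (Nat.le_of_dvd (Nat.pos_of_ne_zero hd0) hed)
    (Nat.pos_of_ne_zero he0)).ne'
  ext p
  simp only [mem_filter, Nat.mem_primeFactors]
  constructor
  · rintro ⟨⟨h1, h2, -⟩, h3⟩
    exact ⟨⟨h1, h2.trans (Nat.div_dvd_of_dvd hed), hd0⟩, h3⟩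
  · rintro ⟨⟨h1, h2, -⟩, h3⟩
    refine ⟨⟨h1, ?_, hde⟩, h3⟩
    have h4 : p ∣ d / e * e := by rwa [Nat.div_mul_cancel hed]
    exact (h1.dvd_mul.mp h4).resolve_right fun h5 => h3 (h5.trans hen)

theorem gTwoStmt : GTwoStmt := by
  intro n z hn
  have h0 : ∀ d ∈ (Icc 1 z).filter Squarefree, (2 : ℝ) ^ #d.primeFactors / d =
      ∑ _e ∈ (Nat.gcd d n).divisors, (2 : ℝ) ^ #{p ∈ d.primeFactors | ¬ p ∣ n} / d := by
    intro d hd
    rw [Finset.sum_const, nsmul_eq_mul, two_pow_eq (mem_filter.mp hd).2, mul_div_assoc]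
  rw [Finset.sum_congr rfl h0, Finset.sum_sigma', s, Finset.sum_mul_sum, ← Finset.sum_product']
  refine sum_le_of_inj (fun x : (_ : ℕ) × ℕ => (x.2, x.1 / x.2)) (fun x hx => ?_)
    (fun x hx x' hx' hxx => ?_) (fun x _ => by positivity) fun x hx => ?_
  · rw [mem_sigma, mem_filter, mem_Icc, Nat.mem_divisors, Nat.dvd_gcd_iff] at hx
    obtain ⟨⟨⟨h1, h2⟩, h3⟩, ⟨h4, h5⟩, h6⟩ := hx
    have he0 : 0 < x.2 := Nat.pos_of_dvd_of_pos h4 h1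
    rw [mem_product, Nat.mem_divisors, mem_filter, mem_Icc]
    exact ⟨⟨h5, hn⟩, ⟨Nat.div_pos (Nat.le_of_dvd h1 h4) he0, (Nat.div_le_self _ _).trans h2⟩,
      h3.squarefree_of_dvd (Nat.div_dvd_of_dvd h4)⟩
  · rw [mem_coe, mem_sigma, mem_filter, mem_Icc, Nat.mem_divisors, Nat.dvd_gcd_iff] at hx hx'
    obtain ⟨⟨⟨h1, h2⟩, h3⟩, ⟨h4, h5⟩, h6⟩ := hx
    obtain ⟨⟨⟨h1', h2'⟩, h3'⟩, ⟨h4', h5'⟩, h6'⟩ := hx'
    have e1 : x.2 = x'.2 := congrArg Prod.fst hxx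
    have e2 : x.1 / x.2 = x'.1 / x'.2 := congrArg Prod.snd hxx
    have e3 : x.1 = x'.1 := by
      rw [← Nat.div_mul_cancel h4, e2, e1, Nat.div_mul_cancel h4']
    obtain ⟨a, b⟩ := x
    obtain ⟨a', b'⟩ := x'
    simp only at e1 e3
    subst e1 e3
    rfl
  · rw [mem_sigma, mem_filter, mem_Icc, Nat.mem_divisors, Nat.dvd_gcd_iff] at hx
    obtain ⟨⟨⟨h1, h2⟩, h3⟩, ⟨h4, h5⟩, h6⟩ := hx
    refine le_of_eq ?_
    rw [filter_div h3 h4 h5, one_div_mul_eq_div, div_div]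
    congr 1
    exact_mod_cast (Nat.div_mul_cancel h4).symm

end Fermat.Agent.Cor.Gold
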