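import Fermat.Agent.Corollaries.Gold.Defs
import Fermat.Agent.Corollaries.Brun.Sieve

/-!
# The number of `i < n` such that all `p ∈ D` divide `i (n - i)`
-/

set_option autoImplicit false

open Finset
open Fermat.Agent.Cor.Brun (abs_card_modEq_sub_le modEq_prod_iff)

namespace Fermat.Agent.Cor.Gold

/-- the residue class of the integers divisible by the `p ∈ E`, congruent to `n` modulo the other
`p ∈ D` -/
theorem exists_class {D : Finset ℕ} (hD : ∀ p ∈ D, p.Prime) (n : ℕ) (E : Finset ℕ) :
    ∃ c : ℕ, ∀ p ∈ D, (p ∈ E → c ≡ 0 [MOD p]) ∧ (p ∉ E → c ≡ n [MOD p]) := by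
  obtain ⟨c, hc⟩ := Nat.chineseRemainderOfFinset (fun p => if p ∈ E then 0 else n)
    (fun p => p) D (fun p hp => (hD p hp).ne_zero)
    fun p hp q hq hpq => (Nat.coprime_primes (hD p hp) (hD q hq)).mpr hpq
  refine ⟨c, fun p hp => ⟨fun hpE => ?_, fun hpE => ?_⟩⟩
  · simpa [hpE] using hc p hp
  · simpa [hpE] using hc p hp

/-- (L) -/
theorem localStmt : LocalStmt := by
  intro n D hD
  have hM : 0 < ∏ p ∈ D, p := prod_pos fun p hp => (hD p hp).pos
  -- the primes of `D` which do not divide `n`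
  set D' := D.filter (fun p => ¬ p ∣ n) with hD'
  have h1 : #{i ∈ range n | ∀ p ∈ D, p ∣ i * (n - i)} =
      ∑ E ∈ D'.powerset, #{i ∈ {i ∈ range n | ∀ p ∈ D, p ∣ i * (n - i)} | D'.filter (· ∣ i) = E} :=
    card_eq_sum_card_fiberwise fun i _ => mem_powerset.mpr (filter_subset _ _)
  have hdvd : ∀ i < n, ∀ p, p ∣ n - i ↔ i ≡ n [MOD p] := fun i hi p =>
    (Nat.modEq_iff_dvd' hi.le).symm
  have h2 : ∀ E ∈ D'.powerset, |(#{i ∈ {i ∈ range n | ∀ p ∈ D, p ∣ i * (n - i)} |
      D'.filter (· ∣ i) = E} : ℝ) - n / ∏ p ∈ D, (p : ℝ)| ≤ 1 := by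
    intro E hE
    rw [mem_powerset] at hE
    have hED : ∀ p ∈ E, p ∈ D ∧ ¬ p ∣ n := fun p hp => mem_filter.mp (hE hp)
    obtain ⟨c, hc⟩ := exists_class hD n (E ∪ D.filter (· ∣ n))
    have h3 : {i ∈ {i ∈ range n | ∀ p ∈ D, p ∣ i * (n - i)} | D'.filter (· ∣ i) = E} =
        {i ∈ range n | i ≡ c [MOD ∏ p ∈ D, p]} := by
      ext i
      rw [mem_filter, mem_filter, mem_filter, modEq_prod_iff hD, and_assoc, mem_range]
      refine and_congr_right fun hin => ⟨fun hi p hp => ?_, fun hi => ⟨fun p hp => ?_, ?_⟩⟩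
      · by_cases hpn : p ∣ n
        · have h4 : p ∣ i := by
            rcases (hD p hp).dvd_mul.mp (hi.1 p hp) with h5 | h5
            · exact h5
            · exact (Nat.dvd_sub_iff_right hin.le hpn).mp h5
          exact (Nat.modEq_zero_iff_dvd.mpr h4).trans
            ((hc p hp).1 (mem_union_right _ (mem_filter.mpr ⟨hp, hpn⟩))).symm
        · by_cases hpE : p ∈ E
          · have h4 : p ∣ i := by
              rw [← hi.2, mem_filter] at hpE
              exact hpE.2
            exact (Nat.modEq_zero_iff_dvd.mpr h4).trans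
              ((hc p hp).1 (mem_union_left _ hpE)).symm
          · have h4 : ¬ p ∣ i := fun h4 => hpE (by
              rw [← hi.2]
              exact mem_filter.mpr ⟨mem_filter.mpr ⟨hp, hpn⟩, h4⟩)
            have h5 : p ∣ n - i := ((hD p hp).dvd_mul.mp (hi.1 p hp)).resolve_left h4
            have h6 : p ∉ E ∪ D.filter (· ∣ n) := by
              rw [mem_union, mem_filter]
              tauto
            exact ((hdvd i hin p).mp h5).trans ((hc p hp).2 h6).symm
      · by_cases hpn : p ∈ E ∪ D.filter (· ∣ n)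
        · exact Dvd.dvd.mul_right (Nat.modEq_zero_iff_dvd.mp ((hi p hp).trans ((hc p hp).1 hpn))) _
        · exact Dvd.dvd.mul_left ((hdvd i hin p).mpr ((hi p hp).trans ((hc p hp).2 hpn))) _
      · ext p
        rw [mem_filter]
        constructor
        · rintro ⟨hp, hpi⟩
          rw [hD', mem_filter] at hp
          by_contra hpE
          have h6 : p ∉ E ∪ D.filter (· ∣ n) := by
            rw [mem_union, mem_filter]
            tauto
          have h7 := (hi p hp.1).trans ((hc p hp.1).2 h6)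
          exact hp.2 (Nat.modEq_zero_iff_dvd.mp (h7.symm.trans (Nat.modEq_zero_iff_dvd.mpr hpi)))
        · intro hpE
          have h8 := hED p hpE
          exact ⟨hE hpE, Nat.modEq_zero_iff_dvd.mp
            ((hi p h8.1).trans ((hc p h8.1).1 (mem_union_left _ hpE)))⟩
    rw [h3]
    have h4 := abs_card_modEq_sub_le n c hM
    push_cast at h4
    exact h4
  have h5 : (n : ℝ) * ∏ p ∈ D, (om n p / p) = ∑ E ∈ D'.powerset, (n / ∏ p ∈ D, (p : ℝ)) := by
    have h6 : ∏ p ∈ D, om n p = 2 ^ #D' := by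
      rw [hD', ← prod_const, prod_filter]
      refine prod_congr rfl fun p _ => ?_
      unfold om
      by_cases hpn : p ∣ n <;> simp [hpn]
    rw [sum_const, card_powerset, nsmul_eq_mul, prod_div_distrib, h6]
    push_cast
    ring
  rw [h1, h5]
  push_cast
  rw [← sum_sub_distrib]
  refine (abs_sum_le_sum_abs _ _).trans ((sum_le_sum h2).trans ?_)
  rw [sum_const, card_powerset, nsmul_eq_mul]
  push_cast
  rw [mul_one]
  exact pow_le_pow_right₀ (by norm_num) (card_le_card (filter_subset _ _))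

end Fermat.Agent.Cor.Gold
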