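import Fermat.Agent.Corollaries.Gold.Defs

/-!
# The mean value of the number of representations as a sum of two primes

`∑_{n ≤ N} r(n) ≥ π(N / 2)² ≥ c N² / (log N)²`.
-/

set_option autoImplicit false

open Finset Filter Topology Asymptotics

namespace Fermat.Agent.Cor.Gold

theorem sq_primeCounting_le (M N : ℕ) (h : 2 * M ≤ N) :
    Nat.primeCounting M ^ 2 ≤ ∑ n ∈ Icc 1 N, r n := by
  have h1 : Nat.primeCounting M = #((range (M + 1)).filter Nat.Prime) := by
    rw [Nat.primeCounting, Nat.primeCounting', Nat.count_eq_card_filter_range]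
  set A := (range (M + 1)).filter Nat.Prime with hA
  have h2 : ∑ n ∈ Icc 1 N, r n = #((Icc 1 N).sigma fun n =>
      {p ∈ range n | p.Prime ∧ (n - p).Prime}) := by
    rw [card_sigma]
    rfl
  rw [h1, h2, sq, ← card_product]
  refine card_le_card_of_injOn (fun x => ⟨x.1 + x.2, x.1⟩) (fun x hx => ?_) fun x hx y hy hxy => ?_
  · rw [mem_coe, mem_product, hA, mem_filter, mem_filter, mem_range, mem_range] at hx
    obtain ⟨⟨h3, h4⟩, h5, h6⟩ := hx
    have h7 := h4.pos
    have h8 := h6.pos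
    have h9 : (x.1 + x.2 - x.1).Prime := by
      rw [Nat.add_sub_cancel_left]
      exact h6
    exact mem_coe.mpr (mem_sigma.mpr ⟨mem_Icc.mpr ⟨(by omega : 1 ≤ x.1 + x.2),
      (by omega : x.1 + x.2 ≤ N)⟩, mem_filter.mpr ⟨mem_range.mpr (by omega : x.1 < x.1 + x.2),
      h4, h9⟩⟩)
  · simp only [Sigma.mk.injEq] at hxy
    obtain ⟨h3, h4⟩ := hxy
    have h5 : x.1 = y.1 := by simpa using h4
    exact Prod.ext h5 (by omega)

/-- (M1) -/
theorem lowerStmt : LowerStmt := by
  have hlog2 : 0 < Real.log 2 := Real.log_pos (by norm_num)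
  refine ⟨(Real.log 2 / 8) ^ 2, by positivity, ?_⟩
  have h1 : Tendsto (fun N : ℕ => (N : ℝ) + 1) atTop atTop :=
    tendsto_atTop_add_const_right _ 1 tendsto_natCast_atTop_atTop
  have h2 := h1.eventually (Real.isLittleO_log_id_atTop.bound
    (show 0 < Real.log 2 / 16 by positivity))
  filter_upwards [h2, eventually_ge_atTop 16] with N hN hN3
  have hN1 : (16 : ℝ) ≤ N := by exact_mod_cast hN3
  rw [id_eq, Real.norm_of_nonneg (Real.log_nonneg (by linarith)),
    Real.norm_of_nonneg (by linarith : (0 : ℝ) ≤ (N : ℝ) + 1)] at hN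
  have h6 : 0 < Real.log N := Real.log_pos (by linarith)
  set M := N / 2 with hM
  have hM1 : 8 ≤ M := by omega
  have hM2 : (N : ℝ) - 1 ≤ 2 * M := by
    have : N ≤ 2 * M + 1 := by omega
    have : (N : ℝ) ≤ 2 * M + 1 := by exact_mod_cast this
    linarith
  have hM3 : (M : ℝ) ≤ N := by exact_mod_cast (by omega : M ≤ N)
  have hM4 : (8 : ℝ) ≤ M := by exact_mod_cast hM1
  have h7 : Real.log 2 / 8 * N / Real.log N ≤ (Nat.primeCounting M : ℝ) := by
    have h8 := Chebyshev.pi_ge M
    have h9 : 0 < Real.log M := Real.log_pos (by linarith)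
    have h10 : Real.log M ≤ Real.log N := Real.log_le_log (by linarith) hM3
    have h11 : Real.log ((M : ℝ) + 1) ≤ Real.log ((N : ℝ) + 1) :=
      Real.log_le_log (by linarith) (by linarith)
    have h12 : Real.log 2 / 8 * N ≤ (M : ℝ) * Real.log 2 - Real.log ((M : ℝ) + 1) := by
      nlinarith
    calc Real.log 2 / 8 * N / Real.log N ≤ Real.log 2 / 8 * N / Real.log M :=
          div_le_div_of_nonneg_left (by positivity) h9 h10
      _ ≤ ((M : ℝ) * Real.log 2 - Real.log ((M : ℝ) + 1)) / Real.log M :=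
          div_le_div_of_nonneg_right h12 h9.le
      _ ≤ _ := h8
  have h13 : ((Nat.primeCounting M ^ 2 : ℕ) : ℝ) ≤ ∑ n ∈ Icc 1 N, (r n : ℝ) := by
    have := sq_primeCounting_le M N (by omega)
    exact_mod_cast this
  calc (Real.log 2 / 8) ^ 2 * N ^ 2 / Real.log N ^ 2
      = (Real.log 2 / 8 * N / Real.log N) ^ 2 := by ring
    _ ≤ (Nat.primeCounting M : ℝ) ^ 2 := pow_le_pow_left₀ (by positivity) h7 2
    _ = ((Nat.primeCounting M ^ 2 : ℕ) : ℝ) := by push_cast; rfl
    _ ≤ _ := h13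

end Fermat.Agent.Cor.Gold
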