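import Fermat.Agent.Corollaries.Gold.Defs

/-!
# Schnirelmann's theorem: the end of the proof

The set `{0, 1} ∪ {sums of two primes}` has positive Schnirelmann density.
-/

set_option autoImplicit false

open Finset Filter

namespace Fermat.Agent.Cor.Gold

/-- `{0, 1}` and the sums of two primes -/
def base : Set ℕ := {n | n = 0 ∨ n = 1 ∨ 0 < r n}

theorem exists_add_of_r_pos {n : ℕ} (h : 0 < r n) : ∃ p q : ℕ, p.Prime ∧ q.Prime ∧ p + q = n := by
  obtain ⟨p, hp⟩ := card_pos.1 h
  rw [mem_filter, mem_range] at hp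
  exact ⟨p, n - p, hp.2.1, hp.2.2, by omega⟩

/-- every number `≥ 2` is a sum of `2`'s and `3`'s -/
theorem exists_two_three (m : ℕ) : ∃ v : Multiset ℕ, (∀ p ∈ v, p.Prime) ∧
    Multiset.card v ≤ m + 1 ∧ v.sum = m + 2 := by
  induction m using Nat.strong_induction_on with
  | _ m ih =>
  rcases Nat.lt_or_ge m 2 with h | h
  · interval_cases m
    · exact ⟨{2}, by simp [Nat.prime_two], by simp, by simp⟩
    · exact ⟨{3}, by simp [Nat.prime_three], by simp, by simp⟩
  · obtain ⟨v, hv, hc, hs⟩ := ih (m - 2) (by omega)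
    refine ⟨2 ::ₘ v, ?_, ?_, ?_⟩
    · intro x hx
      rcases Multiset.mem_cons.1 hx with rfl | hx
      · exact Nat.prime_two
      · exact hv x hx
    · rw [Multiset.card_cons]; omega
    · rw [Multiset.sum_cons, hs]; omega

theorem exists_primes (t : Multiset ℕ) (ht : ∀ b ∈ t, b ∈ base) :
    ∃ (m : ℕ) (u : Multiset ℕ), (∀ p ∈ u, p.Prime) ∧ m ≤ Multiset.card t ∧
      Multiset.card u ≤ 2 * Multiset.card t ∧ u.sum + m = t.sum := by
  induction t using Multiset.induction_on with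
  | empty => exact ⟨0, 0, by simp, by simp, by simp, by simp⟩
  | cons b t ih =>
    obtain ⟨m, u, hu, hm, hc, hs⟩ := ih fun x hx => ht x (Multiset.mem_cons_of_mem hx)
    rcases ht b (Multiset.mem_cons_self b t) with h | h | h
    · exact ⟨m, u, hu, by rw [Multiset.card_cons]; omega, by rw [Multiset.card_cons]; omega,
        by rw [Multiset.sum_cons]; omega⟩
    · exact ⟨m + 1, u, hu, by rw [Multiset.card_cons]; omega, by rw [Multiset.card_cons]; omega,
        by rw [Multiset.sum_cons]; omega⟩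
    · obtain ⟨p, q, hp, hq, hpq⟩ := exists_add_of_r_pos h
      refine ⟨m, p ::ₘ q ::ₘ u, ?_, ?_, ?_, ?_⟩
      · intro x hx
        rcases Multiset.mem_cons.1 hx with rfl | hx
        · exact hp
        rcases Multiset.mem_cons.1 hx with rfl | hx
        · exact hq
        · exact hu x hx
      · rw [Multiset.card_cons]; omega
      · rw [Multiset.card_cons, Multiset.card_cons, Multiset.card_cons]; omega
      · rw [Multiset.sum_cons, Multiset.sum_cons, Multiset.sum_cons]; omega

open Classical in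
theorem density_base_pos (hD : DensityStmt) : 0 < schnirelmannDensity base := by
  obtain ⟨c, hc, hD⟩ := hD
  obtain ⟨N₀, hN₀⟩ := eventually_atTop.1 hD
  have hpos : 0 < min c (1 / ((N₀ : ℝ) + 1)) := lt_min hc (by positivity)
  refine lt_of_lt_of_le hpos ?_
  rw [le_schnirelmannDensity_iff]
  intro n hn
  have hn0 : (0 : ℝ) < n := by exact_mod_cast hn
  rw [le_div_iff₀ hn0]
  rcases Nat.lt_or_ge n N₀ with h | h
  · have h1 : 1 ≤ #{a ∈ Ioc 0 n | a ∈ base} :=
      card_pos.2 ⟨1, mem_filter.2 ⟨mem_Ioc.2 ⟨one_pos, hn⟩, Or.inr (Or.inl rfl)⟩⟩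
    have h2 : (1 : ℝ) ≤ #{a ∈ Ioc 0 n | a ∈ base} := by exact_mod_cast h1
    refine le_trans ?_ h2
    have h3 : (n : ℝ) ≤ N₀ + 1 := by exact_mod_cast (by omega : n ≤ N₀ + 1)
    calc min c (1 / ((N₀ : ℝ) + 1)) * n ≤ 1 / ((N₀ : ℝ) + 1) * n := by
          gcongr; exact min_le_right _ _
      _ ≤ 1 := by rw [div_mul_eq_mul_div, one_mul, div_le_one (by positivity)]; exact h3
  · have h1 := hN₀ n h
    have h2 : #{m ∈ Icc 1 n | 0 < r m} ≤ #{a ∈ Ioc 0 n | a ∈ base} := by
      refine card_le_card fun x hx => ?_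
      rw [mem_filter, mem_Icc] at hx
      rw [mem_filter, mem_Ioc]
      exact ⟨by omega, Or.inr (Or.inr hx.2)⟩
    have h3 : (#{m ∈ Icc 1 n | 0 < r m} : ℝ) ≤ #{a ∈ Ioc 0 n | a ∈ base} := by exact_mod_cast h2
    refine le_trans ?_ (h1.trans h3)
    gcongr
    exact min_le_left _ _

/-- (F) the theorem of Schnirelmann -/
theorem mainStmt (hD : DensityStmt) (hB : BasisStmt) : MainStmt := by
  classical
  obtain ⟨k, hk⟩ := hB base (Or.inl rfl) (density_base_pos hD)
  refine ⟨3 * k + 1, fun n hn => ?_⟩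
  obtain ⟨t, ht, hc, hs⟩ := hk (n - 2)
  obtain ⟨m, u, hu, hm, hcu, hsu⟩ := exists_primes t ht
  obtain ⟨v, hv, hcv, hsv⟩ := exists_two_three m
  refine ⟨u + v, ?_, ?_, ?_⟩
  · intro x hx
    rcases Multiset.mem_add.1 hx with hx | hx
    · exact hu x hx
    · exact hv x hx
  · rw [Multiset.card_add]; omega
  · rw [Multiset.sum_add]; omega

end Fermat.Agent.Cor.Gold
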