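import Fermat.Agent.Corollaries.Gold.Defs

/-!
# The mean square of `σ(n) / n`

`∑_{n ≤ N} (σ(n) / n) ^ 2 ≤ C N`: by Cauchy's inequality
`(∑_{d ∣ n} d⁻¹) ^ 2 ≤ (∑_{d ∣ n} d^(-3/2)) (∑_{d ∣ n} d^(-1/2))`, and
`∑_{n ≤ N} ∑_{d ∣ n} d^(-1/2) ≤ ∑_{d ≤ N} d^(-1/2) N / d`.
-/

set_option autoImplicit false

open Finset

namespace Fermat.Agent.Cor.Gold

/-- `∑ d^(-3/2)` -/
noncomputable def zet : ℝ := ∑' d : ℕ, (d : ℝ) ^ (-(3 / 2) : ℝ)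

theorem summable_zet : Summable fun d : ℕ => (d : ℝ) ^ (-(3 / 2) : ℝ) :=
  Real.summable_nat_rpow.2 (by norm_num)

theorem sum_le_zet (t : Finset ℕ) : ∑ d ∈ t, (d : ℝ) ^ (-(3 / 2) : ℝ) ≤ zet :=
  summable_zet.sum_le_tsum t fun d _ => Real.rpow_nonneg (Nat.cast_nonneg d) _

theorem zet_pos : 0 < zet := by
  refine lt_of_lt_of_le one_pos ((sum_le_zet {1}).trans' ?_)
  simp

theorem s_sq_le (n : ℕ) : s n ^ 2 ≤ zet * ∑ d ∈ n.divisors, (d : ℝ) ^ (-(1 / 2) : ℝ) := by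
  have h1 : s n = ∑ d ∈ n.divisors, (d : ℝ) ^ (-(3 / 4) : ℝ) * (d : ℝ) ^ (-(1 / 4) : ℝ) := by
    refine Finset.sum_congr rfl fun d hd => ?_
    have hd0 : (0 : ℝ) < d := by exact_mod_cast Nat.pos_of_mem_divisors hd
    rw [← Real.rpow_add hd0, show (-(3 / 4) + -(1 / 4) : ℝ) = -1 by norm_num, Real.rpow_neg_one,
      one_div]
  have h2 : ∀ d : ℕ, ((d : ℝ) ^ (-(3 / 4) : ℝ)) ^ 2 = (d : ℝ) ^ (-(3 / 2) : ℝ) := fun d => by
    rw [← Real.rpow_natCast, ← Real.rpow_mul (Nat.cast_nonneg d)]; norm_num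
  have h3 : ∀ d : ℕ, ((d : ℝ) ^ (-(1 / 4) : ℝ)) ^ 2 = (d : ℝ) ^ (-(1 / 2) : ℝ) := fun d => by
    rw [← Real.rpow_natCast, ← Real.rpow_mul (Nat.cast_nonneg d)]; norm_num
  rw [h1]
  refine (Finset.sum_mul_sq_le_sq_mul_sq _ _ _).trans ?_
  simp only [h2, h3]
  exact mul_le_mul_of_nonneg_right (sum_le_zet _)
    (Finset.sum_nonneg fun d _ => Real.rpow_nonneg (Nat.cast_nonneg d) _)

theorem card_dvd_le (N d : ℕ) : (#{n ∈ Icc 1 N | d ∣ n} : ℝ) ≤ (N : ℝ) / d := by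
  have h : Icc 1 N = Ioc 0 N := by
    ext x
    simp only [mem_Icc, mem_Ioc]
    omega
  rw [h, Nat.Ioc_filter_dvd_card_eq_div]
  exact Nat.cast_div_le

theorem sum_divisors_le (N : ℕ) :
    ∑ n ∈ Icc 1 N, ∑ d ∈ n.divisors, (d : ℝ) ^ (-(1 / 2) : ℝ) ≤ N * zet := by
  have h1 : ∀ n ∈ Icc 1 N, ∑ d ∈ n.divisors, (d : ℝ) ^ (-(1 / 2) : ℝ) =
      ∑ d ∈ Icc 1 N, if d ∣ n then (d : ℝ) ^ (-(1 / 2) : ℝ) else 0 := by
    intro n hn
    rw [← Finset.sum_filter]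
    refine Finset.sum_congr ?_ fun _ _ => rfl
    ext d
    rw [mem_Icc] at hn
    simp only [Nat.mem_divisors, mem_filter, mem_Icc]
    constructor
    · rintro ⟨h, h0⟩
      exact ⟨⟨Nat.pos_of_dvd_of_pos h (by omega), (Nat.le_of_dvd (by omega) h).trans hn.2⟩, h⟩
    · rintro ⟨_, h⟩
      exact ⟨h, by omega⟩
  rw [Finset.sum_congr rfl h1, Finset.sum_comm]
  refine (Finset.sum_le_sum (g := fun d : ℕ => (N : ℝ) * (d : ℝ) ^ (-(3 / 2) : ℝ))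
    fun d hd => ?_).trans ?_
  · rw [← Finset.sum_filter, Finset.sum_const, nsmul_eq_mul]
    have hd0 : (0 : ℝ) < d := by exact_mod_cast (mem_Icc.1 hd).1
    refine (mul_le_mul_of_nonneg_right (card_dvd_le N d)
      (Real.rpow_nonneg (Nat.cast_nonneg d) _)).trans (le_of_eq ?_)
    rw [show (-(3 / 2) : ℝ) = -1 + -(1 / 2) by norm_num, Real.rpow_add hd0, Real.rpow_neg_one]
    ring
  · rw [← Finset.mul_sum]
    exact mul_le_mul_of_nonneg_left (sum_le_zet _) (Nat.cast_nonneg N)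

/-- **(M2)** The mean square of `σ(n) / n` is bounded. -/
theorem meanSqStmt : MeanSqStmt := by
  refine ⟨zet * zet, mul_pos zet_pos zet_pos, fun N => ?_⟩
  calc ∑ n ∈ Icc 1 N, s n ^ 2
      ≤ ∑ n ∈ Icc 1 N, zet * ∑ d ∈ n.divisors, (d : ℝ) ^ (-(1 / 2) : ℝ) :=
        Finset.sum_le_sum fun n _ => s_sq_le n
    _ = zet * ∑ n ∈ Icc 1 N, ∑ d ∈ n.divisors, (d : ℝ) ^ (-(1 / 2) : ℝ) := by
        rw [Finset.mul_sum]
    _ ≤ zet * (N * zet) := mul_le_mul_of_nonneg_left (sum_divisors_le N) zet_pos.le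
    _ = zet * zet * N := by ring

end Fermat.Agent.Cor.Gold
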