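import Fermat.Agent.Corollaries.Gold.Defs

/-!
# Schnirelmann's theorem: the upper bound for the number of representations as a sum of two primes

The sieve with `z = ⌊n^(1/7)⌋`.
-/

set_option autoImplicit false

open Finset Filter

namespace Fermat.Agent.Cor.Gold

theorem exists_seventh_root (n : ℕ) : ∃ z : ℕ, z ^ 7 ≤ n ∧ n < (z + 1) ^ 7 := by
  have h : ∃ w : ℕ, n < (w + 1) ^ 7 :=
    ⟨n, lt_of_lt_of_le (Nat.lt_succ_self n) (Nat.le_self_pow (by norm_num) _)⟩
  classical
  refine ⟨Nat.find h, ?_, Nat.find_spec h⟩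
  rcases Nat.eq_zero_or_pos (Nat.find h) with h0 | h0
  · rw [h0]; simp
  · have h1 := Nat.find_min h (m := Nat.find h - 1) (by omega)
    have h2 : Nat.find h - 1 + 1 = Nat.find h := by omega
    rw [h2] at h1
    exact not_lt.1 h1

theorem r_le_two_of_odd {n : ℕ} (hn : Odd n) : r n ≤ 2 := by
  have hsub : {p ∈ range n | p.Prime ∧ (n - p).Prime} ⊆ {2, n - 2} := by
    intro p hp
    rw [mem_filter, mem_range] at hp
    rw [mem_insert, mem_singleton]
    rcases hp.2.1.eq_two_or_odd' with h | h
    · exact Or.inl h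
    · right
      rcases hp.2.2.eq_two_or_odd' with h' | h'
      · omega
      · exfalso
        have h2 := h.add_odd h'
        rw [Nat.add_sub_cancel' hp.1.le] at h2
        exact (Nat.not_even_iff_odd.2 hn) h2
  exact (card_le_card hsub).trans card_le_two

theorem r_le_sieve (n z : ℕ) :
    r n ≤ 2 * z + #{i ∈ range n | ∀ p ∈ P z, ¬ p ∣ i * (n - i)} := by
  have hsub : {p ∈ range n | p.Prime ∧ (n - p).Prime} ⊆
      (Icc 1 z ∪ (Icc 1 z).image (fun i => n - i)) ∪
        {i ∈ range n | ∀ p ∈ P z, ¬ p ∣ i * (n - i)} := by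
    intro q hq
    rw [mem_filter, mem_range] at hq
    by_cases h : ∀ p ∈ P z, ¬ p ∣ q * (n - q)
    · exact mem_union_right _ (mem_filter.2 ⟨mem_range.2 hq.1, h⟩)
    · push Not at h
      obtain ⟨p, hp, hd⟩ := h
      rw [P, mem_filter, mem_Icc] at hp
      refine mem_union_left _ ?_
      rcases hp.2.dvd_mul.1 hd with h | h
      · have e : p = q := (Nat.prime_dvd_prime_iff_eq hp.2 hq.2.1).1 h
        exact mem_union_left _ (mem_Icc.2 (by omega))
      · have e : p = n - q := (Nat.prime_dvd_prime_iff_eq hp.2 hq.2.2).1 h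
        exact mem_union_right _ (mem_image.2 ⟨p, mem_Icc.2 hp.1, by omega⟩)
  have h1 : #(Icc 1 z ∪ (Icc 1 z).image (fun i => n - i)) ≤ 2 * z := by
    refine (card_union_le _ _).trans ?_
    have h2 : #((Icc 1 z).image (fun i => n - i)) ≤ #(Icc 1 z) := card_image_le
    rw [Nat.card_Icc] at *
    omega
  calc r n ≤ _ := card_le_card hsub
    _ ≤ _ := card_union_le _ _
    _ ≤ _ := by omega

theorem one_le_s {n : ℕ} (hn : n ≠ 0) : 1 ≤ s n := by
  have h := single_le_sum (f := fun e : ℕ => 1 / (e : ℝ)) (s := n.divisors)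
    (fun _ _ => by positivity) (Nat.one_mem_divisors.2 hn)
  simpa [s] using h

theorem log_le_two_sqrt {x : ℝ} (hx : 0 < x) : Real.log x ≤ 2 * √x := by
  have h1 := Real.log_le_sub_one_of_pos (Real.sqrt_pos.2 hx)
  rw [Real.log_sqrt hx.le] at h1
  linarith

/-- (R) the upper bound for the number of representations -/
theorem upperStmt (hS : SelbergStmt) (hL : LocalStmt) (h1 : GOneStmt) (h2 : GTwoStmt)
    (h3 : GThreeStmt) : UpperStmt := by
  obtain ⟨c, hc, h3⟩ := h3
  refine ⟨3000 + 196 / c, by positivity, fun n hn => ?_⟩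
  have hn0 : (2 : ℝ) ≤ n := by exact_mod_cast hn
  have hs : 1 ≤ s n := one_le_s (by omega)
  have hlog : 0 < Real.log n := Real.log_pos (by linarith)
  set L := Real.log n with hLdef
  have hc' : 0 < 196 / c := by positivity
  have hD : 0 < (n : ℝ) / L ^ 2 := by positivity
  -- a bound without `s`
  have hbase : ∀ a : ℝ, 0 ≤ a → a ≤ 3000 → a * (n / L ^ 2) ≤ (3000 + 196 / c) * s n * n / L ^ 2 := by
    intro a ha0 ha
    have : (3000 + 196 / c) * s n * n / L ^ 2 = ((3000 + 196 / c) * s n) * (n / L ^ 2) := by ring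
    rw [this]
    refine mul_le_mul_of_nonneg_right ?_ hD.le
    nlinarith [mul_le_mul_of_nonneg_left hs (show 0 ≤ 3000 + 196 / c by positivity)]
  rcases Nat.even_or_odd n with he | ho
  swap
  · have h4 : (r n : ℝ) ≤ 2 := by exact_mod_cast r_le_two_of_odd ho
    have h5 : L ^ 2 ≤ 4 * n := by
      calc L ^ 2 ≤ (2 * √(n : ℝ)) ^ 2 :=
            pow_le_pow_left₀ hlog.le (log_le_two_sqrt (by linarith)) 2
        _ = 4 * √(n : ℝ) ^ 2 := by ring
        _ = 4 * n := by rw [Real.sq_sqrt (by linarith)]
    have h6 : (2 : ℝ) ≤ 8 * (n / L ^ 2) := by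
      rw [mul_div_assoc', le_div_iff₀ (by positivity)]; linarith
    exact (h4.trans h6).trans (hbase 8 (by norm_num) (by norm_num))
  · obtain ⟨z, hz, hz'⟩ := exists_seventh_root n
    have hz1 : 1 ≤ z := by
      rcases Nat.eq_zero_or_pos z with h | h
      · rw [h] at hz'; norm_num at hz'; omega
      · exact h
    have hlz1 : L ≤ 7 * Real.log (z + 1) := by
      have h4 : (n : ℝ) ≤ (z + 1 : ℝ) ^ 7 := by exact_mod_cast hz'.le
      calc L ≤ Real.log ((z + 1 : ℝ) ^ 7) := Real.log_le_log (by linarith) h4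
        _ = 7 * Real.log (z + 1) := by rw [Real.log_pow]; norm_num
    rcases Nat.lt_or_ge z 2 with hz2 | hz2
    · have hz0 : z = 1 := by omega
      have h4 : (r n : ℝ) ≤ n := by
        have : r n ≤ n := (card_filter_le _ _).trans (card_range n).le
        exact_mod_cast this
      have h5 : L ≤ 7 := by
        rw [hz0] at hlz1
        have := Real.log_two_lt_d9
        norm_num at hlz1
        linarith
      have h6 : (n : ℝ) ≤ 49 * (n / L ^ 2) := by
        rw [mul_div_assoc', le_div_iff₀ (by positivity)]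
        have : L ^ 2 ≤ 49 := by nlinarith
        nlinarith
      exact (h4.trans h6).trans (hbase 49 (by norm_num) (by norm_num))
    · have hzr : (2 : ℝ) ≤ z := by exact_mod_cast hz2
      have hlz0 : 0 < Real.log z := Real.log_pos (by linarith)
      have hlz : L ≤ 14 * Real.log z := by
        have h4 : Real.log (z + 1) ≤ 2 * Real.log z := by
          have : (z : ℝ) + 1 ≤ (z : ℝ) ^ 2 := by nlinarith
          calc Real.log (z + 1) ≤ Real.log ((z : ℝ) ^ 2) := Real.log_le_log (by linarith) this
            _ = 2 * Real.log z := by rw [Real.log_pow]; norm_num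
        linarith
      -- the sieve
      have hsv := hS (range n) (P z) (fun p hp => (mem_filter.1 hp).2)
        (fun p i => p ∣ i * (n - i)) n (Nat.cast_nonneg n) (om n) (by
          intro p hp
          have hpp : p.Prime := (mem_filter.1 hp).2
          have hp2 : (2 : ℝ) ≤ p := by exact_mod_cast hpp.two_le
          unfold om
          split_ifs with h
          · exact ⟨le_rfl, by norm_num, by linarith⟩
          · refine ⟨by norm_num, le_rfl, ?_⟩
            have h3' : 3 ≤ p := by
              rcases hpp.eq_two_or_odd' with h' | h'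
              · exact absurd (h' ▸ he.two_dvd) h
              · have := hpp.two_le
                rcases h' with ⟨k, hk⟩
                omega
            have : (3 : ℝ) ≤ p := by exact_mod_cast h3'
            linarith)
        (fun D hDs => hL n D fun p hp => (mem_filter.1 (hDs hp)).2) z hz1
      have hG : (r n : ℝ) ≤ 2 * z + (n / G n z + (z : ℝ) ^ 6) := by
        have h4 : (r n : ℝ) ≤ 2 * z + (#{i ∈ range n | ∀ p ∈ P z, ¬ p ∣ i * (n - i)} : ℝ) := by
          exact_mod_cast r_le_sieve n z
        refine h4.trans ?_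
        gcongr
        exact hsv
      have hs0 : 0 < s n := by linarith
      have hGl : c * Real.log z ^ 2 ≤ s n * G n z :=
        (h3 z hz1).trans ((h2 n z (by omega)).trans
          (mul_le_mul_of_nonneg_left (h1 n z he) hs0.le))
      have hGl' : c * (L ^ 2 / 196) ≤ s n * G n z := by
        refine le_trans (mul_le_mul_of_nonneg_left ?_ hc.le) hGl
        rw [div_le_iff₀ (by norm_num)]
        nlinarith
      have hG0 : 0 < G n z := by
        have : 0 < s n * G n z := lt_of_lt_of_le (by positivity) hGl'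
        exact (pos_iff_pos_of_mul_pos this).1 hs0
      have hA : (n : ℝ) / G n z ≤ 196 / c * s n * (n / L ^ 2) := by
        rw [div_le_iff₀ hG0]
        calc (n : ℝ) = 196 / c * (n / L ^ 2) * (c * (L ^ 2 / 196)) := by field_simp
          _ ≤ 196 / c * (n / L ^ 2) * (s n * G n z) :=
            mul_le_mul_of_nonneg_left hGl' (by positivity)
          _ = _ := by ring
      have hB : (z : ℝ) ^ 6 ≤ 784 * (n / L ^ 2) := by
        rw [mul_div_assoc', le_div_iff₀ (by positivity)]
        have h4 : L ^ 2 ≤ 784 * z := by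
          have h5 : L ≤ 28 * √(z : ℝ) := by
            have := log_le_two_sqrt (show (0 : ℝ) < z by linarith)
            linarith
          calc L ^ 2 ≤ (28 * √(z : ℝ)) ^ 2 := pow_le_pow_left₀ hlog.le h5 2
            _ = 784 * √(z : ℝ) ^ 2 := by ring
            _ = _ := by rw [Real.sq_sqrt (by linarith)]
        have h5 : (z : ℝ) ^ 7 ≤ n := by exact_mod_cast hz
        calc (z : ℝ) ^ 6 * L ^ 2 ≤ (z : ℝ) ^ 6 * (784 * z) :=
              mul_le_mul_of_nonneg_left h4 (by positivity)
          _ = 784 * (z : ℝ) ^ 7 := by ring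
          _ ≤ 784 * (n : ℝ) := by linarith
      have hz6 : (z : ℝ) ≤ (z : ℝ) ^ 6 := le_self_pow₀ (by linarith) (by norm_num)
      calc (r n : ℝ) ≤ 2 * z + (n / G n z + (z : ℝ) ^ 6) := hG
        _ ≤ 2352 * (n / L ^ 2) + 196 / c * s n * (n / L ^ 2) := by linarith
        _ ≤ 3000 * s n * (n / L ^ 2) + 196 / c * s n * (n / L ^ 2) := by
          have : (2352 : ℝ) ≤ 3000 * s n := by linarith
          have := mul_le_mul_of_nonneg_right this hD.le
          linarith
        _ = _ := by ring

end Fermat.Agent.Cor.Gold
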