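import Fermat.Agent.Corollaries.Gold.Selberg
import Fermat.Agent.Corollaries.Gold.Local
import Fermat.Agent.Corollaries.Gold.GOne
import Fermat.Agent.Corollaries.Gold.GTwo
import Fermat.Agent.Corollaries.Gold.GThree
import Fermat.Agent.Corollaries.Gold.Upper
import Fermat.Agent.Corollaries.Gold.Lower
import Fermat.Agent.Corollaries.Gold.MeanSq
import Fermat.Agent.Corollaries.Gold.Density
import Fermat.Agent.Corollaries.Gold.Basis
import Fermat.Agent.Corollaries.Gold.Main

/-!
# Schnirelmann's theorem

L. G. Schnirelmann, 1930: there is a number `k` such that every integer `n ≥ 2` is a sum of at most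
`k` prime numbers.
-/

set_option autoImplicit false

open Finset Filter

namespace Fermat.Agent.Cor.Gold

/-- **The upper bound for the number of representations of `n` as a sum of two primes.** -/
theorem r_le : ∃ C : ℝ, 0 < C ∧ ∀ n : ℕ, 2 ≤ n →
    (#{p ∈ range n | p.Prime ∧ (n - p).Prime} : ℝ) ≤
      C * (∑ e ∈ n.divisors, 1 / (e : ℝ)) * n / Real.log n ^ 2 :=
  upperStmt selbergStmt localStmt gOneStmt gTwoStmt gThreeStmt

/-- **The sums of two primes have positive lower density.** -/
theorem density : ∃ c : ℝ, 0 < c ∧ ∀ᶠ N : ℕ in atTop,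
    c * N ≤ (#{n ∈ Icc 1 N | 0 < r n} : ℝ) :=
  densityStmt r_le lowerStmt meanSqStmt

/-- **Schnirelmann's theorem** (1930): every integer `n ≥ 2` is a sum of at most `k` prime numbers,
with a constant `k`. -/
theorem schnirelmann : ∃ k : ℕ, ∀ n : ℕ, 2 ≤ n → ∃ t : Multiset ℕ,
    (∀ p ∈ t, p.Prime) ∧ Multiset.card t ≤ k ∧ t.sum = n :=
  mainStmt density basisStmt

end Fermat.Agent.Cor.Gold
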