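import Fermat.Agent.Corollaries.Gold.Pair

/-!
# Gaps between consecutive prime numbers (P. Erdős, 1940)

From the upper bound of Selberg's sieve for the number of prime pairs with a given difference
(uniform in the difference) and the prime number theorem (here a hypothesis `hπ`).
-/

set_option autoImplicit false

open Finset Filter Topology

namespace Fermat.Agent.Cor.Gold

namespace PGap

theorem abs_card_dvd_sub_le (a y : ℕ) {M : ℕ} (hM : 0 < M) :
    |(#{n ∈ Ioc a (a + y) | M ∣ n} : ℝ) - y / M| ≤ 1 := by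
  have h0 : {n ∈ Ioc a (a + y) | M ∣ n} = {n ∈ Ioc a (a + y) | n ≡ 0 [MOD M]} :=
    filter_congr fun n _ => Nat.modEq_zero_iff_dvd.symm
  rw [h0]
  have h1 := Nat.Ioc_filter_modEq_card a (a + y) hM 0
  have hM' : (0 : ℚ) < M := by exact_mod_cast hM
  set u : ℚ := (a - (0 : ℕ)) / M with hu
  have h2 : (((a + y : ℕ) : ℚ) - (0 : ℕ)) / M = u + y / M := by
    rw [hu]; push_cast; ring
  rw [h2] at h1
  have h3 : ⌊u⌋ ≤ ⌊u + y / M⌋ := by
    have : (0 : ℚ) ≤ y / M := by positivity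
    exact Int.floor_le_floor (by linarith)
  rw [max_eq_left (by linarith)] at h1
  have h4 : |((#{n ∈ Ioc a (a + y) | n ≡ 0 [MOD M]} : ℕ) : ℚ) - y / M| ≤ 1 := by
    have h5 : ((#{n ∈ Ioc a (a + y) | n ≡ 0 [MOD M]} : ℕ) : ℚ) =
        ((⌊u + y / M⌋ - ⌊u⌋ : ℤ) : ℚ) := by
      rw [← h1]; push_cast; rfl
    rw [h5, abs_le]
    push_cast
    have e1 := Int.floor_le u
    have e2 := Int.lt_floor_add_one u
    have e3 := Int.floor_le (u + y / M)
    have e4 := Int.lt_floor_add_one (u + y / M)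
    constructor <;> linarith
  have h6 : ((|((#{n ∈ Ioc a (a + y) | n ≡ 0 [MOD M]} : ℕ) : ℚ) - y / M| : ℚ) : ℝ) ≤
      ((1 : ℚ) : ℝ) := Rat.cast_le.mpr h4
  rw [Rat.cast_abs] at h6
  push_cast at h6
  exact h6

/-- the mean of `s(h) = ∑_{e ∣ h} 1 / e` over an interval -/
theorem sum_s_le {a b : ℕ} (hab : a ≤ b) :
    ∑ h ∈ Ioc a b, s h ≤ 2 * ((b : ℝ) - a) + 1 + Real.log b := by
  obtain ⟨y, rfl⟩ := Nat.exists_eq_add_of_le hab
  set b := a + y with hb
  have hya : (b : ℝ) - a = y := by rw [hb]; push_cast; ring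
  have h1 : ∀ h ∈ Ioc a b, s h = ∑ e ∈ Icc 1 b, if e ∣ h then 1 / (e : ℝ) else 0 := by
    intro h hh
    rw [mem_Ioc] at hh
    rw [s, ← sum_filter]
    refine sum_congr ?_ fun _ _ => rfl
    ext e
    rw [Nat.mem_divisors, mem_filter, mem_Icc]
    constructor
    · rintro ⟨h1, h2⟩
      exact ⟨⟨Nat.pos_of_dvd_of_pos h1 (by omega), (Nat.le_of_dvd (by omega) h1).trans hh.2⟩, h1⟩
    · rintro ⟨h1, h2⟩
      exact ⟨h2, by omega⟩
  rw [sum_congr rfl h1, sum_comm]
  have h2 : ∀ e ∈ Icc 1 b, ∑ h ∈ Ioc a b, (if e ∣ h then 1 / (e : ℝ) else 0) ≤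
      y * (1 / (e : ℝ) ^ 2) + 1 / e := by
    intro e he
    rw [mem_Icc] at he
    have he0 : (0 : ℝ) < e := by exact_mod_cast he.1
    rw [← sum_filter, sum_const, nsmul_eq_mul]
    have h3 := (abs_le.mp (abs_card_dvd_sub_le a y (M := e) he.1)).2
    have h4 : (#{n ∈ Ioc a b | e ∣ n} : ℝ) ≤ y / e + 1 := by linarith
    calc (#{n ∈ Ioc a b | e ∣ n} : ℝ) * (1 / e) ≤ (y / e + 1) * (1 / e) :=
          mul_le_mul_of_nonneg_right h4 (by positivity)
      _ = _ := by field_simp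
  refine (sum_le_sum h2).trans ?_
  rw [sum_add_distrib, ← mul_sum, hya]
  have h5 := inv_sq_sum b
  have h6 : ∑ e ∈ Icc 1 b, 1 / (e : ℝ) ≤ 1 + Real.log b := by
    have h7 := harmonic_le_one_add_log b
    rw [harmonic_eq_sum_Icc] at h7
    push_cast at h7
    simpa only [one_div] using h7
  have h8 : (y : ℝ) * ∑ e ∈ Icc 1 b, 1 / (e : ℝ) ^ 2 ≤ y * 2 :=
    mul_le_mul_of_nonneg_left h5 (Nat.cast_nonneg y)
  linarith

/-- the difference `p_{n+1} - p_n` of consecutive prime numbers -/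
noncomputable def gap (n : ℕ) : ℕ := Nat.nth Nat.Prime (n + 1) - Nat.nth Nat.Prime n

theorem nth_lt_succ (n : ℕ) : Nat.nth Nat.Prime n < Nat.nth Nat.Prime (n + 1) :=
  Nat.nth_strictMono Nat.infinite_setOfPred_prime (Nat.lt_succ_self n)

theorem gap_eq (n : ℕ) : (gap n : ℝ) = (Nat.nth Nat.Prime (n + 1) : ℝ) - Nat.nth Nat.Prime n := by
  rw [gap, Nat.cast_sub (nth_lt_succ n).le]

theorem gap_pos (n : ℕ) : 0 < gap n := Nat.sub_pos_of_lt (nth_lt_succ n)

theorem sum_gap {k l : ℕ} (h : k ≤ l) :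
    ∑ i ∈ Ico k l, (gap i : ℝ) = (Nat.nth Nat.Prime l : ℝ) - Nat.nth Nat.Prime k := by
  induction l, h using Nat.le_induction with
  | base => simp
  | succ l hl ih => rw [Finset.sum_Ico_succ_top hl, ih, gap_eq]; ring

theorem nth_lt {i N : ℕ} (h : i < Nat.primeCounting N) : Nat.nth Nat.Prime i < N + 1 :=
  Nat.nth_lt_of_lt_count h

theorem card_le_sum (a b N : ℕ) :
    #{i ∈ range (Nat.primeCounting N) | a < gap i ∧ gap i ≤ b} ≤
      ∑ h ∈ Ioc a b, #{n ∈ range (N + 1) | n.Prime ∧ (n + h).Prime} := by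
  rw [← card_image_of_injective _ (Nat.nth_injective Nat.infinite_setOfPred_prime)]
  refine (card_le_card (t := (Ioc a b).biUnion fun h =>
    {n ∈ range (N + 1) | n.Prime ∧ (n + h).Prime}) ?_).trans card_biUnion_le
  intro p hp
  obtain ⟨i, hi, rfl⟩ := mem_image.mp hp
  rw [mem_filter, mem_range] at hi
  refine mem_biUnion.mpr ⟨gap i, mem_Ioc.mpr hi.2, mem_filter.mpr ⟨mem_range.mpr (nth_lt hi.1),
    Nat.prime_nth_prime i, ?_⟩⟩
  rw [gap, Nat.add_sub_cancel' (nth_lt_succ i).le]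
  exact Nat.prime_nth_prime (i + 1)

/-- **The prime gaps are not concentrated**: for `0 ≤ α < β` and large `N` at most
`C (β - α) N / log N` of the primes `p_n ≤ N` satisfy
`α log N < p_{n+1} - p_n ≤ β log N`. -/
theorem window : ∃ C : ℝ, 0 < C ∧ ∀ α β : ℝ, 0 ≤ α → α < β → ∀ᶠ N : ℕ in atTop,
    (#{i ∈ range (Nat.primeCounting N) | α * Real.log N < gap i ∧ gap i ≤ β * Real.log N} : ℝ) ≤
      C * (β - α) * N / Real.log N := by
  obtain ⟨C, hC, hpair⟩ := pairStmt
  refine ⟨6 * C, by positivity, fun α β hα hαβ => ?_⟩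
  have hβ : 0 < β := by linarith
  have hlogN : Tendsto (fun N : ℕ => Real.log N) atTop atTop :=
    Real.tendsto_log_atTop.comp tendsto_natCast_atTop_atTop
  have hev : ∀ᶠ x : ℝ in atTop, 3 + Real.log (β * x + 1) ≤ (β - α) * x := by
    have h1 : Tendsto (fun x : ℝ => β * x + 1) atTop atTop :=
      tendsto_atTop_add_const_right _ _ (Tendsto.const_mul_atTop hβ tendsto_id)
    have h2 := (Real.isLittleO_log_id_atTop.comp_tendsto h1).bound
      (show 0 < (β - α) / (4 * β) by have := sub_pos.mpr hαβ; positivity)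
    filter_upwards [h2, h1.eventually_ge_atTop 1, eventually_ge_atTop (8 / (β - α)),
      eventually_ge_atTop (0 : ℝ), eventually_ge_atTop (1 / β)] with x hx1 hx2 hx3 hx4 hx5
    have hd : 0 < β - α := sub_pos.mpr hαβ
    simp only [Function.comp_apply, id_eq, Real.norm_eq_abs] at hx1
    rw [abs_of_nonneg (Real.log_nonneg hx2), abs_of_nonneg (by linarith)] at hx1
    rw [div_le_iff₀ hd] at hx3
    rw [div_le_iff₀ hβ] at hx5
    have h3 : (β - α) / (4 * β) * (β * x + 1) ≤ (β - α) / (4 * β) * (2 * (β * x)) :=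
      mul_le_mul_of_nonneg_left (by linarith) (by positivity)
    have h4 : (β - α) / (4 * β) * (2 * (β * x)) = (β - α) * x / 2 := by field_simp; ring
    linarith
  filter_upwards [hlogN.eventually hev, hlogN.eventually_gt_atTop 0, eventually_ge_atTop 2]
    with N hN1 hN2 hN3
  set x := Real.log N with hx
  have hN0 : (2 : ℝ) ≤ N := by exact_mod_cast hN3
  set a := ⌊α * x⌋₊ with ha
  set b := ⌊β * x⌋₊ with hb
  have hab : a ≤ b := Nat.floor_le_floor (mul_le_mul_of_nonneg_right hαβ.le hN2.le)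
  have ha1 : (a : ℝ) ≤ α * x := Nat.floor_le (by positivity)
  have ha2 : α * x < a + 1 := Nat.lt_floor_add_one _
  have hb1 : (b : ℝ) ≤ β * x := Nat.floor_le (by positivity)
  have h1 : #{i ∈ range (Nat.primeCounting N) | α * x < gap i ∧ (gap i : ℝ) ≤ β * x} ≤
      ∑ h ∈ Ioc a b, #{n ∈ range (N + 1) | n.Prime ∧ (n + h).Prime} := by
    refine (card_le_card fun i hi => ?_).trans (card_le_sum a b N)
    rw [mem_filter] at hi ⊢
    exact ⟨hi.1, by exact_mod_cast ha1.trans_lt hi.2.1, Nat.le_floor hi.2.2⟩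
  have h2 : ∀ h ∈ Ioc a b, (#{n ∈ range (N + 1) | n.Prime ∧ (n + h).Prime} : ℝ) ≤
      2 * C * N / x ^ 2 * s h := by
    intro h hh
    rw [mem_Ioc] at hh
    have h3 := hpair h (N + 1) (by omega) (by omega)
    refine h3.trans ?_
    have hs : 0 ≤ s h := by unfold s; positivity
    have h4 : x ≤ Real.log ((N + 1 : ℕ) : ℝ) :=
      Real.log_le_log (by linarith) (by push_cast; linarith)
    have h5 : x ^ 2 ≤ Real.log ((N + 1 : ℕ) : ℝ) ^ 2 := pow_le_pow_left₀ hN2.le h4 2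
    calc C * s h * ((N + 1 : ℕ) : ℝ) / Real.log ((N + 1 : ℕ) : ℝ) ^ 2
        ≤ C * s h * (2 * N) / x ^ 2 := by
          refine div_le_div₀ (by positivity) ?_ (by positivity) h5
          refine mul_le_mul_of_nonneg_left ?_ (by positivity)
          push_cast
          linarith
      _ = _ := by ring
  have h3 : (#{i ∈ range (Nat.primeCounting N) | α * x < gap i ∧ (gap i : ℝ) ≤ β * x} : ℝ) ≤
      2 * C * N / x ^ 2 * ∑ h ∈ Ioc a b, s h := by
    rw [mul_sum]
    refine le_trans ?_ (sum_le_sum h2)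
    exact_mod_cast h1
  refine h3.trans ?_
  have h4 := sum_s_le hab
  have h5 : Real.log b ≤ Real.log (β * x + 1) := by
    rcases Nat.eq_zero_or_pos b with h | h
    · rw [h, Nat.cast_zero, Real.log_zero]
      exact Real.log_nonneg (by have := mul_pos hβ hN2; linarith)
    · exact Real.log_le_log (by exact_mod_cast h) (by linarith)
  have h6 : ∑ h ∈ Ioc a b, s h ≤ 3 * ((β - α) * x) := by linarith
  calc 2 * C * N / x ^ 2 * ∑ h ∈ Ioc a b, s h ≤ 2 * C * N / x ^ 2 * (3 * ((β - α) * x)) :=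
        mul_le_mul_of_nonneg_left h6 (by positivity)
    _ = 6 * C * (β - α) * N / x := by field_simp; ring

end PGap

end Fermat.Agent.Cor.Gold
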