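import Fermat.Agent.Corollaries.Gold.Gaps
import Fermat.Agent.Corollaries.ZetaK.PNTAP

/-!
# Small and large gaps between consecutive prime numbers (P. Erdős, 1940)

`p_{n+1} - p_n ≤ c log p_n` for infinitely many `n` with a constant `c < 1`, and
`p_{n+1} - p_n ≥ c log p_n` for infinitely many `n` with a constant `c > 1`. By the prime number
theorem the mean of `p_{n+1} - p_n` is `log p_n`; if all differences were greater than
`(1 - ε) log p_n`, at most `O(ε N / log N)` of them would be less than `(1 + ε) log N` (`window`), so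
the sum of all of them, up to `N`, would be at least `(1 + ε / 2) N`.
-/

set_option autoImplicit false

open Finset Filter Topology

namespace Fermat.Agent.Cor.Gold

namespace PGap

theorem eventually_pi {δ : ℝ} (hδ : 0 < δ) : ∀ᶠ N : ℕ in atTop,
    (1 - δ) * N ≤ Nat.primeCounting N * Real.log N ∧
      Nat.primeCounting N * Real.log N ≤ (1 + δ) * N := by
  have h1 := prime_number_theorem.eventually
    (Icc_mem_nhds (show 1 - δ < 1 by linarith) (show (1 : ℝ) < 1 + δ by linarith))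
  filter_upwards [h1, eventually_gt_atTop 0] with N hN hN0
  have h2 : (0 : ℝ) < N := by exact_mod_cast hN0
  exact ⟨(le_div_iff₀ h2).mp hN.1, (div_le_iff₀ h2).mp hN.2⟩

theorem eventually_small {ε δ c : ℝ} (hε : 0 < ε) (hδ : 0 < δ) (hc : 0 ≤ c) :
    ∀ᶠ N : ℕ in atTop, ((N : ℝ) ^ (1 - ε) + c) * Real.log N ≤ δ * N := by
  have h1 := (isLittleO_log_rpow_atTop hε).bound (show 0 < δ / 2 by positivity)
  have h2 := Real.isLittleO_log_id_atTop.bound (show 0 < δ / (2 * (c + 1)) by positivity)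
  have h3 := (tendsto_natCast_atTop_atTop (R := ℝ)).eventually (h1.and h2)
  filter_upwards [h3, eventually_ge_atTop 1] with N hN hN1
  have hN0 : (1 : ℝ) ≤ N := by exact_mod_cast hN1
  have hlog := Real.log_nonneg hN0
  obtain ⟨h4, h5⟩ := hN
  rw [Real.norm_of_nonneg hlog, Real.norm_of_nonneg (by positivity)] at h4
  rw [Real.norm_of_nonneg hlog, id, Real.norm_of_nonneg (by positivity)] at h5
  have h6 : (N : ℝ) ^ (1 - ε) * Real.log N ≤ δ / 2 * N := by
    calc (N : ℝ) ^ (1 - ε) * Real.log N ≤ (N : ℝ) ^ (1 - ε) * (δ / 2 * (N : ℝ) ^ ε) :=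
          mul_le_mul_of_nonneg_left h4 (by positivity)
      _ = δ / 2 * ((N : ℝ) ^ (1 - ε) * (N : ℝ) ^ ε) := by ring
      _ = δ / 2 * N := by
          rw [← Real.rpow_add (by linarith), sub_add_cancel, Real.rpow_one]
  have h7 : c * Real.log N ≤ δ / 2 * N := by
    calc c * Real.log N ≤ (c + 1) * (δ / (2 * (c + 1)) * N) :=
          mul_le_mul (by linarith) h5 hlog (by linarith)
      _ = δ / 2 * N := by field_simp
  linarith [add_mul ((N : ℝ) ^ (1 - ε)) c (Real.log N)]

end PGap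

open PGap

/-- **Small gaps between primes** (Erdős 1940): there is a constant `c < 1` such that
`p_{n+1} - p_n ≤ c log p_n` for infinitely many `n`. -/
theorem infinite_small_gaps : ∃ c : ℝ, 0 < c ∧ c < 1 ∧ {n : ℕ | (Nat.nth Nat.Prime (n + 1) : ℝ) -
    Nat.nth Nat.Prime n ≤ c * Real.log (Nat.nth Nat.Prime n)}.Infinite := by
  obtain ⟨C, hC, hw⟩ := window
  set ε : ℝ := 1 / (20 * C + 4) with hε
  have hε0 : 0 < ε := by positivity
  have hε1 : ε ≤ 1 / 4 := one_div_le_one_div_of_le (by norm_num) (by linarith)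
  have hCε : 20 * (C * ε) < 1 := by
    rw [hε, mul_one_div, mul_div_assoc', div_lt_one (by positivity)]
    linarith
  refine ⟨1 - ε, by linarith, by linarith, fun hfin => ?_⟩
  obtain ⟨n0, hn0⟩ := hfin.bddAbove
  have hgap : ∀ n, n0 < n → (1 - ε) * Real.log (Nat.nth Nat.Prime n) < gap n := by
    intro n hn
    by_contra h
    rw [not_lt, gap_eq] at h
    exact absurd (hn0 h) (by omega)
  obtain ⟨N, hN1, hN2, hN3, hN4⟩ := ((hw (1 - 2 * ε) (1 + ε) (by linarith) (by linarith)).and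
    ((eventually_pi (δ := ε / 8) (by positivity)).and
    ((eventually_small (c := n0 + 4) (δ := ε / 8) hε0 (by positivity) (by positivity)).and
    (eventually_ge_atTop 3)))).exists
  have hN0 : (3 : ℝ) ≤ N := by exact_mod_cast hN4
  set x := Real.log N with hx
  have hx0 : 0 < x := Real.log_pos (by linarith)
  set M := ⌊(N : ℝ) ^ (1 - ε)⌋₊ with hM
  set k := Nat.primeCounting M + (n0 + 1) with hk
  set l := Nat.primeCounting N - 1 with hl
  have hk1 : (k : ℝ) + 1 ≤ (N : ℝ) ^ (1 - ε) + (n0 + 4) := by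
    have h1 : Nat.primeCounting M ≤ M + 1 := Nat.count_le _
    have h2 : (M : ℝ) ≤ (N : ℝ) ^ (1 - ε) := Nat.floor_le (by positivity)
    have h3 : (Nat.primeCounting M : ℝ) ≤ M + 1 := by exact_mod_cast h1
    rw [hk]
    push_cast
    linarith
  have hl1 : (Nat.primeCounting N : ℝ) ≤ l + 1 := by
    have : Nat.primeCounting N ≤ l + 1 := by omega
    exact_mod_cast this
  have hkx : ((k : ℝ) + 1) * x ≤ ε / 8 * N := (mul_le_mul_of_nonneg_right hk1 hx0.le).trans hN3
  have hlk : (1 - ε / 4) * N ≤ ((l : ℝ) - k) * x := by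
    have h1 := mul_le_mul_of_nonneg_right hl1 hx0.le
    have h2 := hN2.1
    nlinarith
  have hkl : k < l := by
    have h1 : 0 < ((l : ℝ) - k) * x := lt_of_lt_of_le (by
      have : 0 < 1 - ε / 4 := by linarith
      positivity) hlk
    have h2 : (0 : ℝ) < (l : ℝ) - k := (pos_iff_pos_of_mul_pos h1).mpr hx0
    have h3 : (k : ℝ) < l := by linarith
    exact_mod_cast h3
  -- the indices `k ≤ i < l`
  have hi : ∀ i ∈ Ico k l, (1 - 2 * ε) * x < gap i := by
    intro i hi
    rw [mem_Ico] at hi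
    have h1 : M + 1 ≤ Nat.nth Nat.Prime i := by
      refine (Nat.count_le_iff_le_nth Nat.infinite_setOfPred_prime).mp ?_
      have : Nat.primeCounting M ≤ i := by omega
      exact this
    have h2 : (N : ℝ) ^ (1 - ε) < Nat.nth Nat.Prime i := by
      have h3 : (N : ℝ) ^ (1 - ε) < M + 1 := Nat.lt_floor_add_one _
      have h4 : ((M + 1 : ℕ) : ℝ) ≤ Nat.nth Nat.Prime i := by exact_mod_cast h1
      push_cast at h4
      linarith
    have h3 : (1 - ε) * x ≤ Real.log (Nat.nth Nat.Prime i) := by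
      rw [hx, ← Real.log_rpow (by linarith)]
      exact Real.log_le_log (by positivity) h2.le
    have h4 := hgap i (by omega)
    have h5 : (1 - ε) * ((1 - ε) * x) ≤ (1 - ε) * Real.log (Nat.nth Nat.Prime i) :=
      mul_le_mul_of_nonneg_left h3 (by linarith)
    have h6 : (1 - 2 * ε) * x ≤ (1 - ε) * ((1 - ε) * x) := by
      have : (1 - ε) * ((1 - ε) * x) = (1 - 2 * ε) * x + ε ^ 2 * x := by ring
      rw [this]
      have : 0 ≤ ε ^ 2 * x := by positivity
      linarith
    linarith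
  have hsum := sum_gap hkl.le
  have hnl : (Nat.nth Nat.Prime l : ℝ) ≤ N := by
    have h1 : Nat.nth Nat.Prime l < N + 1 := nth_lt (by omega)
    exact_mod_cast (by omega : Nat.nth Nat.Prime l ≤ N)
  have hnk : (0 : ℝ) ≤ Nat.nth Nat.Prime k := Nat.cast_nonneg _
  have hlow : ∑ i ∈ Ico k l, ((1 + ε) * x - if (gap i : ℝ) ≤ (1 + ε) * x then 3 * ε * x else 0) ≤
      ∑ i ∈ Ico k l, (gap i : ℝ) := by
    refine sum_le_sum fun i hi' => ?_
    split_ifs with h
    · have := hi i hi'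
      linarith
    · linarith
  rw [sum_sub_distrib, sum_const, Nat.card_Ico, nsmul_eq_mul, Nat.cast_sub hkl.le, ← sum_filter,
    sum_const, nsmul_eq_mul] at hlow
  have hcard : (#{i ∈ Ico k l | (gap i : ℝ) ≤ (1 + ε) * x} : ℝ) ≤
      C * (1 + ε - (1 - 2 * ε)) * N / x := by
    refine le_trans ?_ hN1
    have : #{i ∈ Ico k l | (gap i : ℝ) ≤ (1 + ε) * x} ≤ #{i ∈ range (Nat.primeCounting N) |
        (1 - 2 * ε) * x < gap i ∧ (gap i : ℝ) ≤ (1 + ε) * x} := by
      refine card_le_card fun i hi' => ?_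
      rw [mem_filter] at hi' ⊢
      have h1 := mem_Ico.mp hi'.1
      exact ⟨mem_range.mpr (by omega), hi i hi'.1, hi'.2⟩
    exact_mod_cast this
  have h1 : (#{i ∈ Ico k l | (gap i : ℝ) ≤ (1 + ε) * x} : ℝ) * (3 * ε * x) ≤ 9 * (C * ε) * ε * N := by
    calc (#{i ∈ Ico k l | (gap i : ℝ) ≤ (1 + ε) * x} : ℝ) * (3 * ε * x)
        ≤ (C * (1 + ε - (1 - 2 * ε)) * N / x) * (3 * ε * x) :=
          mul_le_mul_of_nonneg_right hcard (by positivity)
      _ = _ := by field_simp; ring
  have h2 : (1 + ε) * ((1 - ε / 4) * N) ≤ (1 + ε) * (((l : ℝ) - k) * x) :=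
    mul_le_mul_of_nonneg_left hlk (by linarith)
  have h3 : (1 + ε) * ((1 - ε / 4) * N) ≤ N + 9 * (C * ε) * ε * N := by
    have h4 : ((l : ℝ) - k) * ((1 + ε) * x) = (1 + ε) * (((l : ℝ) - k) * x) := by ring
    linarith
  have h4 : (0 : ℝ) < N := by linarith
  have h5 : (1 + ε) * (1 - ε / 4) ≤ 1 + 9 * (C * ε) * ε := by
    have h6 : ((1 + ε) * (1 - ε / 4)) * N ≤ (1 + 9 * (C * ε) * ε) * N := by linarith
    exact le_of_mul_le_mul_right h6 h4
  have h6 : 9 * (C * ε) * ε ≤ 9 / 20 * ε := by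
    refine mul_le_mul_of_nonneg_right ?_ hε0.le
    linarith
  nlinarith

/-- **Large gaps between primes**: there is a constant `c > 1` such that
`p_{n+1} - p_n ≥ c log p_n` for infinitely many `n`. -/
theorem infinite_large_gaps : ∃ c : ℝ, 1 < c ∧ {n : ℕ | c * Real.log (Nat.nth Nat.Prime n) ≤
    (Nat.nth Nat.Prime (n + 1) : ℝ) - Nat.nth Nat.Prime n}.Infinite := by
  obtain ⟨C, hC, hw⟩ := window
  set ε : ℝ := 1 / (20 * C + 4) with hε
  have hε0 : 0 < ε := by positivity
  have hε1 : ε ≤ 1 / 4 := one_div_le_one_div_of_le (by norm_num) (by linarith)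
  have hCε : 20 * (C * ε) < 1 := by
    rw [hε, mul_one_div, mul_div_assoc', div_lt_one (by positivity)]
    linarith
  refine ⟨1 + ε, by linarith, fun hfin => ?_⟩
  obtain ⟨n0, hn0⟩ := hfin.bddAbove
  have hgap : ∀ n, n0 < n → (gap n : ℝ) < (1 + ε) * Real.log (Nat.nth Nat.Prime n) := by
    intro n hn
    by_contra h
    rw [not_lt, gap_eq] at h
    exact absurd (hn0 h) (by omega)
  set k := n0 + 1 with hk
  have hev : ∀ᶠ N : ℕ in atTop, (Nat.nth Nat.Prime k : ℝ) ≤ ε / 8 * N := by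
    have h1 : Tendsto (fun N : ℕ => ε / 8 * (N : ℝ)) atTop atTop :=
      Tendsto.const_mul_atTop (by positivity) tendsto_natCast_atTop_atTop
    exact h1.eventually_ge_atTop _
  obtain ⟨N, hN1, hN2, hN3, hN4, hN5⟩ := ((hw (1 - ε) (1 + ε) (by linarith) (by linarith)).and
    ((eventually_pi (δ := ε / 8) (by positivity)).and (hev.and
    ((Nat.tendsto_primeCounting.eventually_ge_atTop k).and (eventually_ge_atTop 3))))).exists
  have hN0 : (3 : ℝ) ≤ N := by exact_mod_cast hN5
  set x := Real.log N with hx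
  have hx0 : 0 < x := Real.log_pos (by linarith)
  set l := Nat.primeCounting N with hl
  have hsum := sum_gap hN4
  have hnl : (N : ℝ) ≤ Nat.nth Nat.Prime l := by
    have h1 : N + 1 ≤ Nat.nth Nat.Prime l :=
      (Nat.count_le_iff_le_nth Nat.infinite_setOfPred_prime).mp le_rfl
    exact_mod_cast (by omega : N ≤ Nat.nth Nat.Prime l)
  have hi : ∀ i ∈ Ico k l, (gap i : ℝ) ≤ (1 + ε) * x := by
    intro i hi
    rw [mem_Ico] at hi
    have h1 : Nat.nth Nat.Prime i < N + 1 := nth_lt hi.2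
    have h2 : (Nat.nth Nat.Prime i : ℝ) ≤ N := by
      exact_mod_cast (by omega : Nat.nth Nat.Prime i ≤ N)
    have h3 : Real.log (Nat.nth Nat.Prime i) ≤ x :=
      Real.log_le_log (by exact_mod_cast (Nat.prime_nth_prime i).pos) h2
    exact (hgap i (by omega)).le.trans (mul_le_mul_of_nonneg_left h3 (by linarith))
  have hup : ∑ i ∈ Ico k l, (gap i : ℝ) ≤
      ∑ i ∈ Ico k l, ((1 - ε) * x + if (1 - ε) * x < gap i then 2 * ε * x else 0) := by
    refine sum_le_sum fun i hi' => ?_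
    split_ifs with h
    · have := hi i hi'
      linarith
    · linarith
  rw [sum_add_distrib, sum_const, Nat.card_Ico, nsmul_eq_mul, Nat.cast_sub hN4, ← sum_filter,
    sum_const, nsmul_eq_mul] at hup
  have hcard : (#{i ∈ Ico k l | (1 - ε) * x < gap i} : ℝ) ≤
      C * (1 + ε - (1 - ε)) * N / x := by
    refine le_trans ?_ hN1
    have : #{i ∈ Ico k l | (1 - ε) * x < gap i} ≤ #{i ∈ range l |
        (1 - ε) * x < gap i ∧ (gap i : ℝ) ≤ (1 + ε) * x} := by
      refine card_le_card fun i hi' => ?_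
      rw [mem_filter] at hi' ⊢
      exact ⟨mem_range.mpr (mem_Ico.mp hi'.1).2, hi'.2, hi i hi'.1⟩
    exact_mod_cast this
  have h1 : (#{i ∈ Ico k l | (1 - ε) * x < gap i} : ℝ) * (2 * ε * x) ≤ 4 * (C * ε) * ε * N := by
    calc (#{i ∈ Ico k l | (1 - ε) * x < gap i} : ℝ) * (2 * ε * x)
        ≤ (C * (1 + ε - (1 - ε)) * N / x) * (2 * ε * x) :=
          mul_le_mul_of_nonneg_right hcard (by positivity)
      _ = _ := by field_simp; ring
  have h2 : ((l : ℝ) - k) * ((1 - ε) * x) ≤ (1 - ε) * ((1 + ε / 8) * N) := by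
    have h3 : ((l : ℝ) - k) * ((1 - ε) * x) ≤ (l : ℝ) * ((1 - ε) * x) :=
      mul_le_mul_of_nonneg_right (by have : (0 : ℝ) ≤ k := Nat.cast_nonneg k; linarith)
        (mul_nonneg (by linarith) hx0.le)
    have h4 : (1 - ε) * (l * x) ≤ (1 - ε) * ((1 + ε / 8) * N) :=
      mul_le_mul_of_nonneg_left hN2.2 (by linarith)
    calc _ ≤ _ := h3
      _ = (1 - ε) * (l * x) := by ring
      _ ≤ _ := h4
  have h4 : (0 : ℝ) < N := by linarith
  have h5 : 1 - ε / 8 ≤ (1 - ε) * (1 + ε / 8) + 4 * (C * ε) * ε := by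
    have h6 : (1 - ε / 8) * N ≤ ((1 - ε) * (1 + ε / 8) + 4 * (C * ε) * ε) * N := by linarith
    exact le_of_mul_le_mul_right h6 h4
  have h6 : 4 * (C * ε) * ε ≤ 4 / 20 * ε := by
    refine mul_le_mul_of_nonneg_right ?_ hε0.le
    linarith
  nlinarith

/-- the difference of consecutive primes is not asymptotic to `log p_n` -/
theorem not_tendsto_gap_div_log : ¬ Tendsto (fun n : ℕ => ((Nat.nth Nat.Prime (n + 1) : ℝ) -
    Nat.nth Nat.Prime n) / Real.log (Nat.nth Nat.Prime n)) atTop (𝓝 1) := by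
  intro h
  obtain ⟨c, -, hc, hinf⟩ := infinite_small_gaps
  obtain ⟨n0, hn0⟩ := eventually_atTop.mp (h.eventually (lt_mem_nhds hc))
  obtain ⟨n, hn, hn'⟩ := hinf.exists_gt n0
  have h1 := hn0 n hn'.le
  have h2 : 0 < Real.log (Nat.nth Nat.Prime n) :=
    Real.log_pos (by exact_mod_cast (Nat.prime_nth_prime n).one_lt)
  rw [lt_div_iff₀ h2] at h1
  exact absurd hn (not_le.mpr h1)

end Fermat.Agent.Cor.Gold
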