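import Fermat.Agent.Corollaries.Gold.Pair
import Fermat.Agent.Corollaries.Brun.Sum

/-!
# Sophie Germain primes

The number of the primes `n < N` such that `a n + b` is prime is at most
`C (σ(a b) / (a b)) N / (log N)²`, uniformly in the coprime numbers `a`, `b`; the sum of the
reciprocals of the primes `p` such that `a p + b` is prime converges. For `a = 2`, `b = 1` these
are Sophie Germain's primes.
-/

set_option autoImplicit false

open Finset Filter Asymptotics
open Fermat.Agent.Cor.Brun (abs_card_modEq_sub_le modEq_prod_iff)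

namespace Fermat.Agent.Cor.Gold

/-- the residue class of the integers `c` divisible by the `p ∈ E`, such that the other `p ∈ D`
divide `a c + b` -/
theorem exists_class_lin {D : Finset ℕ} (hD : ∀ p ∈ D, p.Prime) (a b : ℕ) (E : Finset ℕ)
    (hE : ∀ p ∈ D, p ∉ E → ¬ p ∣ a) :
    ∃ c : ℕ, ∀ p ∈ D, (p ∈ E → p ∣ c) ∧ (p ∉ E → p ∣ a * c + b) := by
  have h1 : ∀ p : ℕ, ∃ x : ℕ, p ∈ D → (p ∈ E → p ∣ x) ∧ (p ∉ E → p ∣ a * x + b) := by
    intro p
    by_cases hp : p ∈ D
    · by_cases hpE : p ∈ E
      · exact ⟨0, fun _ => ⟨fun _ => dvd_zero p, fun h => absurd hpE h⟩⟩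
      · have : Fact p.Prime := ⟨hD p hp⟩
        have h2 : (a : ZMod p) ≠ 0 := by
          rw [Ne, ZMod.natCast_eq_zero_iff]
          exact hE p hp hpE
        refine ⟨(-(b : ZMod p) / a).val, fun _ => ⟨fun h => absurd h hpE, fun _ => ?_⟩⟩
        rw [← ZMod.natCast_eq_zero_iff]
        push_cast
        rw [ZMod.natCast_zmod_val]
        field_simp
        ring
    · exact ⟨0, fun h => absurd h hp⟩
  choose f hf using h1
  obtain ⟨c, hc⟩ := Nat.chineseRemainderOfFinset f
    (fun p => p) D (fun p hp => (hD p hp).ne_zero)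
    fun p hp q hq hpq => (Nat.coprime_primes (hD p hp) (hD q hq)).mpr hpq
  refine ⟨c, fun p hp => ⟨fun hpE => ?_, fun hpE => ?_⟩⟩
  · exact ((hc p hp).dvd_iff dvd_rfl).mpr ((hf p hp).1 hpE)
  · exact (((hc p hp).mul_left a).add_right b |>.dvd_iff dvd_rfl).mpr ((hf p hp).2 hpE)

/-- the number of `i < N` such that all `p ∈ D` divide `i (a i + b)` -/
theorem localLin {a b : ℕ} (hab : a.Coprime b) (N : ℕ) {D : Finset ℕ} (hD : ∀ p ∈ D, p.Prime) :
    |(#{i ∈ range N | ∀ p ∈ D, p ∣ i * (a * i + b)} : ℝ) -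
      N * ∏ p ∈ D, (om (a * b) p / p)| ≤ 2 ^ #D := by
  have hM : 0 < ∏ p ∈ D, p := prod_pos fun p hp => (hD p hp).pos
  set D' := D.filter (fun p => ¬ p ∣ a * b) with hD'
  have h1 : #{i ∈ range N | ∀ p ∈ D, p ∣ i * (a * i + b)} =
      ∑ E ∈ D'.powerset,
        #{i ∈ {i ∈ range N | ∀ p ∈ D, p ∣ i * (a * i + b)} | D'.filter (· ∣ i) = E} :=
    card_eq_sum_card_fiberwise fun i _ => mem_powerset.mpr (filter_subset _ _)
  -- the primes which divide `a b`
  have hdiv : ∀ p ∈ D, p ∣ a * b → ∀ i, p ∣ i * (a * i + b) → p ∣ i := by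
    intro p hp hpab i hi
    have hpp := hD p hp
    rcases hpp.dvd_mul.mp hi with h | h
    · exact h
    · rcases hpp.dvd_mul.mp hpab with h2 | h2
      · exfalso
        have h3 : p ∣ b := (Nat.dvd_add_right (h2.mul_right i)).mp h
        exact hpp.one_lt.ne' (Nat.dvd_one.mp (hab ▸ Nat.dvd_gcd h2 h3))
      · have h3 : p ∣ a * i := (Nat.dvd_add_left h2).mp h
        rcases hpp.dvd_mul.mp h3 with h4 | h4
        · exfalso
          exact hpp.one_lt.ne' (Nat.dvd_one.mp (hab ▸ Nat.dvd_gcd h4 h2))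
        · exact h4
  have h2 : ∀ E ∈ D'.powerset, |(#{i ∈ {i ∈ range N | ∀ p ∈ D, p ∣ i * (a * i + b)} |
      D'.filter (· ∣ i) = E} : ℝ) - N / ∏ p ∈ D, (p : ℝ)| ≤ 1 := by
    intro E hE
    rw [mem_powerset] at hE
    have hED : ∀ p ∈ E, p ∈ D ∧ ¬ p ∣ a * b := fun p hp => mem_filter.mp (hE hp)
    obtain ⟨c, hc⟩ := exists_class_lin hD a b (E ∪ D.filter (· ∣ a * b)) (by
      intro p hp hpE hpa
      exact hpE (mem_union_right _ (mem_filter.mpr ⟨hp, hpa.mul_right b⟩)))
    have h3 : {i ∈ {i ∈ range N | ∀ p ∈ D, p ∣ i * (a * i + b)} | D'.filter (· ∣ i) = E} =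
        {i ∈ range N | i ≡ c [MOD ∏ p ∈ D, p]} := by
      ext i
      rw [mem_filter, mem_filter, mem_filter, modEq_prod_iff hD, and_assoc, mem_range]
      refine and_congr_right fun hin => ⟨fun hi p hp => ?_, fun hi => ⟨fun p hp => ?_, ?_⟩⟩
      · by_cases hpn : p ∣ a * b
        · exact (Nat.modEq_zero_iff_dvd.mpr (hdiv p hp hpn i (hi.1 p hp))).trans
            (Nat.modEq_zero_iff_dvd.mpr
              ((hc p hp).1 (mem_union_right _ (mem_filter.mpr ⟨hp, hpn⟩)))).symm
        · by_cases hpE : p ∈ E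
          · have h4 : p ∣ i := by
              rw [← hi.2, mem_filter] at hpE
              exact hpE.2
            exact (Nat.modEq_zero_iff_dvd.mpr h4).trans
              (Nat.modEq_zero_iff_dvd.mpr ((hc p hp).1 (mem_union_left _ hpE))).symm
          · have h4 : ¬ p ∣ i := fun h4 => hpE (by
              rw [← hi.2]
              exact mem_filter.mpr ⟨mem_filter.mpr ⟨hp, hpn⟩, h4⟩)
            have h5 : p ∣ a * i + b := ((hD p hp).dvd_mul.mp (hi.1 p hp)).resolve_left h4
            have h6 : p ∉ E ∪ D.filter (· ∣ a * b) := by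
              rw [mem_union, mem_filter]
              tauto
            have h7 : a * i ≡ a * c [MOD p] := Nat.ModEq.add_right_cancel' b
              ((Nat.modEq_zero_iff_dvd.mpr h5).trans
                (Nat.modEq_zero_iff_dvd.mpr ((hc p hp).2 h6)).symm)
            exact Nat.ModEq.cancel_left_of_coprime
              ((Nat.Prime.coprime_iff_not_dvd (hD p hp)).mpr fun h8 => hpn (h8.mul_right b)) h7
      · by_cases hpn : p ∈ E ∪ D.filter (· ∣ a * b)
        · exact Dvd.dvd.mul_right (((hi p hp).dvd_iff dvd_rfl).mpr ((hc p hp).1 hpn)) _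
        · exact Dvd.dvd.mul_left
            ((((hi p hp).mul_left a).add_right b |>.dvd_iff dvd_rfl).mpr ((hc p hp).2 hpn)) _
      · ext p
        rw [mem_filter]
        constructor
        · rintro ⟨hp, hpi⟩
          rw [hD', mem_filter] at hp
          by_contra hpE
          have h6 : p ∉ E ∪ D.filter (· ∣ a * b) := by
            rw [mem_union, mem_filter]
            tauto
          have h7 : p ∣ a * i + b :=
            (((hi p hp.1).mul_left a).add_right b |>.dvd_iff dvd_rfl).mpr ((hc p hp.1).2 h6)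
          exact hp.2 (((Nat.dvd_add_right (hpi.mul_left a)).mp h7).mul_left a)
        · intro hpE
          have h8 := hED p hpE
          exact ⟨hE hpE, ((hi p h8.1).dvd_iff dvd_rfl).mpr
            ((hc p h8.1).1 (mem_union_left _ hpE))⟩
    rw [h3]
    have h4 := abs_card_modEq_sub_le N c hM
    push_cast at h4
    exact h4
  have h5 : (N : ℝ) * ∏ p ∈ D, (om (a * b) p / p) =
      ∑ E ∈ D'.powerset, (N / ∏ p ∈ D, (p : ℝ)) := by
    have h6 : ∏ p ∈ D, om (a * b) p = 2 ^ #D' := by
      rw [hD', ← prod_const, prod_filter]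
      refine prod_congr rfl fun p _ => ?_
      unfold om
      by_cases hpn : p ∣ a * b <;> simp [hpn]
    rw [sum_const, card_powerset, nsmul_eq_mul, prod_div_distrib, h6]
    push_cast
    ring
  rw [h1, h5]
  push_cast
  rw [← sum_sub_distrib]
  refine (abs_sum_le_sum_abs _ _).trans ((sum_le_sum h2).trans ?_)
  rw [sum_const, card_powerset, nsmul_eq_mul]
  push_cast
  rw [mul_one]
  exact pow_le_pow_right₀ (by norm_num) (card_le_card (filter_subset _ _))

theorem lin_le_sieve {a b : ℕ} (ha : a ≠ 0) (N z : ℕ) :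
    #{n ∈ range N | n.Prime ∧ (a * n + b).Prime} ≤
      z + #{i ∈ range N | ∀ p ∈ P z, ¬ p ∣ i * (a * i + b)} := by
  have h1 : {n ∈ range N | n.Prime ∧ (a * n + b).Prime} ⊆
      Icc 1 z ∪ {i ∈ range N | ∀ p ∈ P z, ¬ p ∣ i * (a * i + b)} := by
    intro n hn
    rw [mem_filter] at hn
    rw [mem_union]
    by_cases hnz : n ≤ z
    · exact Or.inl (mem_Icc.mpr ⟨hn.2.1.one_le, hnz⟩)
    · refine Or.inr (mem_filter.mpr ⟨hn.1, fun p hp hpn => ?_⟩)
      rw [P, mem_filter, mem_Icc] at hp
      have h3 : n ≤ a * n + b :=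
        (Nat.le_mul_of_pos_left n (Nat.pos_of_ne_zero ha)).trans (Nat.le_add_right _ _)
      rcases hp.2.dvd_mul.mp hpn with h2 | h2
      · have := (Nat.prime_dvd_prime_iff_eq hp.2 hn.2.1).mp h2
        omega
      · have := (Nat.prime_dvd_prime_iff_eq hp.2 hn.2.2).mp h2
        omega
  refine (card_le_card h1).trans ((card_union_le _ _).trans ?_)
  rw [Nat.card_Icc, Nat.add_sub_cancel]

theorem lin_le_one_of_odd {a b : ℕ} (hab : Odd (a * b)) (N : ℕ) :
    #{n ∈ range N | n.Prime ∧ (a * n + b).Prime} ≤ 1 := by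
  refine (card_le_card (t := {2}) fun n hn => ?_).trans (card_singleton 2).le
  rw [mem_filter] at hn
  rw [mem_singleton]
  obtain ⟨ha, hb⟩ := Nat.odd_mul.mp hab
  rcases hn.2.1.eq_two_or_odd' with h1 | h1
  · exact h1
  · exfalso
    have h2 := (ha.mul h1).add_odd hb
    have h3 := (hn.2.2.even_iff).mp h2
    have h4 := hn.2.1.two_le
    have h5 := hb.pos
    have h6 : n ≤ a * n := Nat.le_mul_of_pos_left n ha.pos
    omega

/-- **The number of the primes `n < N` such that `a n + b` is prime**, uniformly in the coprime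
numbers `a`, `b`. -/
theorem lin_bound : ∃ C : ℝ, 0 < C ∧ ∀ a b N : ℕ, a ≠ 0 → b ≠ 0 → a.Coprime b → 2 ≤ N →
    (#{n ∈ range N | n.Prime ∧ (a * n + b).Prime} : ℝ) ≤
      C * s (a * b) * N / Real.log N ^ 2 := by
  obtain ⟨c, hc, h3⟩ := gThreeStmt
  refine ⟨3000 + 196 / c, by positivity, fun a b n ha hb hab hn => ?_⟩
  set R : ℕ := #{i ∈ range n | i.Prime ∧ (a * i + b).Prime} with hR
  have hh : a * b ≠ 0 := mul_ne_zero ha hb
  obtain ⟨h, hhab⟩ : ∃ h, h = a * b := ⟨_, rfl⟩
  rw [← hhab] at hh ⊢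
  have hn0 : (2 : ℝ) ≤ n := by exact_mod_cast hn
  have hs : 1 ≤ s h := one_le_s hh
  have hlog : 0 < Real.log n := Real.log_pos (by linarith)
  set L := Real.log n with hLdef
  have hc' : 0 < 196 / c := by positivity
  have hD : 0 < (n : ℝ) / L ^ 2 := by positivity
  -- a bound without `s`
  have hbase : ∀ a : ℝ, 0 ≤ a → a ≤ 3000 → a * (n / L ^ 2) ≤ (3000 + 196 / c) * s h * n / L ^ 2 := by
    intro a ha0 ha
    have : (3000 + 196 / c) * s h * n / L ^ 2 = ((3000 + 196 / c) * s h) * (n / L ^ 2) := by ring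
    rw [this]
    refine mul_le_mul_of_nonneg_right ?_ hD.le
    nlinarith [mul_le_mul_of_nonneg_left hs (show 0 ≤ 3000 + 196 / c by positivity)]
  rcases Nat.even_or_odd h with he | ho
  swap
  · have h4 : (R : ℝ) ≤ 1 := by exact_mod_cast lin_le_one_of_odd (hhab ▸ ho) n
    have h5 : L ^ 2 ≤ 4 * n := by
      calc L ^ 2 ≤ (2 * √(n : ℝ)) ^ 2 :=
            pow_le_pow_left₀ hlog.le (log_le_two_sqrt (by linarith)) 2
        _ = 4 * √(n : ℝ) ^ 2 := by ring
        _ = 4 * n := by rw [Real.sq_sqrt (by linarith)]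
    have h6 : (1 : ℝ) ≤ 8 * (n / L ^ 2) := by
      rw [mul_div_assoc', le_div_iff₀ (by positivity)]; linarith
    exact (h4.trans h6).trans (hbase 8 (by norm_num) (by norm_num))
  · obtain ⟨z, hz, hz'⟩ := exists_seventh_root n
    have hz1 : 1 ≤ z := by
      rcases Nat.eq_zero_or_pos z with h | h
      · rw [h] at hz'; norm_num at hz'; omega
      · exact h
    have hlz1 : L ≤ 7 * Real.log (z + 1) := by
      have h4 : (n : ℝ) ≤ (z + 1 : ℝ) ^ 7 := by exact_mod_cast hz'.le
      calc L ≤ Real.log ((z + 1 : ℝ) ^ 7) := Real.log_le_log (by linarith) h4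
        _ = 7 * Real.log (z + 1) := by rw [Real.log_pow]; norm_num
    rcases Nat.lt_or_ge z 2 with hz2 | hz2
    · have hz0 : z = 1 := by omega
      have h4 : (R : ℝ) ≤ n := by
        have : R ≤ n := (card_filter_le _ _).trans (card_range n).le
        exact_mod_cast this
      have h5 : L ≤ 7 := by
        rw [hz0] at hlz1
        have := Real.log_two_lt_d9
        norm_num at hlz1
        linarith
      have h6 : (n : ℝ) ≤ 49 * (n / L ^ 2) := by
        rw [mul_div_assoc', le_div_iff₀ (by positivity)]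
        have : L ^ 2 ≤ 49 := by nlinarith
        nlinarith
      exact (h4.trans h6).trans (hbase 49 (by norm_num) (by norm_num))
    · have hzr : (2 : ℝ) ≤ z := by exact_mod_cast hz2
      have hlz0 : 0 < Real.log z := Real.log_pos (by linarith)
      have hlz : L ≤ 14 * Real.log z := by
        have h4 : Real.log (z + 1) ≤ 2 * Real.log z := by
          have : (z : ℝ) + 1 ≤ (z : ℝ) ^ 2 := by nlinarith
          calc Real.log (z + 1) ≤ Real.log ((z : ℝ) ^ 2) := Real.log_le_log (by linarith) this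
            _ = 2 * Real.log z := by rw [Real.log_pow]; norm_num
        linarith
      -- the sieve
      have hsv := selbergStmt (range n) (P z) (fun p hp => (mem_filter.1 hp).2)
        (fun p i => p ∣ i * (a * i + b)) n (Nat.cast_nonneg n) (om h) (by
          intro p hp
          have hpp : p.Prime := (mem_filter.1 hp).2
          refine ⟨?_, ?_, om_lt he hpp⟩
          · unfold om
            split_ifs <;> norm_num
          · unfold om
            split_ifs <;> norm_num)
        (fun D hDs => by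
          rw [hhab]
          exact localLin hab n fun p hp => (mem_filter.1 (hDs hp)).2) z hz1
      have hG : (R : ℝ) ≤ z + (n / G h z + (z : ℝ) ^ 6) := by
        have h4 : (R : ℝ) ≤ z + (#{i ∈ range n | ∀ p ∈ P z, ¬ p ∣ i * (a * i + b)} : ℝ) := by
          exact_mod_cast lin_le_sieve ha n z
        refine h4.trans ?_
        gcongr
        exact hsv
      have hs0 : 0 < s h := by linarith
      have hGl : c * Real.log z ^ 2 ≤ s h * G h z :=
        (h3 z hz1).trans ((gTwoStmt h z hh).trans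
          (mul_le_mul_of_nonneg_left (gOneStmt h z he) hs0.le))
      have hGl' : c * (L ^ 2 / 196) ≤ s h * G h z := by
        refine le_trans (mul_le_mul_of_nonneg_left ?_ hc.le) hGl
        rw [div_le_iff₀ (by norm_num)]
        nlinarith
      have hG0 : 0 < G h z := by
        have : 0 < s h * G h z := lt_of_lt_of_le (by positivity) hGl'
        exact (pos_iff_pos_of_mul_pos this).1 hs0
      have hA : (n : ℝ) / G h z ≤ 196 / c * s h * (n / L ^ 2) := by
        rw [div_le_iff₀ hG0]
        calc (n : ℝ) = 196 / c * (n / L ^ 2) * (c * (L ^ 2 / 196)) := by field_simp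
          _ ≤ 196 / c * (n / L ^ 2) * (s h * G h z) :=
            mul_le_mul_of_nonneg_left hGl' (by positivity)
          _ = _ := by ring
      have hB : (z : ℝ) ^ 6 ≤ 784 * (n / L ^ 2) := by
        rw [mul_div_assoc', le_div_iff₀ (by positivity)]
        have h4 : L ^ 2 ≤ 784 * z := by
          have h5 : L ≤ 28 * √(z : ℝ) := by
            have := log_le_two_sqrt (show (0 : ℝ) < z by linarith)
            linarith
          calc L ^ 2 ≤ (28 * √(z : ℝ)) ^ 2 := pow_le_pow_left₀ hlog.le h5 2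
            _ = 784 * √(z : ℝ) ^ 2 := by ring
            _ = _ := by rw [Real.sq_sqrt (by linarith)]
        have h5 : (z : ℝ) ^ 7 ≤ n := by exact_mod_cast hz
        calc (z : ℝ) ^ 6 * L ^ 2 ≤ (z : ℝ) ^ 6 * (784 * z) :=
              mul_le_mul_of_nonneg_left h4 (by positivity)
          _ = 784 * (z : ℝ) ^ 7 := by ring
          _ ≤ 784 * (n : ℝ) := by linarith
      have hz6 : (z : ℝ) ≤ (z : ℝ) ^ 6 := le_self_pow₀ (by linarith) (by norm_num)
      calc (R : ℝ) ≤ z + (n / G h z + (z : ℝ) ^ 6) := hG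
        _ ≤ 2352 * (n / L ^ 2) + 196 / c * s h * (n / L ^ 2) := by linarith
        _ ≤ 3000 * s h * (n / L ^ 2) + 196 / c * s h * (n / L ^ 2) := by
          have : (2352 : ℝ) ≤ 3000 * s h := by linarith
          have := mul_le_mul_of_nonneg_right this hD.le
          linarith
        _ = _ := by ring

/-- **The number of Sophie Germain primes** `p < N` is at most `C N / (log N)²`. -/
theorem germain_le : ∃ C : ℝ, 0 < C ∧ ∀ N : ℕ, 2 ≤ N →
    (#{p ∈ range N | p.Prime ∧ (2 * p + 1).Prime} : ℝ) ≤ C * N / Real.log N ^ 2 := by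
  obtain ⟨C, hC, h⟩ := lin_bound
  have h2 : 0 < s (2 * 1) := lt_of_lt_of_le one_pos (one_le_s (by norm_num))
  exact ⟨C * s (2 * 1), mul_pos hC h2, fun N hN =>
    h 2 1 N two_ne_zero one_ne_zero (Nat.coprime_one_right 2) hN⟩

/-- For coprime `a`, `b` the sum of `1 / p` over the primes `p` such that `a p + b` is prime
converges. -/
theorem summable_lin {a b : ℕ} (ha : a ≠ 0) (hb : b ≠ 0) (hab : a.Coprime b) :
    Summable fun p : {p : ℕ // p.Prime ∧ (a * p + b).Prime} => 1 / ((p : ℕ) : ℝ) := by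
  obtain ⟨C, hC, h⟩ := lin_bound
  have h1 : (fun N : ℕ => ((((range N).filter fun n => n.Prime ∧ (a * n + b).Prime).card : ℕ) : ℝ))
      =O[atTop] fun N : ℕ => (N : ℝ) * Real.log (Real.log N) ^ 2 / Real.log N ^ 2 := by
    have h2 : ∀ᶠ N : ℕ in atTop, 1 ≤ Real.log (Real.log N) :=
      (Real.tendsto_log_atTop.comp (Real.tendsto_log_atTop.comp
        tendsto_natCast_atTop_atTop)).eventually_ge_atTop 1
    refine IsBigO.of_bound (C * s (a * b)) ?_
    filter_upwards [h2, eventually_ge_atTop 2] with N hN hN2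
    have h3 : 0 ≤ s (a * b) := (zero_le_one.trans (one_le_s (mul_ne_zero ha hb)))
    rw [Real.norm_of_nonneg (Nat.cast_nonneg _), Real.norm_of_nonneg (by positivity)]
    refine (h a b N ha hb hab hN2).trans ?_
    have h4 : (1 : ℝ) ≤ Real.log (Real.log N) ^ 2 := one_le_pow₀ hN
    have h5 : (0 : ℝ) ≤ (N : ℝ) / Real.log N ^ 2 := by positivity
    calc C * s (a * b) * N / Real.log N ^ 2
        = C * s (a * b) * (1 * (N / Real.log N ^ 2)) := by ring
      _ ≤ C * s (a * b) * (Real.log (Real.log N) ^ 2 * (N / Real.log N ^ 2)) := by gcongr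
      _ = C * s (a * b) * (N * Real.log (Real.log N) ^ 2 / Real.log N ^ 2) := by ring
  have h2 := Brun.summable_of (T := fun n => n.Prime ∧ (a * n + b).Prime) h1
  have h3 := summable_subtype_iff_indicator (s := {p : ℕ | p.Prime ∧ (a * p + b).Prime})
    (f := fun n : ℕ => 1 / (n : ℝ))
  refine h3.mpr (h2.congr fun n => ?_)
  by_cases hn : n.Prime ∧ (a * n + b).Prime
  · rw [if_pos hn, Set.indicator_of_mem (by exact hn)]
  · rw [if_neg hn, Set.indicator_of_notMem (by exact hn)]

/-- **The sum of the reciprocals of Sophie Germain's primes converges.** -/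
theorem summable_germain :
    Summable fun p : {p : ℕ // p.Prime ∧ (2 * p + 1).Prime} => 1 / ((p : ℕ) : ℝ) :=
  summable_lin two_ne_zero one_ne_zero (Nat.coprime_one_right 2)

end Fermat.Agent.Cor.Gold
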