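import Fermat.Agent.Corollaries.Gold.Basis

/-!
# Mann's theorem

If `0 ∈ A`, `0 ∈ B`, then `σ(A + B) ≥ min(1, σ(A) + σ(B))` for the density of Schnirelmann
(H. B. Mann 1942; conjectured by Schnirelmann and Landau 1931), in the form of Dyson 1945: if
`A(m) + B(m) ≥ γ m` for all `m ≤ n` and `γ ≤ 1`, then `(A + B)(n) ≥ γ n`. Every set which contains
`0` and has density at least `1 / k` is a basis of order `k`.
-/

set_option autoImplicit false

open Finset Filter

namespace Fermat.Agent.Cor.Gold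

namespace Mann

open Classical in
/-- the number of elements of `A` in `{1, ..., m}` -/
noncomputable def cnt (A : Set ℕ) (m : ℕ) : ℕ := #{x ∈ Ioc 0 m | x ∈ A}

theorem cnt_mono {A B : Set ℕ} {m n : ℕ} (hmn : m ≤ n) (h : ∀ x ∈ A, 0 < x → x ≤ m → x ∈ B) :
    cnt A m ≤ cnt B n := by
  classical
  refine card_le_card fun x hx => ?_
  rw [mem_filter, mem_Ioc] at hx ⊢
  exact ⟨⟨hx.1.1, hx.1.2.trans hmn⟩, h x hx.2 hx.1.1 hx.1.2⟩

theorem cnt_add_le {S A : Set ℕ} {b k : ℕ} (hb : 0 < b) (hbS : b ∈ S)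
    (h : ∀ x ∈ A, 0 < x → x ≤ k → b + x ∈ S) :
    cnt S (b - 1) + 1 + cnt A k ≤ cnt S (b + k) := by
  classical
  have e1 : #(insert b ({x ∈ Ioc 0 k | x ∈ A}.image (fun x => b + x))) =
      1 + #{x ∈ Ioc 0 k | x ∈ A} := by
    rw [card_insert_of_notMem, card_image_of_injective _ (add_right_injective b), add_comm]
    rw [mem_image]
    rintro ⟨x, hx, hxb⟩
    rw [mem_filter, mem_Ioc] at hx
    omega
  unfold cnt
  rw [add_assoc, ← e1, ← card_union_of_disjoint]
  · refine card_le_card fun x hx => ?_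
    rw [mem_union, mem_insert, mem_image, mem_filter, mem_Ioc] at hx
    rw [mem_filter, mem_Ioc]
    rcases hx with hx | hx | ⟨y, hy, hx⟩
    · exact ⟨by omega, hx.2⟩
    · exact ⟨by omega, hx ▸ hbS⟩
    · rw [mem_filter, mem_Ioc] at hy
      exact ⟨by omega, hx ▸ h y hy.2 hy.1.1 hy.1.2⟩
  · rw [disjoint_left]
    intro x hx hx'
    rw [mem_filter, mem_Ioc] at hx
    rw [mem_insert, mem_image] at hx'
    rcases hx' with hx' | ⟨y, hy, hx'⟩ <;> omega

/-- The least element of `B` in an interval. -/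
theorem exists_least {B : Set ℕ} {l m : ℕ} (h : ∃ b ∈ B, l < b ∧ b ≤ m) :
    ∃ b ∈ B, l < b ∧ b ≤ m ∧ ∀ x ∈ B, l < x → b ≤ x := by
  classical
  obtain ⟨b, hb, hl, hm⟩ := h
  have h' : ∃ b, b ∈ B ∧ l < b := ⟨b, hb, hl⟩
  exact ⟨Nat.find h', (Nat.find_spec h').1, (Nat.find_spec h').2,
    (Nat.find_min' h' ⟨hb, hl⟩).trans hm, fun x hx hlx => Nat.find_min' h' ⟨hx, hlx⟩⟩

theorem cnt_eq_of_forall {B : Set ℕ} {l m : ℕ} (hlm : l ≤ m) (h : ∀ x ∈ B, l < x → m < x) :
    cnt B m = cnt B l := by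
  classical
  unfold cnt
  congr 1
  ext x
  rw [mem_filter, mem_filter, mem_Ioc, mem_Ioc]
  constructor
  · rintro ⟨hx, hxB⟩
    refine ⟨⟨hx.1, ?_⟩, hxB⟩
    by_contra hlx
    have := h x hxB (by omega)
    omega
  · rintro ⟨hx, hxB⟩
    exact ⟨⟨hx.1, hx.2.trans hlm⟩, hxB⟩

theorem cnt_zero (B : Set ℕ) : cnt B 0 = 0 := by
  classical
  simp [cnt]

theorem cnt_union {S T U : Set ℕ} (h1 : ∀ x, x ∈ U ↔ x ∈ S ∨ x ∈ T) (h2 : ∀ x ∈ S, x ∉ T)
    (m : ℕ) : cnt S m + cnt T m = cnt U m := by
  classical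
  unfold cnt
  rw [← card_union_of_disjoint]
  · congr 1
    ext x
    simp only [mem_union, mem_filter, h1]
    tauto
  · rw [disjoint_left]
    intro x hx hx'
    rw [mem_filter] at hx hx'
    exact h2 x hx.2 hx'.2

theorem cnt_add_shift {A A' D : Set ℕ} {e : ℕ} (h1 : ∀ x ∈ A, x ∈ A') (h2 : ∀ x ∈ D, e + x ∈ A')
    (h3 : ∀ x ∈ D, e + x ∉ A) (m : ℕ) : cnt A m + cnt D (m - e) ≤ cnt A' m := by
  classical
  unfold cnt
  rw [← card_image_of_injective {x ∈ Ioc 0 (m - e) | x ∈ D} (add_right_injective e),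
    ← card_union_of_disjoint]
  · refine card_le_card fun x hx => ?_
    rw [mem_union, mem_image, mem_filter, mem_Ioc] at hx
    rw [mem_filter, mem_Ioc]
    rcases hx with hx | ⟨y, hy, hx⟩
    · exact ⟨hx.1, h1 x hx.2⟩
    · rw [mem_filter, mem_Ioc] at hy
      exact ⟨by omega, hx ▸ h2 y hy.2⟩
  · rw [disjoint_left]
    intro x hx hx'
    rw [mem_filter] at hx
    rw [mem_image] at hx'
    obtain ⟨y, hy, hxy⟩ := hx'
    rw [mem_filter] at hy
    exact h3 y hy.2 (hxy ▸ hx.2)

theorem cnt_pos {D : Set ℕ} {b m : ℕ} (hb : b ∈ D) (h0 : 0 < b) (hm : b ≤ m) : 0 < cnt D m := by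
  classical
  exact card_pos.2 ⟨b, mem_filter.2 ⟨mem_Ioc.2 ⟨h0, hm⟩, hb⟩⟩

/-- The case in which `A` is closed under the addition of the elements of `B`. -/
theorem closed {n e : ℕ} {γ : ℝ} (hγ : γ ≤ 1) {A B : Set ℕ} (hA : 0 ∈ A)
    (hc : ∀ a ∈ A, a < e → ∀ b ∈ B, a + b ≤ n → a + b ∈ A)
    (hAB : ∀ m ≤ n, γ * m ≤ cnt A m + cnt B m) (r : ℕ) (hre : r < e) (hrn : r ≤ n) :
    γ * r ≤ cnt A r := by
  induction r using Nat.strong_induction_on with
  | _ r ih =>
  by_cases hB : ∃ b ∈ B, 0 < b ∧ b ≤ r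
  · obtain ⟨b, hbB, hb0, hbr, hmin⟩ := exists_least hB
    have hbA : b ∈ A := by
      have := hc 0 hA (by omega) b hbB (by omega)
      rwa [zero_add] at this
    have h1 := cnt_add_le (S := A) (A := A) (b := b) (k := r - b) hb0 hbA (by
      intro x hx _ hxk
      have := hc x hx (by omega) b hbB (by omega)
      rwa [add_comm] at this)
    rw [Nat.add_sub_cancel' hbr] at h1
    have h2 := hAB (b - 1) (by omega)
    have h3 : cnt B (b - 1) = 0 := by
      rw [cnt_eq_of_forall (Nat.zero_le _) fun x hx hx0 => ?_, cnt_zero]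
      have := hmin x hx hx0
      omega
    have h4 := ih (r - b) (by omega) (by omega) (by omega)
    rw [h3, Nat.cast_zero, add_zero, Nat.cast_sub (by omega : 1 ≤ b), Nat.cast_one] at h2
    rw [Nat.cast_sub hbr] at h4
    have h5 : (cnt A (b - 1) : ℝ) + 1 + cnt A (r - b) ≤ cnt A r := by exact_mod_cast h1
    nlinarith
  · have h2 := hAB r hrn
    have h3 : cnt B r = 0 := by
      rw [cnt_eq_of_forall (Nat.zero_le _) fun x hx hx0 => ?_, cnt_zero]
      by_contra hlt
      exact hB ⟨x, hx, hx0, by omega⟩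
    rw [h3, Nat.cast_zero, add_zero] at h2
    exact h2

/-- **Dyson's form of Mann's theorem**. -/
theorem dyson {n : ℕ} {γ : ℝ} (hγ : γ ≤ 1) (k : ℕ) : ∀ (A B C : Set ℕ), cnt B n = k → 0 ∈ A →
    0 ∈ B → (∀ a ∈ A, ∀ b ∈ B, a + b ≤ n → a + b ∈ C) →
    (∀ m ≤ n, γ * m ≤ cnt A m + cnt B m) → γ * n ≤ cnt C n := by
  classical
  induction k using Nat.strong_induction_on with
  | _ k ih =>
  intro A B C hk hA hB hC hAB
  by_cases hex : ∃ e, e ∈ A ∧ ∃ b ∈ B, e + b ≤ n ∧ e + b ∉ A
  swap
  · -- `A` is closed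
    have hc : ∀ a ∈ A, a < n + 1 → ∀ b ∈ B, a + b ≤ n → a + b ∈ A := by
      intro a ha _ b hb hab
      by_contra h
      exact hex ⟨a, ha, b, hb, hab, h⟩
    have h1 := closed hγ hA hc hAB n (by omega) le_rfl
    refine h1.trans ?_
    have h2 : cnt A n ≤ cnt C n := cnt_mono le_rfl fun x hx _ hxn => by
      have := hC x hx 0 hB (by omega)
      rwa [add_zero] at this
    exact_mod_cast h2
  · set e := Nat.find hex with he
    obtain ⟨heA, b₀, hb₀, hb₀n, hb₀A⟩ := Nat.find_spec hex
    rw [← he] at heA hb₀n hb₀A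
    have hc : ∀ a ∈ A, a < e → ∀ b ∈ B, a + b ≤ n → a + b ∈ A := by
      intro a ha hae b hb hab
      by_contra h
      exact Nat.find_min hex hae ⟨ha, b, hb, hab, h⟩
    set D : Set ℕ := {b | b ∈ B ∧ e + b ≤ n ∧ e + b ∉ A} with hD
    set A' : Set ℕ := A ∪ {x | ∃ b ∈ D, x = e + b} with hA'
    set B' : Set ℕ := B \ D with hB'
    have hD0 : ∀ b ∈ D, 0 < b := by
      intro b hb
      rcases Nat.eq_zero_or_pos b with h | h
      · exact absurd heA (by have := hb.2.2; rwa [h, add_zero] at this)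
      · exact h
    -- the counting functions
    have hBD : ∀ m, cnt B' m + cnt D m = cnt B m := cnt_union (fun x => by
      constructor
      · intro hx
        by_cases hxD : x ∈ D
        · exact Or.inr hxD
        · exact Or.inl ⟨hx, hxD⟩
      · rintro (hx | hx)
        · exact hx.1
        · exact hx.1) fun x hx => hx.2
    have hAD : ∀ m, cnt A m + cnt D (m - e) ≤ cnt A' m :=
      cnt_add_shift (fun x hx => Or.inl hx) (fun x hx => Or.inr ⟨x, hx, rfl⟩) fun x hx => hx.2.2
    have hlt : cnt B' n < k := by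
      have hb₀D : b₀ ∈ D := ⟨hb₀, hb₀n, hb₀A⟩
      have h1 : 0 < cnt D n := cnt_pos hb₀D (hD0 b₀ hb₀D) (by omega)
      have := hBD n
      omega
    refine ih _ hlt A' B' C rfl (Or.inl hA) ⟨hB, fun h => absurd (hD0 0 h) (lt_irrefl 0)⟩ ?_ ?_
    · rintro a (ha | ⟨b, hb, rfl⟩) b' hb' hab
      · exact hC a ha b' hb'.1 hab
      · have h1 : e + b' ∈ A := by
          by_contra h
          exact hb'.2 ⟨hb'.1, by omega, h⟩
        have h2 := hC (e + b') h1 b hb.1 (by omega)
        have h3 : e + b' + b = e + b + b' := by ring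
        rwa [h3] at h2
    · intro m hm
      have h1 := hAD m
      have h2 := hBD m
      by_cases hbm : ∃ b ∈ B, m - e < b ∧ b ≤ m
      · obtain ⟨b, hbB, hbl, hbr, hmin⟩ := exists_least hbm
        have he0 : 0 < e := by omega
        have hbA : b ∈ A := by
          have := hc 0 hA he0 b hbB (by omega)
          rwa [zero_add] at this
        have h3 := cnt_add_le (S := A) (A := A) (b := b) (k := m - b) (by omega) hbA (by
          intro x hx _ hxk
          have := hc x hx (by omega) b hbB (by omega)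
          rwa [add_comm] at this)
        rw [Nat.add_sub_cancel' hbr] at h3
        have h4 : cnt B (b - 1) = cnt B (m - e) := by
          refine cnt_eq_of_forall (by omega) fun x hx hx0 => ?_
          have := hmin x hx hx0
          omega
        have h5 := hBD (m - e)
        have h6 : cnt B' (m - e) ≤ cnt B' m := cnt_mono (Nat.sub_le _ _) fun x hx _ _ => hx
        have h7 := hAB (b - 1) (by omega)
        have h8 := closed hγ hA hc hAB (m - b) (by omega) (by omega)
        have h9 : cnt A (b - 1) + cnt B (b - 1) + 1 + cnt A (m - b) ≤ cnt A' m + cnt B' m := by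
          omega
        have h10 : (cnt A (b - 1) : ℝ) + cnt B (b - 1) + 1 + cnt A (m - b) ≤
            cnt A' m + cnt B' m := by exact_mod_cast h9
        rw [Nat.cast_sub (by omega : 1 ≤ b), Nat.cast_one] at h7
        rw [Nat.cast_sub hbr] at h8
        nlinarith
      · have h3 : cnt D m = cnt D (m - e) := by
          refine cnt_eq_of_forall (Nat.sub_le _ _) fun x hx hx0 => ?_
          by_contra h
          exact hbm ⟨x, hx.1, hx0, by omega⟩
        have h4 : cnt A m + cnt B m ≤ cnt A' m + cnt B' m := by omega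
        have h5 : (cnt A m : ℝ) + cnt B m ≤ cnt A' m + cnt B' m := by exact_mod_cast h4
        exact (hAB m hm).trans h5

end Mann

open Mann in
/-- **Mann's theorem** (1942): `σ(A + B) ≥ min(1, σ(A) + σ(B))` if `0 ∈ A` and `0 ∈ B`. -/
theorem mann {A B C : Set ℕ} [DecidablePred (· ∈ A)] [DecidablePred (· ∈ B)]
    [DecidablePred (· ∈ C)] (hA : 0 ∈ A) (hB : 0 ∈ B) (h : ∀ a ∈ A, ∀ b ∈ B, a + b ∈ C) :
    min 1 (schnirelmannDensity A + schnirelmannDensity B) ≤ schnirelmannDensity C := by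
  rw [le_schnirelmannDensity_iff]
  intro n hn
  rw [le_div_iff₀ (by exact_mod_cast hn)]
  have e1 : ∀ (S : Set ℕ) [DecidablePred (· ∈ S)] (m : ℕ), #{a ∈ Ioc 0 m | a ∈ S} = cnt S m := by
    intro S _ m
    unfold cnt
    congr!
  have h1 := dyson (n := n) (min_le_left 1 (schnirelmannDensity A + schnirelmannDensity B))
    (cnt B n) A B C rfl hA hB (fun a ha b hb _ => h a ha b hb) (fun m _ => by
      have h2 := schnirelmannDensity_mul_le_card_filter (A := A) (n := m)
      have h3 := schnirelmannDensity_mul_le_card_filter (A := B) (n := m)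
      rw [e1] at h2 h3
      calc min 1 (schnirelmannDensity A + schnirelmannDensity B) * m ≤
            (schnirelmannDensity A + schnirelmannDensity B) * m := by
            gcongr; exact min_le_right _ _
        _ ≤ _ := by linarith)
  rw [e1]
  exact h1

open scoped Pointwise in
/-- Mann's theorem for the sumset. -/
theorem mann_add {A B : Set ℕ} [DecidablePred (· ∈ A)] [DecidablePred (· ∈ B)]
    [DecidablePred (· ∈ A + B)] (hA : 0 ∈ A) (hB : 0 ∈ B) :
    min 1 (schnirelmannDensity A + schnirelmannDensity B) ≤ schnirelmannDensity (A + B) :=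
  mann hA hB fun _ ha _ hb => Set.add_mem_add ha hb

open Classical in
theorem min_le_density_sums (B : Set ℕ) [DecidablePred (· ∈ B)] (hB : 0 ∈ B) (j : ℕ) :
    min 1 (j * schnirelmannDensity B) ≤ schnirelmannDensity (sums B j) := by
  have hB0 : 0 ≤ schnirelmannDensity B := schnirelmannDensity_nonneg
  induction j with
  | zero =>
    refine (min_le_right _ _).trans ?_
    rw [Nat.cast_zero, zero_mul]
    exact schnirelmannDensity_nonneg
  | succ j ih =>
    have h1 := mann (C := sums B (j + 1)) (zero_mem_sums B j) hB (by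
      rintro _ ⟨t, ht, hc, rfl⟩ b hb
      refine ⟨b ::ₘ t, ?_, ?_, ?_⟩
      · intro x hx
        rcases Multiset.mem_cons.1 hx with rfl | hx
        · exact hb
        · exact ht x hx
      · rw [Multiset.card_cons]; omega
      · rw [Multiset.sum_cons, add_comm])
    refine le_trans (le_min (min_le_left _ _) ?_) h1
    rcases min_le_iff.1 ih with h | h
    · exact (min_le_left _ _).trans (by linarith)
    · refine (min_le_right _ _).trans ?_
      push_cast
      linarith

/-- A set with `0` of density at least `1 / k` is a basis of order `k`. -/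
theorem mem_sums_of_one_le (B : Set ℕ) [DecidablePred (· ∈ B)] (hB : 0 ∈ B) (k : ℕ)
    (hk : 1 ≤ k * schnirelmannDensity B) (n : ℕ) :
    ∃ t : Multiset ℕ, (∀ b ∈ t, b ∈ B) ∧ Multiset.card t ≤ k ∧ t.sum = n := by
  classical
  have h1 := min_le_density_sums B hB k
  have h2 : (1 : ℝ) ≤ schnirelmannDensity (sums B k) := by
    exact le_trans (le_min le_rfl hk) h1
  have h3 := (schnirelmannDensity_eq_one_iff_of_zero_mem (zero_mem_sums B k)).1
    (le_antisymm schnirelmannDensity_le_one h2)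
  have h4 : n ∈ sums B k := by rw [h3]; trivial
  exact h4

end Fermat.Agent.Cor.Gold
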