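import Fermat.Agent.Corollaries.Gold.Defs

/-!
# Selberg's sieve

The quadratic form is diagonalised over the finite sets of primes; the weights are bounded
trivially.
-/

set_option autoImplicit false

open Finset

namespace Fermat.Agent.Cor.Gold

/-- Selberg's weights -/
noncomputable def lam (𝒟 : Finset (Finset ℕ)) (w g : ℕ → ℝ) (D : Finset ℕ) : ℝ :=
  (-1) ^ #D * ((∑ F ∈ 𝒟 with D ⊆ F, ∏ p ∈ F, g p) / ∑ F ∈ 𝒟, ∏ p ∈ F, g p) / ∏ p ∈ D, w p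

theorem sum_between {F E : Finset ℕ} (hFE : F ⊆ E) :
    ∑ D ∈ E.powerset with F ⊆ D, (-1 : ℝ) ^ #D = if E = F then (-1) ^ #F else 0 := by
  have h1 := Finset.prod_add (fun _ => (-1 : ℝ)) (fun p => if p ∉ F then (1 : ℝ) else 0) E
  have h2 : ∏ i ∈ E, ((-1 : ℝ) + if i ∉ F then (1 : ℝ) else 0) =
      if E = F then (-1) ^ #F else 0 := by
    have h3 : ∀ i ∈ E, ((-1 : ℝ) + if i ∉ F then (1 : ℝ) else 0) = if i ∈ F then -1 else 0 := by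
      intro i _
      by_cases hi : i ∈ F <;> simp [hi]
    rw [prod_congr rfl h3, Finset.prod_ite_zero, prod_const]
    have h4 : (∀ i ∈ E, i ∈ F) ↔ E = F := ⟨fun h => Subset.antisymm h hFE, fun h => h ▸ fun i hi => hi⟩
    by_cases h5 : E = F
    · rw [if_pos (h4.mpr h5), if_pos h5, h5]
    · rw [if_neg (fun h => h5 (h4.mp h)), if_neg h5]
  rw [← h2, h1, sum_filter]
  refine sum_congr rfl fun D hD => ?_
  rw [Finset.prod_ite_zero, prod_const, prod_const_one]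
  have h6 : (∀ i ∈ E \ D, i ∉ F) ↔ F ⊆ D := by
    constructor
    · intro h i hi
      by_contra hiD
      exact h i (mem_sdiff.mpr ⟨hFE hi, hiD⟩) hi
    · intro h i hi hiF
      exact (mem_sdiff.mp hi).2 (h hiF)
  by_cases h7 : F ⊆ D
  · rw [if_pos h7, if_pos (h6.mpr h7), mul_one]
  · rw [if_neg h7, if_neg (fun h => h7 (h6.mp h)), mul_zero]

section

variable {P : Finset ℕ} {𝒟 : Finset (Finset ℕ)} {w g : ℕ → ℝ}

theorem sum_lam (hP : ∀ D ∈ 𝒟, D ⊆ P) (hD : ∀ D ∈ 𝒟, ∀ E ⊆ D, E ∈ 𝒟) (hw : ∀ p ∈ P, 0 < w p)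
    (F : Finset ℕ) :
    ∑ D ∈ 𝒟 with F ⊆ D, lam 𝒟 w g D * ∏ p ∈ D, w p =
      if F ∈ 𝒟 then (-1) ^ #F * (∏ p ∈ F, g p) / ∑ E ∈ 𝒟, ∏ p ∈ E, g p else 0 := by
  set Gs := ∑ E ∈ 𝒟, ∏ p ∈ E, g p
  have h1 : ∀ D ∈ 𝒟.filter (F ⊆ ·), lam 𝒟 w g D * ∏ p ∈ D, w p =
      ∑ E ∈ 𝒟, if D ⊆ E then (-1) ^ #D * (∏ p ∈ E, g p) / Gs else 0 := by
    intro D hD'
    have h2 : (∏ p ∈ D, w p) ≠ 0 :=
      (prod_pos fun p hp => hw p (hP D (mem_filter.mp hD').1 hp)).ne'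
    rw [lam, div_mul_cancel₀ _ h2, ← sum_filter, ← mul_div_assoc, mul_sum, sum_div]
  rw [sum_congr rfl h1, sum_comm]
  have h3 : ∀ E ∈ 𝒟, (∑ D ∈ 𝒟 with F ⊆ D, if D ⊆ E then (-1) ^ #D * (∏ p ∈ E, g p) / Gs else 0) =
      if E = F then (-1) ^ #F * (∏ p ∈ F, g p) / Gs else 0 := by
    intro E hE
    rw [← sum_filter, filter_filter]
    by_cases hFE : F ⊆ E
    · have h4 : 𝒟.filter (fun D => F ⊆ D ∧ D ⊆ E) = E.powerset.filter (F ⊆ ·) := by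
        ext D
        simp only [mem_filter, mem_powerset]
        constructor
        · rintro ⟨_, h5, h6⟩
          exact ⟨h6, h5⟩
        · rintro ⟨h6, h5⟩
          exact ⟨hD E hE D h6, h5, h6⟩
      rw [h4]
      simp_rw [mul_div_assoc]
      rw [← sum_mul, sum_between hFE]
      split_ifs with h7
      · rw [h7]
      · rw [zero_mul]
    · rw [if_neg (fun h7 => hFE h7.symm.subset), filter_eq_empty_iff.mpr, sum_empty]
      rintro D _ ⟨h5, h6⟩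
      exact hFE (h5.trans h6)
  rw [sum_congr rfl h3, sum_ite_eq' 𝒟 F]

/-- **The minimum of Selberg's quadratic form.** -/
theorem main_eq (hP : ∀ D ∈ 𝒟, D ⊆ P) (hD : ∀ D ∈ 𝒟, ∀ E ⊆ D, E ∈ 𝒟) (h0 : ∅ ∈ 𝒟)
    (hw : ∀ p ∈ P, 0 < w p) (hg : ∀ p ∈ P, 0 < g p) (hwg : ∀ p ∈ P, (w p)⁻¹ = 1 + (g p)⁻¹) :
    ∑ D ∈ 𝒟, ∑ E ∈ 𝒟, lam 𝒟 w g D * lam 𝒟 w g E * ∏ p ∈ D ∪ E, w p =
      1 / ∑ E ∈ 𝒟, ∏ p ∈ E, g p := by
  set Gs := ∑ E ∈ 𝒟, ∏ p ∈ E, g p with hGs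
  have hgD : ∀ D ∈ 𝒟, 0 < ∏ p ∈ D, g p := fun D hD' => prod_pos fun p hp => hg p (hP D hD' hp)
  have hG : 0 < Gs := sum_pos hgD ⟨∅, h0⟩
  have h1 : ∀ D ∈ 𝒟, ∀ E ∈ 𝒟, ∏ p ∈ D ∪ E, w p =
      ∑ F ∈ P.powerset, (if F ⊆ D then ∏ p ∈ D, w p else 0) *
        (if F ⊆ E then ∏ p ∈ E, w p else 0) * ∏ p ∈ F, (g p)⁻¹ := by
    intro D hD' E hE
    have h2 : (∏ p ∈ D ∪ E, w p) * ∏ p ∈ D ∩ E, w p = (∏ p ∈ D, w p) * ∏ p ∈ E, w p :=
      prod_union_inter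
    have h3 : ∏ p ∈ D ∩ E, w p ≠ 0 :=
      (prod_pos fun p hp => hw p (hP D hD' (mem_inter.mp hp).1)).ne'
    have h4 : (∏ p ∈ D ∩ E, w p)⁻¹ = ∑ F ∈ (D ∩ E).powerset, ∏ p ∈ F, (g p)⁻¹ := by
      rw [← prod_inv_distrib, ← prod_one_add]
      exact prod_congr rfl fun p hp => hwg p (hP D hD' (mem_inter.mp hp).1)
    have h5 : (D ∩ E).powerset = P.powerset.filter (fun F => F ⊆ D ∧ F ⊆ E) := by
      ext F
      simp only [mem_powerset, mem_filter, subset_inter_iff]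
      exact ⟨fun h => ⟨h.1.trans (hP D hD'), h⟩, fun h => h.2⟩
    calc ∏ p ∈ D ∪ E, w p = (∏ p ∈ D, w p) * (∏ p ∈ E, w p) * (∏ p ∈ D ∩ E, w p)⁻¹ := by
          rw [← h2]
          field_simp
      _ = ∑ F ∈ P.powerset with F ⊆ D ∧ F ⊆ E,
            (∏ p ∈ D, w p) * (∏ p ∈ E, w p) * ∏ p ∈ F, (g p)⁻¹ := by
          rw [h4, h5, mul_sum]
      _ = _ := by
          rw [sum_filter]
          refine sum_congr rfl fun F _ => ?_
          by_cases h6 : F ⊆ D <;> by_cases h7 : F ⊆ E <;> simp [h6, h7]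
  have h8 : ∑ D ∈ 𝒟, ∑ E ∈ 𝒟, lam 𝒟 w g D * lam 𝒟 w g E * ∏ p ∈ D ∪ E, w p =
      ∑ F ∈ P.powerset, (∏ p ∈ F, (g p)⁻¹) *
        (∑ D ∈ 𝒟 with F ⊆ D, lam 𝒟 w g D * ∏ p ∈ D, w p) ^ 2 := by
    calc _ = ∑ D ∈ 𝒟, ∑ E ∈ 𝒟, ∑ F ∈ P.powerset, lam 𝒟 w g D * lam 𝒟 w g E *
          ((if F ⊆ D then ∏ p ∈ D, w p else 0) *
          (if F ⊆ E then ∏ p ∈ E, w p else 0) * ∏ p ∈ F, (g p)⁻¹) := by
          refine sum_congr rfl fun D hD' => sum_congr rfl fun E hE => ?_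
          rw [h1 D hD' E hE, mul_sum]
      _ = ∑ F ∈ P.powerset, ∑ D ∈ 𝒟, ∑ E ∈ 𝒟, lam 𝒟 w g D * lam 𝒟 w g E *
          ((if F ⊆ D then ∏ p ∈ D, w p else 0) *
          (if F ⊆ E then ∏ p ∈ E, w p else 0) * ∏ p ∈ F, (g p)⁻¹) :=
          (sum_congr rfl fun D _ => sum_comm).trans sum_comm
      _ = _ := by
          refine sum_congr rfl fun F _ => ?_
          rw [sq, sum_filter, sum_mul_sum, mul_sum]
          refine sum_congr rfl fun D _ => ?_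
          rw [mul_sum]
          refine sum_congr rfl fun E _ => ?_
          by_cases h6 : F ⊆ D <;> by_cases h7 : F ⊆ E <;> simp [h6, h7]
          ring
  rw [h8]
  simp_rw [sum_lam hP hD hw]
  have h9 : ∀ F ∈ P.powerset, (∏ p ∈ F, (g p)⁻¹) *
      (if F ∈ 𝒟 then (-1) ^ #F * (∏ p ∈ F, g p) / Gs else 0) ^ 2 =
      if F ∈ 𝒟 then (∏ p ∈ F, g p) / Gs ^ 2 else 0 := by
    intro F _
    split_ifs with h10
    · have h11 := (hgD F h10).ne'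
      have h12 : ((-1 : ℝ) ^ #F) ^ 2 = 1 := by rw [← pow_mul, mul_comm, pow_mul]; norm_num
      rw [prod_inv_distrib, div_pow, mul_pow, h12]
      field_simp
    · simp
  rw [sum_congr rfl h9, ← sum_filter]
  have h13 : P.powerset.filter (· ∈ 𝒟) = 𝒟 := by
    ext F
    rw [mem_filter, mem_powerset]
    exact ⟨fun h => h.2, fun h => ⟨hP F h, h⟩⟩
  rw [h13, ← sum_div, ← hGs]
  field_simp

theorem lam_empty (hP : ∀ D ∈ 𝒟, D ⊆ P) (h0 : ∅ ∈ 𝒟) (hg : ∀ p ∈ P, 0 < g p) :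
    lam 𝒟 w g ∅ = 1 := by
  have hG : 0 < ∑ E ∈ 𝒟, ∏ p ∈ E, g p :=
    sum_pos (fun D hD' => prod_pos fun p hp => hg p (hP D hD' hp)) ⟨∅, h0⟩
  rw [lam, card_empty, pow_zero, one_mul, prod_empty, div_one,
    filter_true_of_mem fun F _ => empty_subset F, div_self hG.ne']

theorem abs_lam_le (hP : ∀ D ∈ 𝒟, D ⊆ P) (h0 : ∅ ∈ 𝒟) (hw : ∀ p ∈ P, 0 < w p)
    (hg : ∀ p ∈ P, 0 < g p) {D : Finset ℕ} (hD : D ∈ 𝒟) :
    |lam 𝒟 w g D| ≤ (∏ p ∈ D, w p)⁻¹ := by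
  have hgD : ∀ D ∈ 𝒟, 0 < ∏ p ∈ D, g p := fun D hD' => prod_pos fun p hp => hg p (hP D hD' hp)
  have hG : 0 < ∑ E ∈ 𝒟, ∏ p ∈ E, g p := sum_pos hgD ⟨∅, h0⟩
  have hwD : 0 < ∏ p ∈ D, w p := prod_pos fun p hp => hw p (hP D hD hp)
  have h1 : 0 ≤ ∑ F ∈ 𝒟 with D ⊆ F, ∏ p ∈ F, g p :=
    sum_nonneg fun F hF => (hgD F (mem_filter.mp hF).1).le
  have h2 : ∑ F ∈ 𝒟 with D ⊆ F, ∏ p ∈ F, g p ≤ ∑ E ∈ 𝒟, ∏ p ∈ E, g p :=
    sum_le_sum_of_subset_of_nonneg (filter_subset _ _) fun F hF _ => (hgD F hF).le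
  rw [lam, abs_div, abs_mul, abs_pow, abs_neg, abs_one, one_pow, one_mul, abs_of_pos hwD,
    abs_of_nonneg (div_nonneg h1 hG.le), ← one_div]
  exact div_le_div_of_nonneg_right ((div_le_one hG).mpr h2) hwD.le

end

/-- **Selberg's sieve.** -/
theorem selbergStmt : SelbergStmt := by
  intro A P hP Q _ X hX ω hω h z hz
  set w : ℕ → ℝ := fun p => ω p / p with hw
  set g : ℕ → ℝ := fun p => ω p / (p - ω p) with hg
  set 𝒟 := P.powerset.filter (fun D => ∏ p ∈ D, p ≤ z) with h𝒟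
  have hp0 : ∀ p ∈ P, (0 : ℝ) < p := fun p hp => by exact_mod_cast (hP p hp).pos
  have hw0 : ∀ p ∈ P, 0 < w p := fun p hp => div_pos (by linarith [(hω p hp).1]) (hp0 p hp)
  have hg0 : ∀ p ∈ P, 0 < g p := fun p hp =>
    div_pos (by linarith [(hω p hp).1]) (by linarith [(hω p hp).2.2])
  have hwg : ∀ p ∈ P, (w p)⁻¹ = 1 + (g p)⁻¹ := by
    intro p hp
    have h1 : (0 : ℝ) < ω p := by linarith [(hω p hp).1]
    rw [hw, hg]
    simp only [inv_div]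
    field_simp
    ring
  have hDP : ∀ D ∈ 𝒟, D ⊆ P := fun D hD => mem_powerset.mp (mem_filter.mp hD).1
  have hprod : ∀ D ⊆ P, 0 < ∏ p ∈ D, p := fun D hD => prod_pos fun p hp => (hP p (hD hp)).pos
  have hdown : ∀ D ∈ 𝒟, ∀ E ⊆ D, E ∈ 𝒟 := by
    intro D hD E hE
    refine mem_filter.mpr ⟨mem_powerset.mpr (hE.trans (hDP D hD)), ?_⟩
    refine le_trans ?_ (mem_filter.mp hD).2
    exact Nat.le_of_dvd (hprod D (hDP D hD)) (prod_dvd_prod_of_subset _ _ _ hE)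
  have h0 : ∅ ∈ 𝒟 := mem_filter.mpr ⟨empty_mem_powerset _, by simpa using hz⟩
  set L := lam 𝒟 w g with hL
  have hL0 : L ∅ = 1 := lam_empty hDP h0 hg0
  have hz0 : (0 : ℝ) ≤ z := Nat.cast_nonneg z
  -- the weights are bounded
  have hLz : ∀ D ∈ 𝒟, |L D| * 2 ^ #D ≤ (z : ℝ) ^ 2 := by
    intro D hD
    have h1 := abs_lam_le hDP h0 hw0 hg0 hD
    have h2 : (∏ p ∈ D, (p : ℝ)) ≤ z := by
      have h2' : ∏ p ∈ D, p ≤ z := (mem_filter.mp hD).2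
      rw [← Nat.cast_prod]
      exact Nat.cast_le.mpr h2'
    have h3 : (∏ p ∈ D, w p)⁻¹ ≤ ∏ p ∈ D, (p : ℝ) := by
      rw [← prod_inv_distrib]
      refine prod_le_prod (fun p hp => (inv_pos.mpr (hw0 p (hDP D hD hp))).le) fun p hp => ?_
      rw [hw]
      simp only [inv_div]
      exact div_le_self (hp0 p (hDP D hD hp)).le (hω p (hDP D hD hp)).1
    have h4 : (2 : ℝ) ^ #D ≤ ∏ p ∈ D, (p : ℝ) := by
      rw [← prod_const]
      exact prod_le_prod (fun _ _ => by norm_num) fun p hp => by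
        exact_mod_cast (hP p (hDP D hD hp)).two_le
    rw [sq]
    exact mul_le_mul (h1.trans (h3.trans h2)) (h4.trans h2) (by positivity) hz0
  have hcard : (#𝒟 : ℝ) ≤ z := by
    have h1 : #𝒟 ≤ #(Icc 1 z) := by
      refine card_le_card_of_injOn (fun D => ∏ p ∈ D, p) (fun D hD => ?_) fun D hD E hE hDE => ?_
      · exact mem_coe.mpr (mem_Icc.mpr ⟨hprod D (hDP D hD), (mem_filter.mp hD).2⟩)
      · have h2 : ∀ D ∈ 𝒟, (∏ p ∈ D, p).primeFactors = D := fun D hD =>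
          Nat.primeFactors_prod fun p hp => hP p (hDP D hD hp)
        rw [← h2 D hD, ← h2 E hE]
        exact congrArg _ hDE
    rw [Nat.card_Icc, Nat.add_sub_cancel] at h1
    exact_mod_cast h1
  -- the sum of the squares
  have h1 : (#{i ∈ A | ∀ p ∈ P, ¬ Q p i} : ℝ) ≤
      ∑ i ∈ A, (∑ D ∈ 𝒟, if ∀ p ∈ D, Q p i then L D else 0) ^ 2 := by
    rw [card_filter]
    push_cast
    refine sum_le_sum fun i _ => ?_
    split_ifs with h2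
    · have h3 : (∑ D ∈ 𝒟, if ∀ p ∈ D, Q p i then L D else 0) = L ∅ := by
        rw [sum_eq_single_of_mem ∅ h0]
        · simp
        · intro D hD hD0
          obtain ⟨p, hp⟩ := nonempty_iff_ne_empty.mpr hD0
          exact if_neg fun h4 => h2 p (hDP D hD hp) (h4 p hp)
      rw [h3, hL0]
      norm_num
    · positivity
  have h2 : ∑ i ∈ A, (∑ D ∈ 𝒟, if ∀ p ∈ D, Q p i then L D else 0) ^ 2 =
      ∑ D ∈ 𝒟, ∑ E ∈ 𝒟, L D * L E * (#{i ∈ A | ∀ p ∈ D ∪ E, Q p i} : ℝ) := by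
    calc _ = ∑ i ∈ A, ∑ D ∈ 𝒟, ∑ E ∈ 𝒟, (L D * L E * if ∀ p ∈ D ∪ E, Q p i then 1 else 0) := by
          refine sum_congr rfl fun i _ => ?_
          rw [sq, sum_mul_sum]
          refine sum_congr rfl fun D _ => sum_congr rfl fun E _ => ?_
          have h3 : (∀ p ∈ D ∪ E, Q p i) ↔ (∀ p ∈ D, Q p i) ∧ ∀ p ∈ E, Q p i := by
            simp only [mem_union, or_imp, forall_and]
          by_cases h4 : ∀ p ∈ D, Q p i <;> by_cases h5 : ∀ p ∈ E, Q p i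
          · rw [if_pos h4, if_pos h5, if_pos (h3.mpr ⟨h4, h5⟩), mul_one]
          · rw [if_neg h5, if_neg (fun h6 => h5 (h3.mp h6).2), mul_zero, mul_zero]
          · rw [if_neg h4, if_neg (fun h6 => h4 (h3.mp h6).1), zero_mul, mul_zero]
          · rw [if_neg h4, if_neg (fun h6 => h4 (h3.mp h6).1), zero_mul, mul_zero]
      _ = ∑ D ∈ 𝒟, ∑ E ∈ 𝒟, ∑ i ∈ A, (L D * L E * if ∀ p ∈ D ∪ E, Q p i then 1 else 0) :=
          sum_comm.trans (sum_congr rfl fun D _ => sum_comm)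
      _ = _ := by
          refine sum_congr rfl fun D _ => sum_congr rfl fun E _ => ?_
          rw [← mul_sum, card_filter]
          push_cast
          rfl
  have h3 : ∑ D ∈ 𝒟, ∑ E ∈ 𝒟, L D * L E * (#{i ∈ A | ∀ p ∈ D ∪ E, Q p i} : ℝ) ≤
      X * ∑ D ∈ 𝒟, ∑ E ∈ 𝒟, L D * L E * ∏ p ∈ D ∪ E, w p + (z : ℝ) ^ 6 := by
    have h4 : ∑ D ∈ 𝒟, ∑ E ∈ 𝒟, L D * L E * ((#{i ∈ A | ∀ p ∈ D ∪ E, Q p i} : ℝ) -
        X * ∏ p ∈ D ∪ E, w p) ≤ (z : ℝ) ^ 6 := by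
      calc _ ≤ ∑ D ∈ 𝒟, ∑ E ∈ 𝒟, (|L D| * 2 ^ #D) * (|L E| * 2 ^ #E) := by
            refine sum_le_sum fun D hD => sum_le_sum fun E hE => ?_
            have h5 := h (D ∪ E) (union_subset (hDP D hD) (hDP E hE))
            have h6 : (2 : ℝ) ^ #(D ∪ E) ≤ 2 ^ #D * 2 ^ #E := by
              rw [← pow_add]
              exact pow_le_pow_right₀ (by norm_num) (card_union_le _ _)
            calc L D * L E * ((#{i ∈ A | ∀ p ∈ D ∪ E, Q p i} : ℝ) - X * ∏ p ∈ D ∪ E, w p)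
                ≤ |L D * L E * ((#{i ∈ A | ∀ p ∈ D ∪ E, Q p i} : ℝ) - X * ∏ p ∈ D ∪ E, w p)| :=
                  le_abs_self _
              _ = |L D| * |L E| *
                    |(#{i ∈ A | ∀ p ∈ D ∪ E, Q p i} : ℝ) - X * ∏ p ∈ D ∪ E, w p| := by
                  rw [abs_mul, abs_mul]
              _ ≤ |L D| * |L E| * (2 ^ #D * 2 ^ #E) := by
                  gcongr
                  exact h5.trans h6
              _ = _ := by ring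
        _ ≤ ∑ D ∈ 𝒟, ∑ E ∈ 𝒟, (z : ℝ) ^ 2 * (z : ℝ) ^ 2 := by
            refine sum_le_sum fun D hD => sum_le_sum fun E hE => ?_
            exact mul_le_mul (hLz D hD) (hLz E hE) (by positivity) (by positivity)
        _ = (#𝒟 : ℝ) * (#𝒟 : ℝ) * (z : ℝ) ^ 4 := by
            rw [sum_const, sum_const, nsmul_eq_mul, nsmul_eq_mul]
            ring
        _ ≤ (z : ℝ) * z * (z : ℝ) ^ 4 := by gcongr
        _ = _ := by ring
    have h7 : ∑ D ∈ 𝒟, ∑ E ∈ 𝒟, L D * L E * ((#{i ∈ A | ∀ p ∈ D ∪ E, Q p i} : ℝ) -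
        X * ∏ p ∈ D ∪ E, w p) =
        ∑ D ∈ 𝒟, ∑ E ∈ 𝒟, L D * L E * (#{i ∈ A | ∀ p ∈ D ∪ E, Q p i} : ℝ) -
        X * ∑ D ∈ 𝒟, ∑ E ∈ 𝒟, L D * L E * ∏ p ∈ D ∪ E, w p := by
      rw [mul_sum, ← sum_sub_distrib]
      refine sum_congr rfl fun D _ => ?_
      rw [mul_sum, ← sum_sub_distrib]
      refine sum_congr rfl fun E _ => ?_
      ring
    linarith
  rw [main_eq hDP hdown h0 hw0 hg0 hwg, mul_one_div] at h3
  linarith [h1, h2, h3]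

end Fermat.Agent.Cor.Gold
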