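import Fermat.Agent.Corollaries.Gold.RomDefs
import Fermat.Agent.Corollaries.Gold.Upper
import Fermat.Agent.Corollaries.Gold.Selberg
import Fermat.Agent.Corollaries.Gold.GOne
import Fermat.Agent.Corollaries.Gold.GTwo
import Fermat.Agent.Corollaries.Gold.GThree
import Fermat.Agent.Corollaries.Brun.Sieve

/-!
# The upper bound for the number of prime pairs, uniform in the difference
-/

set_option autoImplicit false

open Finset
open Fermat.Agent.Cor.Brun (abs_card_modEq_sub_le modEq_prod_iff)

namespace Fermat.Agent.Cor.Gold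

/-- the number of `i < N` such that all `p ∈ D` divide `i (i + h)` -/
theorem localPair (h N : ℕ) {D : Finset ℕ} (hD : ∀ p ∈ D, p.Prime) :
    |(#{i ∈ range N | ∀ p ∈ D, p ∣ i * (i + h)} : ℝ) - N * ∏ p ∈ D, (om h p / p)| ≤ 2 ^ #D := by
  have hM : 0 < ∏ p ∈ D, p := prod_pos fun p hp => (hD p hp).pos
  set D' := D.filter (fun p => ¬ p ∣ h) with hD'
  have h1 : #{i ∈ range N | ∀ p ∈ D, p ∣ i * (i + h)} =
      ∑ E ∈ D'.powerset, #{i ∈ {i ∈ range N | ∀ p ∈ D, p ∣ i * (i + h)} | D'.filter (· ∣ i) = E} :=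
    card_eq_sum_card_fiberwise fun i _ => mem_powerset.mpr (filter_subset _ _)
  have h2 : ∀ E ∈ D'.powerset, |(#{i ∈ {i ∈ range N | ∀ p ∈ D, p ∣ i * (i + h)} |
      D'.filter (· ∣ i) = E} : ℝ) - N / ∏ p ∈ D, (p : ℝ)| ≤ 1 := by
    intro E hE
    rw [mem_powerset] at hE
    have hED : ∀ p ∈ E, p ∈ D ∧ ¬ p ∣ h := fun p hp => mem_filter.mp (hE hp)
    obtain ⟨c, hc⟩ := Brun.exists_class hD h (E ∪ D.filter (· ∣ h))
    have h3 : {i ∈ {i ∈ range N | ∀ p ∈ D, p ∣ i * (i + h)} | D'.filter (· ∣ i) = E} =
        {i ∈ range N | i ≡ c [MOD ∏ p ∈ D, p]} := by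
      ext i
      rw [mem_filter, mem_filter, mem_filter, modEq_prod_iff hD, and_assoc, mem_range]
      refine and_congr_right fun hin => ⟨fun hi p hp => ?_, fun hi => ⟨fun p hp => ?_, ?_⟩⟩
      · by_cases hpn : p ∣ h
        · have h4 : p ∣ i := by
            rcases (hD p hp).dvd_mul.mp (hi.1 p hp) with h5 | h5
            · exact h5
            · exact (Nat.dvd_add_left hpn).mp h5
          exact (Nat.modEq_zero_iff_dvd.mpr h4).trans
            ((hc p hp).1 (mem_union_right _ (mem_filter.mpr ⟨hp, hpn⟩))).symm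
        · by_cases hpE : p ∈ E
          · have h4 : p ∣ i := by
              rw [← hi.2, mem_filter] at hpE
              exact hpE.2
            exact (Nat.modEq_zero_iff_dvd.mpr h4).trans
              ((hc p hp).1 (mem_union_left _ hpE)).symm
          · have h4 : ¬ p ∣ i := fun h4 => hpE (by
              rw [← hi.2]
              exact mem_filter.mpr ⟨mem_filter.mpr ⟨hp, hpn⟩, h4⟩)
            have h5 : p ∣ i + h := ((hD p hp).dvd_mul.mp (hi.1 p hp)).resolve_left h4
            have h6 : p ∉ E ∪ D.filter (· ∣ h) := by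
              rw [mem_union, mem_filter]
              tauto
            exact Nat.ModEq.add_right_cancel' h
              ((Nat.modEq_zero_iff_dvd.mpr h5).trans ((hc p hp).2 h6).symm)
      · by_cases hpn : p ∈ E ∪ D.filter (· ∣ h)
        · exact Dvd.dvd.mul_right (Nat.modEq_zero_iff_dvd.mp ((hi p hp).trans ((hc p hp).1 hpn))) _
        · exact Dvd.dvd.mul_left (Nat.modEq_zero_iff_dvd.mp
            (((hi p hp).add_right h).trans ((hc p hp).2 hpn))) _
      · ext p
        rw [mem_filter]
        constructor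
        · rintro ⟨hp, hpi⟩
          rw [hD', mem_filter] at hp
          by_contra hpE
          have h6 : p ∉ E ∪ D.filter (· ∣ h) := by
            rw [mem_union, mem_filter]
            tauto
          have h7 : p ∣ i + h := Nat.modEq_zero_iff_dvd.mp
            (((hi p hp.1).add_right h).trans ((hc p hp.1).2 h6))
          exact hp.2 ((Nat.dvd_add_right hpi).mp h7)
        · intro hpE
          have h8 := hED p hpE
          exact ⟨hE hpE, Nat.modEq_zero_iff_dvd.mp
            ((hi p h8.1).trans ((hc p h8.1).1 (mem_union_left _ hpE)))⟩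
    rw [h3]
    have h4 := abs_card_modEq_sub_le N c hM
    push_cast at h4
    exact h4
  have h5 : (N : ℝ) * ∏ p ∈ D, (om h p / p) = ∑ E ∈ D'.powerset, (N / ∏ p ∈ D, (p : ℝ)) := by
    have h6 : ∏ p ∈ D, om h p = 2 ^ #D' := by
      rw [hD', ← prod_const, prod_filter]
      refine prod_congr rfl fun p _ => ?_
      unfold om
      by_cases hpn : p ∣ h <;> simp [hpn]
    rw [sum_const, card_powerset, nsmul_eq_mul, prod_div_distrib, h6]
    push_cast
    ring
  rw [h1, h5]
  push_cast
  rw [← sum_sub_distrib]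
  refine (abs_sum_le_sum_abs _ _).trans ((sum_le_sum h2).trans ?_)
  rw [sum_const, card_powerset, nsmul_eq_mul]
  push_cast
  rw [mul_one]
  exact pow_le_pow_right₀ (by norm_num) (card_le_card (filter_subset _ _))

theorem pair_le_sieve (h N z : ℕ) :
    #{n ∈ range N | n.Prime ∧ (n + h).Prime} ≤
      z + #{i ∈ range N | ∀ p ∈ P z, ¬ p ∣ i * (i + h)} := by
  have h1 : {n ∈ range N | n.Prime ∧ (n + h).Prime} ⊆
      Icc 1 z ∪ {i ∈ range N | ∀ p ∈ P z, ¬ p ∣ i * (i + h)} := by
    intro n hn
    rw [mem_filter] at hn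
    rw [mem_union]
    by_cases hnz : n ≤ z
    · exact Or.inl (mem_Icc.mpr ⟨hn.2.1.one_le, hnz⟩)
    · refine Or.inr (mem_filter.mpr ⟨hn.1, fun p hp hpn => ?_⟩)
      rw [P, mem_filter, mem_Icc] at hp
      rcases hp.2.dvd_mul.mp hpn with h2 | h2
      · have := (Nat.prime_dvd_prime_iff_eq hp.2 hn.2.1).mp h2
        omega
      · have := (Nat.prime_dvd_prime_iff_eq hp.2 hn.2.2).mp h2
        omega
  refine (card_le_card h1).trans ((card_union_le _ _).trans ?_)
  rw [Nat.card_Icc, Nat.add_sub_cancel]

theorem pair_le_one_of_odd {h : ℕ} (hh : Odd h) (N : ℕ) :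
    #{n ∈ range N | n.Prime ∧ (n + h).Prime} ≤ 1 := by
  refine (card_le_card (t := {2}) fun n hn => ?_).trans (card_singleton 2).le
  rw [mem_filter] at hn
  rw [mem_singleton]
  rcases hn.2.1.eq_two_or_odd' with h1 | h1
  · exact h1
  · exfalso
    have h2 := h1.add_odd hh
    have h3 := (hn.2.2.even_iff).mp h2
    have h4 := hn.2.1.two_le
    have h5 := hh.pos
    omega

/-- (T1) -/
theorem pairStmt : PairStmt := by
  obtain ⟨c, hc, h3⟩ := gThreeStmt
  refine ⟨3000 + 196 / c, by positivity, fun h n hh hn => ?_⟩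
  set R : ℕ := #{i ∈ range n | i.Prime ∧ (i + h).Prime} with hR
  have hn0 : (2 : ℝ) ≤ n := by exact_mod_cast hn
  have hs : 1 ≤ s h := one_le_s hh
  have hlog : 0 < Real.log n := Real.log_pos (by linarith)
  set L := Real.log n with hLdef
  have hc' : 0 < 196 / c := by positivity
  have hD : 0 < (n : ℝ) / L ^ 2 := by positivity
  -- a bound without `s`
  have hbase : ∀ a : ℝ, 0 ≤ a → a ≤ 3000 → a * (n / L ^ 2) ≤ (3000 + 196 / c) * s h * n / L ^ 2 := by
    intro a ha0 ha
    have : (3000 + 196 / c) * s h * n / L ^ 2 = ((3000 + 196 / c) * s h) * (n / L ^ 2) := by ring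
    rw [this]
    refine mul_le_mul_of_nonneg_right ?_ hD.le
    nlinarith [mul_le_mul_of_nonneg_left hs (show 0 ≤ 3000 + 196 / c by positivity)]
  rcases Nat.even_or_odd h with he | ho
  swap
  · have h4 : (R : ℝ) ≤ 1 := by exact_mod_cast pair_le_one_of_odd ho n
    have h5 : L ^ 2 ≤ 4 * n := by
      calc L ^ 2 ≤ (2 * √(n : ℝ)) ^ 2 :=
            pow_le_pow_left₀ hlog.le (log_le_two_sqrt (by linarith)) 2
        _ = 4 * √(n : ℝ) ^ 2 := by ring
        _ = 4 * n := by rw [Real.sq_sqrt (by linarith)]
    have h6 : (1 : ℝ) ≤ 8 * (n / L ^ 2) := by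
      rw [mul_div_assoc', le_div_iff₀ (by positivity)]; linarith
    exact (h4.trans h6).trans (hbase 8 (by norm_num) (by norm_num))
  · obtain ⟨z, hz, hz'⟩ := exists_seventh_root n
    have hz1 : 1 ≤ z := by
      rcases Nat.eq_zero_or_pos z with h | h
      · rw [h] at hz'; norm_num at hz'; omega
      · exact h
    have hlz1 : L ≤ 7 * Real.log (z + 1) := by
      have h4 : (n : ℝ) ≤ (z + 1 : ℝ) ^ 7 := by exact_mod_cast hz'.le
      calc L ≤ Real.log ((z + 1 : ℝ) ^ 7) := Real.log_le_log (by linarith) h4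
        _ = 7 * Real.log (z + 1) := by rw [Real.log_pow]; norm_num
    rcases Nat.lt_or_ge z 2 with hz2 | hz2
    · have hz0 : z = 1 := by omega
      have h4 : (R : ℝ) ≤ n := by
        have : R ≤ n := (card_filter_le _ _).trans (card_range n).le
        exact_mod_cast this
      have h5 : L ≤ 7 := by
        rw [hz0] at hlz1
        have := Real.log_two_lt_d9
        norm_num at hlz1
        linarith
      have h6 : (n : ℝ) ≤ 49 * (n / L ^ 2) := by
        rw [mul_div_assoc', le_div_iff₀ (by positivity)]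
        have : L ^ 2 ≤ 49 := by nlinarith
        nlinarith
      exact (h4.trans h6).trans (hbase 49 (by norm_num) (by norm_num))
    · have hzr : (2 : ℝ) ≤ z := by exact_mod_cast hz2
      have hlz0 : 0 < Real.log z := Real.log_pos (by linarith)
      have hlz : L ≤ 14 * Real.log z := by
        have h4 : Real.log (z + 1) ≤ 2 * Real.log z := by
          have : (z : ℝ) + 1 ≤ (z : ℝ) ^ 2 := by nlinarith
          calc Real.log (z + 1) ≤ Real.log ((z : ℝ) ^ 2) := Real.log_le_log (by linarith) this
            _ = 2 * Real.log z := by rw [Real.log_pow]; norm_num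
        linarith
      -- the sieve
      have hsv := selbergStmt (range n) (P z) (fun p hp => (mem_filter.1 hp).2)
        (fun p i => p ∣ i * (i + h)) n (Nat.cast_nonneg n) (om h) (by
          intro p hp
          have hpp : p.Prime := (mem_filter.1 hp).2
          refine ⟨?_, ?_, om_lt he hpp⟩
          · unfold om
            split_ifs <;> norm_num
          · unfold om
            split_ifs <;> norm_num)
        (fun D hDs => localPair h n fun p hp => (mem_filter.1 (hDs hp)).2) z hz1
      have hG : (R : ℝ) ≤ z + (n / G h z + (z : ℝ) ^ 6) := by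
        have h4 : (R : ℝ) ≤ z + (#{i ∈ range n | ∀ p ∈ P z, ¬ p ∣ i * (i + h)} : ℝ) := by
          exact_mod_cast pair_le_sieve h n z
        refine h4.trans ?_
        gcongr
        exact hsv
      have hs0 : 0 < s h := by linarith
      have hGl : c * Real.log z ^ 2 ≤ s h * G h z :=
        (h3 z hz1).trans ((gTwoStmt h z hh).trans
          (mul_le_mul_of_nonneg_left (gOneStmt h z he) hs0.le))
      have hGl' : c * (L ^ 2 / 196) ≤ s h * G h z := by
        refine le_trans (mul_le_mul_of_nonneg_left ?_ hc.le) hGl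
        rw [div_le_iff₀ (by norm_num)]
        nlinarith
      have hG0 : 0 < G h z := by
        have : 0 < s h * G h z := lt_of_lt_of_le (by positivity) hGl'
        exact (pos_iff_pos_of_mul_pos this).1 hs0
      have hA : (n : ℝ) / G h z ≤ 196 / c * s h * (n / L ^ 2) := by
        rw [div_le_iff₀ hG0]
        calc (n : ℝ) = 196 / c * (n / L ^ 2) * (c * (L ^ 2 / 196)) := by field_simp
          _ ≤ 196 / c * (n / L ^ 2) * (s h * G h z) :=
            mul_le_mul_of_nonneg_left hGl' (by positivity)
          _ = _ := by ring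
      have hB : (z : ℝ) ^ 6 ≤ 784 * (n / L ^ 2) := by
        rw [mul_div_assoc', le_div_iff₀ (by positivity)]
        have h4 : L ^ 2 ≤ 784 * z := by
          have h5 : L ≤ 28 * √(z : ℝ) := by
            have := log_le_two_sqrt (show (0 : ℝ) < z by linarith)
            linarith
          calc L ^ 2 ≤ (28 * √(z : ℝ)) ^ 2 := pow_le_pow_left₀ hlog.le h5 2
            _ = 784 * √(z : ℝ) ^ 2 := by ring
            _ = _ := by rw [Real.sq_sqrt (by linarith)]
        have h5 : (z : ℝ) ^ 7 ≤ n := by exact_mod_cast hz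
        calc (z : ℝ) ^ 6 * L ^ 2 ≤ (z : ℝ) ^ 6 * (784 * z) :=
              mul_le_mul_of_nonneg_left h4 (by positivity)
          _ = 784 * (z : ℝ) ^ 7 := by ring
          _ ≤ 784 * (n : ℝ) := by linarith
      have hz6 : (z : ℝ) ≤ (z : ℝ) ^ 6 := le_self_pow₀ (by linarith) (by norm_num)
      calc (R : ℝ) ≤ z + (n / G h z + (z : ℝ) ^ 6) := hG
        _ ≤ 2352 * (n / L ^ 2) + 196 / c * s h * (n / L ^ 2) := by linarith
        _ ≤ 3000 * s h * (n / L ^ 2) + 196 / c * s h * (n / L ^ 2) := by
          have : (2352 : ℝ) ≤ 3000 * s h := by linarith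
          have := mul_le_mul_of_nonneg_right this hD.le
          linarith
        _ = _ := by ring

end Fermat.Agent.Cor.Gold
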