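import Fermat.Agent.Corollaries.Gold.Defs

/-!
# Romanov's theorem: the integers `p + 2 ^ k` have positive lower density

The statements of the parts of the proof (N. P. Romanov 1934, P. Erdős).
-/

set_option autoImplicit false

open Finset Filter

namespace Fermat.Agent.Cor.Gold

/-- (T1) the upper bound for the number of prime pairs, uniform in the difference -/
def PairStmt : Prop := ∃ C : ℝ, 0 < C ∧ ∀ h N : ℕ, h ≠ 0 → 2 ≤ N →
  (#{n ∈ range N | n.Prime ∧ (n + h).Prime} : ℝ) ≤ C * s h * N / Real.log N ^ 2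

/-- (T2) Romanov's lemma -/
def RomLemStmt : Prop := ∃ C : ℝ, 0 < C ∧ ∀ L : ℕ, ∑ m ∈ Icc 1 L, s (2 ^ m - 1) ≤ C * L

/-- (T3) **Romanov's theorem** -/
def RomStmt : Prop := ∃ c : ℝ, 0 < c ∧ ∀ᶠ N : ℕ in atTop,
  c * N ≤ (Nat.card {n : ℕ | n ≤ N ∧ ∃ p k : ℕ, p.Prime ∧ n = p + 2 ^ k} : ℝ)

end Fermat.Agent.Cor.Gold
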