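import Fermat.Agent.Corollaries.Gold.RomDefs

/-!
# Romanov's lemma

`∑_{m ≤ L} ∑_{e ∣ 2 ^ m - 1} 1 / e = O(L)`, i.e. the series `∑ 1 / (e ord_e(2))` over the odd `e`
converges (Romanov 1934; the proof is the one of Erdős): the `e` with `ord_e(2) ≤ x` divide
`M = ∏_{m ≤ x} (2 ^ m - 1) ≤ 2 ^ (x²)`, and `∑_{e ∣ M} 1 / e` is at most
`∏_{p ∣ M} (1 - 1 / p)⁻¹ = O(x ^ (2 / 3))`, because `M` has at most `x²` prime factors and the `i`-th
prime `≥ 5` is greater than `3 i`.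
-/

set_option autoImplicit false

open Finset Filter

namespace Fermat.Agent.Cor.Gold

namespace RomLem

theorem dvd_iff (e j : ℕ) : e ∣ 2 ^ j - 1 ↔ orderOf (2 : ZMod e) ∣ j := by
  rw [orderOf_dvd_iff_pow_eq_one, ← ZMod.natCast_eq_zero_iff, Nat.cast_sub Nat.one_le_two_pow]
  push_cast
  exact sub_eq_zero

theorem one_lt_two_pow' {j : ℕ} (hj : 1 ≤ j) : 2 ≤ 2 ^ j :=
  calc 2 = 2 ^ 1 := rfl
    _ ≤ 2 ^ j := Nat.pow_le_pow_right (by norm_num) hj

/-- the part of the sum with `2` of order `j` modulo `e` -/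
noncomputable def F (j : ℕ) : ℝ :=
  ∑ e ∈ (2 ^ j - 1).divisors with orderOf (2 : ZMod e) = j, 1 / (e : ℝ)

theorem F_nonneg (j : ℕ) : 0 ≤ F j := sum_nonneg fun _ _ => by positivity

theorem s_pow_le {m L : ℕ} (hm : m ∈ Icc 1 L) :
    s (2 ^ m - 1) ≤ ∑ j ∈ Icc 1 L, if j ∣ m then F j else 0 := by
  rw [mem_Icc] at hm
  have h1 : s (2 ^ m - 1) = ∑ e ∈ (2 ^ m - 1).divisors,
      ∑ j ∈ Icc 1 L, if orderOf (2 : ZMod e) = j then 1 / (e : ℝ) else 0 := by
    refine sum_congr rfl fun e he => ?_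
    rw [sum_ite_eq, if_pos]
    have h := (dvd_iff e m).1 (Nat.dvd_of_mem_divisors he)
    rw [mem_Icc]
    exact ⟨Nat.pos_of_dvd_of_pos h (by omega), (Nat.le_of_dvd (by omega) h).trans hm.2⟩
  rw [h1, sum_comm]
  refine sum_le_sum fun j hj => ?_
  rw [← sum_filter]
  split_ifs with h
  · refine sum_le_sum_of_subset_of_nonneg (fun e he => ?_) fun _ _ _ => by positivity
    rw [mem_filter] at he ⊢
    refine ⟨Nat.mem_divisors.2 ⟨(dvd_iff e j).2 he.2.dvd, ?_⟩, he.2⟩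
    have := one_lt_two_pow' (mem_Icc.1 hj).1
    omega
  · apply le_of_eq
    rw [filter_eq_empty_iff.2, sum_empty]
    intro e he h'
    exact h (h' ▸ (dvd_iff e m).1 (Nat.dvd_of_mem_divisors he))

theorem sum_s_le (L : ℕ) : ∑ m ∈ Icc 1 L, s (2 ^ m - 1) ≤ L * ∑ j ∈ Icc 1 L, F j / j := by
  calc ∑ m ∈ Icc 1 L, s (2 ^ m - 1) ≤ ∑ m ∈ Icc 1 L, ∑ j ∈ Icc 1 L, if j ∣ m then F j else 0 :=
        sum_le_sum fun m hm => s_pow_le hm
    _ = ∑ j ∈ Icc 1 L, ∑ m ∈ Icc 1 L, if j ∣ m then F j else 0 := sum_comm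
    _ ≤ ∑ j ∈ Icc 1 L, L * (F j / j) := by
        refine sum_le_sum fun j hj => ?_
        rw [← sum_filter, sum_const, nsmul_eq_mul]
        have h1 : #{m ∈ Icc 1 L | j ∣ m} = L / j := Nat.Ioc_filter_dvd_card_eq_div L j
        rw [h1]
        have h2 : ((L / j : ℕ) : ℝ) ≤ (L : ℝ) / j := Nat.cast_div_le
        calc ((L / j : ℕ) : ℝ) * F j ≤ (L : ℝ) / j * F j :=
              mul_le_mul_of_nonneg_right h2 (F_nonneg j)
          _ = _ := by ring
    _ = _ := by rw [mul_sum]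

/-- `∏_{m ≤ x} (2 ^ m - 1)` -/
def D (x : ℕ) : ℕ := ∏ m ∈ Icc 1 x, (2 ^ m - 1)

theorem D_ne_zero (x : ℕ) : D x ≠ 0 := by
  rw [D, prod_ne_zero_iff]
  intro m hm
  have := one_lt_two_pow' (mem_Icc.1 hm).1
  omega

theorem D_le (x : ℕ) : D x ≤ 2 ^ (x ^ 2) := by
  calc D x ≤ ∏ _m ∈ Icc 1 x, 2 ^ x := by
        refine prod_le_prod' fun m hm => ?_
        exact (Nat.sub_le _ _).trans (Nat.pow_le_pow_right (by norm_num) (mem_Icc.1 hm).2)
    _ = 2 ^ (x ^ 2) := by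
        rw [prod_const, Nat.card_Icc, ← pow_mul]; congr 1; rw [Nat.add_sub_cancel]; ring

theorem sum_F_le (x : ℕ) : ∑ j ∈ Icc 1 x, F j ≤ s (D x) := by
  calc ∑ j ∈ Icc 1 x, F j ≤ ∑ j ∈ Icc 1 x, ∑ e ∈ (D x).divisors,
        if orderOf (2 : ZMod e) = j then 1 / (e : ℝ) else 0 := by
        refine sum_le_sum fun j hj => ?_
        rw [← sum_filter]
        refine sum_le_sum_of_subset_of_nonneg (fun e he => ?_) fun _ _ _ => by positivity
        rw [mem_filter] at he ⊢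
        refine ⟨Nat.mem_divisors.2 ⟨?_, D_ne_zero x⟩, he.2⟩
        exact (Nat.dvd_of_mem_divisors he.1).trans (dvd_prod_of_mem (fun m => 2 ^ m - 1) hj)
    _ = ∑ e ∈ (D x).divisors, ∑ j ∈ Icc 1 x,
        if orderOf (2 : ZMod e) = j then 1 / (e : ℝ) else 0 := sum_comm
    _ ≤ s (D x) := by
        refine sum_le_sum fun e _ => ?_
        rw [sum_ite_eq]
        split_ifs
        · exact le_rfl
        · positivity

theorem s_le_prod {M : ℕ} (hM : M ≠ 0) : s M ≤ ∏ p ∈ M.primeFactors, (1 - (p : ℝ)⁻¹)⁻¹ := by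
  let f : ℕ →* ℝ := ⟨⟨fun n => (n : ℝ)⁻¹, by simp⟩, fun a b => by simp [mul_comm]⟩
  have h := (EulerProduct.summable_and_hasSum_factoredNumbers_prod_filter_prime_geometric (f := f)
    (by
      intro p hp
      have hp1 : (1 : ℝ) < p := by exact_mod_cast hp.one_lt
      change ‖(p : ℝ)⁻¹‖ < 1
      rw [Real.norm_of_nonneg (by positivity)]
      exact inv_lt_one_of_one_lt₀ hp1) M.primeFactors).2
  have h2 : {p ∈ M.primeFactors | p.Prime} = M.primeFactors :=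
    filter_true_of_mem fun p hp => Nat.prime_of_mem_primeFactors hp
  rw [h2] at h
  have h3 : HasSum ((Nat.factoredNumbers M.primeFactors).indicator (fun n : ℕ => (n : ℝ)⁻¹))
      (∏ p ∈ M.primeFactors, (1 - (p : ℝ)⁻¹)⁻¹) :=
    (hasSum_subtype_iff_indicator (f := fun n : ℕ => (n : ℝ)⁻¹)).1 h
  refine le_trans (le_of_eq ?_) (sum_le_hasSum M.divisors (fun i _ => ?_) h3)
  · refine sum_congr rfl fun e he => ?_
    rw [Set.indicator_of_mem, one_div]
    have he' := Nat.dvd_of_mem_divisors he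
    exact Nat.mem_factoredNumbers_of_primeFactors_subset (ne_zero_of_dvd_ne_zero hM he')
      (Nat.primeFactors_mono he' hM)
  · exact Set.indicator_nonneg (fun n _ => by positivity) i

theorem prod_le_range (J : Finset ℕ) (hJ : ∀ j ∈ J, 1 ≤ j) :
    ∏ j ∈ J, (1 + 1 / (3 * (j : ℝ))) ≤ ∏ i ∈ range #J, (1 + 1 / (3 * ((i : ℝ) + 1))) := by
  induction J using Finset.induction_on_max with
  | empty => simp
  | insert a J ha ih =>
    have hn : a ∉ J := fun h => lt_irrefl _ (ha a h)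
    have h1 : #J + 1 ≤ a := by
      have h2 : J ⊆ Ico 1 a := fun x hx => mem_Ico.2 ⟨hJ x (mem_insert_of_mem hx), ha x hx⟩
      have h3 := card_le_card h2
      rw [Nat.card_Ico] at h3
      have := hJ a (mem_insert_self a J)
      omega
    rw [prod_insert hn, card_insert_of_notMem hn, prod_range_succ, mul_comm]
    have h4 : ((#J : ℝ) + 1) ≤ a := by exact_mod_cast h1
    have h5 : 1 + 1 / (3 * (a : ℝ)) ≤ 1 + 1 / (3 * ((#J : ℝ) + 1)) := by gcongr
    exact mul_le_mul (ih fun j hj => hJ j (mem_insert_of_mem hj)) h5 (by positivity)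
      (prod_nonneg fun _ _ => by positivity)

theorem prod_range_le (k : ℕ) :
    ∏ i ∈ range k, (1 + 1 / (3 * ((i : ℝ) + 1))) ≤ Real.exp ((1 + Real.log k) / 3) := by
  calc ∏ i ∈ range k, (1 + 1 / (3 * ((i : ℝ) + 1))) ≤
        ∏ i ∈ range k, Real.exp (1 / (3 * ((i : ℝ) + 1))) := by
        refine prod_le_prod (fun i _ => by positivity) fun i _ => ?_
        have := Real.add_one_le_exp (1 / (3 * ((i : ℝ) + 1)))
        linarith
    _ = Real.exp (∑ i ∈ range k, 1 / (3 * ((i : ℝ) + 1))) := (Real.exp_sum _ _).symm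
    _ ≤ _ := by
        rw [Real.exp_le_exp]
        have h1 := harmonic_le_one_add_log k
        have h2 : ((harmonic k : ℚ) : ℝ) = ∑ i ∈ range k, ((i : ℝ) + 1)⁻¹ := by
          simp [harmonic]
        rw [h2] at h1
        have h3 : ∑ i ∈ range k, 1 / (3 * ((i : ℝ) + 1)) =
            (∑ i ∈ range k, ((i : ℝ) + 1)⁻¹) / 3 := by
          rw [sum_div]
          refine sum_congr rfl fun i _ => ?_
          field_simp
        rw [h3]
        linarith

theorem prod_primes_le (S : Finset ℕ) (hS : ∀ p ∈ S, 5 ≤ p ∧ p % 2 = 1 ∧ p % 3 ≠ 0) :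
    ∏ p ∈ S, (1 - (p : ℝ)⁻¹)⁻¹ ≤ Real.exp ((1 + Real.log #S) / 3) := by
  have hinj : Set.InjOn (fun p : ℕ => (p - 1) / 3) (S : Set ℕ) := by
    intro p hp q hq hpq
    have h1 := hS p hp
    have h2 := hS q hq
    simp only at hpq
    have h3 : p % 6 = 1 ∨ p % 6 = 5 := by omega
    have h4 : q % 6 = 1 ∨ q % 6 = 5 := by omega
    rcases h3 with h3 | h3 <;> rcases h4 with h4 | h4 <;> omega
  calc ∏ p ∈ S, (1 - (p : ℝ)⁻¹)⁻¹ ≤ ∏ p ∈ S, (1 + 1 / (3 * (((p - 1) / 3 : ℕ) : ℝ))) := by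
        refine prod_le_prod (fun p hp => ?_) fun p hp => ?_
        · have h5 : (5 : ℝ) ≤ p := by exact_mod_cast (hS p hp).1
          have : (p : ℝ)⁻¹ ≤ 1 := inv_le_one_of_one_le₀ (by linarith)
          exact inv_nonneg.2 (by linarith)
        · have h5 : (5 : ℝ) ≤ p := by exact_mod_cast (hS p hp).1
          have e1 : (1 - (p : ℝ)⁻¹)⁻¹ = 1 + 1 / ((p : ℝ) - 1) := by
            have : (p : ℝ) ≠ 0 := by linarith
            have h1 : (p : ℝ) - 1 ≠ 0 := by linarith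
            field_simp
            ring
          have e2 : (1 : ℝ) ≤ (((p - 1) / 3 : ℕ) : ℝ) := by
            have h1 : 1 ≤ (p - 1) / 3 := by have := (hS p hp).1; omega
            exact_mod_cast h1
          have e3 : 3 * (((p - 1) / 3 : ℕ) : ℝ) ≤ (p : ℝ) - 1 := by
            have h1 : 3 * ((p - 1) / 3) + 1 ≤ p := by have := (hS p hp).1; omega
            have h2 : (3 * (((p - 1) / 3 : ℕ) : ℝ) + 1) ≤ p := by exact_mod_cast h1
            linarith
          rw [e1]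
          gcongr
    _ = ∏ j ∈ S.image (fun p : ℕ => (p - 1) / 3), (1 + 1 / (3 * (j : ℝ))) :=
        (prod_image (f := fun j : ℕ => (1 + 1 / (3 * (j : ℝ)))) hinj).symm
    _ ≤ ∏ i ∈ range #(S.image (fun p : ℕ => (p - 1) / 3)), (1 + 1 / (3 * ((i : ℝ) + 1))) := by
        refine prod_le_range _ fun j hj => ?_
        obtain ⟨p, hp, rfl⟩ := mem_image.1 hj
        have := (hS p hp).1
        omega
    _ ≤ _ := by
        rw [card_image_of_injOn hinj]
        exact prod_range_le _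

theorem two_pow_card_le {M : ℕ} (hM : M ≠ 0) : 2 ^ #M.primeFactors ≤ M := by
  calc 2 ^ #M.primeFactors = ∏ _p ∈ M.primeFactors, 2 := by rw [prod_const]
    _ ≤ ∏ p ∈ M.primeFactors, p :=
        prod_le_prod' fun p hp => (Nat.prime_of_mem_primeFactors hp).two_le
    _ ≤ M := Nat.le_of_dvd (Nat.pos_of_ne_zero hM) (Nat.prod_primeFactors_dvd M)

theorem D_odd (x : ℕ) : ¬ 2 ∣ D x := by
  rw [D, Nat.prime_two.prime.dvd_finsetProd_iff]
  rintro ⟨m, hm, h⟩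
  obtain ⟨k, hk⟩ : ∃ k, m = k + 1 := ⟨m - 1, by have := (mem_Icc.1 hm).1; omega⟩
  have := one_lt_two_pow' (mem_Icc.1 hm).1
  rw [hk, pow_succ] at h this
  omega

theorem s_D_le {x : ℕ} (hx : 1 ≤ x) :
    s (D x) ≤ 3 / 2 * Real.exp (1 / 3) * (x : ℝ) ^ (2 / 3 : ℝ) := by
  set T := (D x).primeFactors with hT
  have hx0 : (0 : ℝ) < x := by exact_mod_cast hx
  have hT1 : ∀ p ∈ T, p.Prime ∧ 3 ≤ p ∧ p % 2 = 1 := by
    intro p hp
    have hpp := Nat.prime_of_mem_primeFactors hp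
    rcases hpp.eq_two_or_odd with h | h
    · exact absurd (h ▸ Nat.dvd_of_mem_primeFactors hp) (D_odd x)
    · have := hpp.two_le
      exact ⟨hpp, by omega, h⟩
  have h1 : ∏ p ∈ T, (1 - (p : ℝ)⁻¹)⁻¹ ≤ 3 / 2 * ∏ p ∈ T.erase 3, (1 - (p : ℝ)⁻¹)⁻¹ := by
    have h0 : 0 ≤ ∏ p ∈ T.erase 3, (1 - (p : ℝ)⁻¹)⁻¹ := by
      refine prod_nonneg fun p hp => inv_nonneg.2 (sub_nonneg.2 (inv_le_one_of_one_le₀ ?_))
      exact_mod_cast (hT1 p (mem_of_mem_erase hp)).1.one_le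
    by_cases h3 : 3 ∈ T
    · rw [← mul_prod_erase T _ h3]
      norm_num
    · rw [erase_eq_of_notMem h3] at h0 ⊢
      linarith
  have h2 : ∏ p ∈ T.erase 3, (1 - (p : ℝ)⁻¹)⁻¹ ≤ Real.exp ((1 + Real.log #(T.erase 3)) / 3) := by
    refine prod_primes_le _ fun p hp => ?_
    rw [mem_erase] at hp
    have h3 := hT1 p hp.2
    have h4 : p % 3 ≠ 0 := fun h =>
      hp.1 ((Nat.prime_dvd_prime_iff_eq Nat.prime_three h3.1).1 (Nat.dvd_of_mod_eq_zero h)).symm
    exact ⟨by omega, h3.2.2, h4⟩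
  have h3 : #(T.erase 3) ≤ x ^ 2 := by
    refine (card_le_card (erase_subset _ _)).trans ?_
    exact (Nat.pow_le_pow_iff_right (by norm_num)).1 ((two_pow_card_le (D_ne_zero x)).trans (D_le x))
  have h4 : Real.log (#(T.erase 3)) ≤ 2 * Real.log x := by
    have h5 : (0 : ℝ) ≤ Real.log x := Real.log_nonneg (by exact_mod_cast hx)
    rcases Nat.eq_zero_or_pos #(T.erase 3) with h | h
    · rw [h, Nat.cast_zero, Real.log_zero]; linarith
    · calc Real.log (#(T.erase 3)) ≤ Real.log ((x : ℝ) ^ 2) :=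
            Real.log_le_log (by exact_mod_cast h) (by exact_mod_cast h3)
        _ = 2 * Real.log x := by rw [Real.log_pow]; norm_num
  calc s (D x) ≤ ∏ p ∈ T, (1 - (p : ℝ)⁻¹)⁻¹ := s_le_prod (D_ne_zero x)
    _ ≤ 3 / 2 * ∏ p ∈ T.erase 3, (1 - (p : ℝ)⁻¹)⁻¹ := h1
    _ ≤ 3 / 2 * Real.exp ((1 + Real.log #(T.erase 3)) / 3) := by gcongr
    _ ≤ 3 / 2 * Real.exp ((1 + 2 * Real.log x) / 3) := by gcongr
    _ = 3 / 2 * (Real.exp (1 / 3) * Real.exp (Real.log x * (2 / 3))) := by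
        rw [← Real.exp_add]; congr 2; ring
    _ = _ := by rw [Real.rpow_def_of_pos hx0]; ring

theorem abel (L : ℕ) : ∑ j ∈ Icc 1 L, F j / j =
    (∑ i ∈ Icc 1 L, F i) / (L + 1) + ∑ j ∈ Icc 1 L, (∑ i ∈ Icc 1 j, F i) / (j * (j + 1)) := by
  induction L with
  | zero => simp
  | succ L ih =>
    rw [sum_Icc_succ_top (by omega), sum_Icc_succ_top (by omega : 1 ≤ L + 1)
      (fun j : ℕ => (∑ i ∈ Icc 1 j, F i) / ((j : ℝ) * (j + 1))), ih,
      sum_Icc_succ_top (by omega) F]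
    push_cast
    have h1 : (L : ℝ) + 1 ≠ 0 := by positivity
    have h2 : (L : ℝ) + 1 + 1 ≠ 0 := by positivity
    field_simp
    ring

end RomLem

open RomLem in
/-- (T2) **Romanov's lemma** -/
theorem romLemStmt : RomLemStmt := by
  set c : ℝ := 3 / 2 * Real.exp (1 / 3) with hc
  have hc0 : 0 < c := by positivity
  have hsum : Summable (fun n : ℕ => 1 / (n : ℝ) ^ (4 / 3 : ℝ)) :=
    Real.summable_one_div_nat_rpow.2 (by norm_num)
  set K : ℝ := ∑' n : ℕ, 1 / (n : ℝ) ^ (4 / 3 : ℝ) with hK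
  have hK0 : 0 ≤ K := tsum_nonneg fun n => by positivity
  have hE : ∀ x : ℕ, 1 ≤ x → ∑ i ∈ Icc 1 x, F i ≤ c * (x : ℝ) ^ (2 / 3 : ℝ) := fun x hx =>
    (sum_F_le x).trans (s_D_le hx)
  refine ⟨c + c * K, by positivity, fun L => ?_⟩
  rcases Nat.eq_zero_or_pos L with h0 | h0
  · simp [h0]
  have hL0 : (1 : ℝ) ≤ L := by exact_mod_cast h0
  have h1 : (∑ i ∈ Icc 1 L, F i) / ((L : ℝ) + 1) ≤ c := by
    rw [div_le_iff₀ (by positivity)]
    refine (hE L h0).trans (mul_le_mul_of_nonneg_left ?_ hc0.le)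
    calc (L : ℝ) ^ (2 / 3 : ℝ) ≤ (L : ℝ) ^ (1 : ℝ) :=
          Real.rpow_le_rpow_of_exponent_le hL0 (by norm_num)
      _ = L := Real.rpow_one _
      _ ≤ L + 1 := by linarith
  have h2 : ∑ j ∈ Icc 1 L, (∑ i ∈ Icc 1 j, F i) / ((j : ℝ) * (j + 1)) ≤ c * K := by
    calc ∑ j ∈ Icc 1 L, (∑ i ∈ Icc 1 j, F i) / ((j : ℝ) * (j + 1)) ≤
          ∑ j ∈ Icc 1 L, c * (1 / (j : ℝ) ^ (4 / 3 : ℝ)) := by
          refine sum_le_sum fun j hj => ?_
          have hj1 : 1 ≤ j := (mem_Icc.1 hj).1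
          have hj0 : (0 : ℝ) < j := by exact_mod_cast hj1
          rw [div_le_iff₀ (by positivity)]
          refine (hE j hj1).trans ?_
          have e1 : (j : ℝ) ^ (2 / 3 : ℝ) * (j : ℝ) ^ (4 / 3 : ℝ) = (j : ℝ) ^ 2 := by
            rw [← Real.rpow_add hj0, ← Real.rpow_natCast]; norm_num
          have e2 : 0 < (j : ℝ) ^ (4 / 3 : ℝ) := Real.rpow_pos_of_pos hj0 _
          calc c * (j : ℝ) ^ (2 / 3 : ℝ) = c * (1 / (j : ℝ) ^ (4 / 3 : ℝ)) *
                ((j : ℝ) ^ (2 / 3 : ℝ) * (j : ℝ) ^ (4 / 3 : ℝ)) := by field_simp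
            _ = c * (1 / (j : ℝ) ^ (4 / 3 : ℝ)) * (j : ℝ) ^ 2 := by rw [e1]
            _ ≤ _ := by
              refine mul_le_mul_of_nonneg_left ?_ (by positivity)
              nlinarith
      _ = c * ∑ j ∈ Icc 1 L, 1 / (j : ℝ) ^ (4 / 3 : ℝ) := by rw [mul_sum]
      _ ≤ c * K := by
          refine mul_le_mul_of_nonneg_left ?_ hc0.le
          exact hsum.sum_le_tsum _ fun _ _ => by positivity
  calc ∑ m ∈ Icc 1 L, s (2 ^ m - 1) ≤ L * ∑ j ∈ Icc 1 L, F j / j := sum_s_le L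
    _ ≤ L * (c + c * K) := by
        rw [abel]
        exact mul_le_mul_of_nonneg_left (add_le_add h1 h2) (by positivity)
    _ = _ := by ring

end Fermat.Agent.Cor.Gold
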