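import Fermat.Agent.Corollaries.Gold.RomDefs
import Fermat.Agent.Corollaries.Gold.GThree

/-!
# Romanov's theorem, from the bound for the prime pairs and Romanov's lemma
-/

set_option autoImplicit false

open Finset Filter Topology

namespace Fermat.Agent.Cor.Gold

namespace Rom

theorem s_nonneg (n : ℕ) : 0 ≤ s n := sum_nonneg fun _ _ => by positivity

theorem s_mul_le {a b : ℕ} (ha : a ≠ 0) (hb : b ≠ 0) : s (a * b) ≤ s a * s b := by
  unfold s
  rw [sum_mul_sum, ← sum_product']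
  refine sum_le_of_inj (fun e => (e.gcd a, e / e.gcd a)) (fun e he => ?_) (fun e he f hf hef => ?_)
    (fun x _ => by positivity) fun e he => ?_
  · have he' := Nat.dvd_of_mem_divisors he
    have he0 : 0 < e := Nat.pos_of_mem_divisors he
    refine mem_product.mpr ⟨Nat.mem_divisors.mpr ⟨Nat.gcd_dvd_right e a, ha⟩,
      Nat.mem_divisors.mpr ⟨?_, hb⟩⟩
    have hg : 0 < e.gcd a := Nat.gcd_pos_of_pos_left _ he0
    have h1 : (e / e.gcd a).Coprime (a / e.gcd a) := Nat.coprime_div_gcd_div_gcd hg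
    refine h1.dvd_of_dvd_mul_left ?_
    rw [← Nat.mul_div_right_comm (Nat.gcd_dvd_right e a)]
    exact Nat.div_dvd_div (Nat.gcd_dvd_left e a) he'
  · simp only [Prod.mk.injEq] at hef
    exact (Nat.mul_div_cancel' (Nat.gcd_dvd_left e a)).symm.trans
      ((congrArg₂ (· * ·) hef.1 hef.2).trans (Nat.mul_div_cancel' (Nat.gcd_dvd_left f a)))
  · have h1 : (e : ℝ) = (e.gcd a : ℝ) * ((e / e.gcd a : ℕ) : ℝ) := by
      exact_mod_cast (Nat.mul_div_cancel' (Nat.gcd_dvd_left e a)).symm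
    rw [one_div_mul_one_div, ← h1]

theorem s_two_pow_le (k : ℕ) : s (2 ^ k) ≤ 2 := by
  unfold s
  rw [Nat.sum_divisors_prime_pow Nat.prime_two]
  push_cast
  have h := sum_geometric_two_le (k + 1)
  simpa using h

/-- Cauchy and Schwarz for the fibres of a map -/
theorem card_sq_le {ι κ : Type*} [DecidableEq ι] [DecidableEq κ] (S : Finset ι) (f : ι → κ) :
    #S ^ 2 ≤ #(S.image f) * #{x ∈ S ×ˢ S | f x.1 = f x.2} := by
  have h1 := card_eq_sum_card_image f S
  have h2 : #{x ∈ S ×ˢ S | f x.1 = f x.2} = ∑ b ∈ S.image f, #{a ∈ S | f a = b} ^ 2 := by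
    rw [card_eq_sum_card_fiberwise (f := fun x : ι × ι => f x.1) (t := S.image f)]
    · refine sum_congr rfl fun b _ => ?_
      rw [sq, ← card_product]
      congr 1
      ext x
      simp only [mem_filter, mem_product]
      constructor
      · rintro ⟨⟨⟨h3, h4⟩, h5⟩, h6⟩
        exact ⟨⟨h3, h6⟩, h4, h5 ▸ h6⟩
      · rintro ⟨⟨h3, h6⟩, h4, h7⟩
        exact ⟨⟨⟨h3, h4⟩, h6.trans h7.symm⟩, h6⟩
    · intro x hx
      have h3 := (mem_product.mp (mem_filter.mp (mem_coe.mp hx)).1).1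
      exact mem_coe.mpr (mem_image_of_mem f h3)
  rw [h2, h1]
  exact sq_sum_le_card_mul_sum_sq

/-- the primes `≤ M` -/
def A (M : ℕ) : Finset ℕ := (range (M + 1)).filter Nat.Prime

theorem card_A (M : ℕ) : #(A M) = Nat.primeCounting M := by
  rw [A, Nat.primeCounting, Nat.primeCounting', Nat.count_eq_card_filter_range]

theorem card_pair_le (M k l : ℕ) :
    #{q ∈ A M ×ˢ A M | q.1 + 2 ^ k = q.2 + 2 ^ l} ≤ (if k = l then #(A M) else
      #{n ∈ range (M + 1) | n.Prime ∧ (n + (2 ^ (l - k + (k - l)) - 1) * 2 ^ min k l).Prime}) := by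
  split_ifs with hkl
  · refine card_le_card_of_injOn Prod.fst (fun q hq => ?_) fun q hq q' hq' h => ?_
    · exact mem_coe.mpr (mem_product.mp (mem_filter.mp (mem_coe.mp hq)).1).1
    · have h1 := (mem_filter.mp (mem_coe.mp hq)).2
      have h2 := (mem_filter.mp (mem_coe.mp hq')).2
      rw [hkl] at h1 h2
      exact Prod.ext h (by omega)
  · rcases Nat.lt_or_gt_of_ne hkl with h | h
    · have h3 : (2 ^ (l - k + (k - l)) - 1) * 2 ^ min k l = 2 ^ l - 2 ^ k := by
        rw [min_eq_left h.le, Nat.sub_eq_zero_of_le h.le, add_zero, Nat.sub_mul, one_mul, ← pow_add,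
          Nat.sub_add_cancel h.le]
      have h4 : 2 ^ k ≤ 2 ^ l := Nat.pow_le_pow_right (by norm_num) h.le
      rw [h3]
      refine card_le_card_of_injOn Prod.snd (fun q hq => ?_) fun q hq q' hq' h5 => ?_
      · have h1 := mem_filter.mp (mem_coe.mp hq)
        have h2 := mem_product.mp h1.1
        have h6 := mem_filter.mp h2.1
        have h7 := mem_filter.mp h2.2
        have h8 : q.2 + (2 ^ l - 2 ^ k) = q.1 := by omega
        exact mem_coe.mpr (mem_filter.mpr ⟨h7.1, h7.2, by rw [h8]; exact h6.2⟩)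
      · have h1 := (mem_filter.mp (mem_coe.mp hq)).2
        have h2 := (mem_filter.mp (mem_coe.mp hq')).2
        exact Prod.ext (by omega) h5
    · have h3 : (2 ^ (l - k + (k - l)) - 1) * 2 ^ min k l = 2 ^ k - 2 ^ l := by
        rw [min_eq_right h.le, Nat.sub_eq_zero_of_le h.le, zero_add, Nat.sub_mul, one_mul,
          ← pow_add, Nat.sub_add_cancel h.le]
      have h4 : 2 ^ l ≤ 2 ^ k := Nat.pow_le_pow_right (by norm_num) h.le
      rw [h3]
      refine card_le_card_of_injOn Prod.fst (fun q hq => ?_) fun q hq q' hq' h5 => ?_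
      · have h1 := mem_filter.mp (mem_coe.mp hq)
        have h2 := mem_product.mp h1.1
        have h6 := mem_filter.mp h2.1
        have h7 := mem_filter.mp h2.2
        have h8 : q.1 + (2 ^ k - 2 ^ l) = q.2 := by omega
        exact mem_coe.mpr (mem_filter.mpr ⟨h6.1, h6.2, by rw [h8]; exact h7.2⟩)
      · have h1 := (mem_filter.mp (mem_coe.mp hq)).2
        have h2 := (mem_filter.mp (mem_coe.mp hq')).2
        exact Prod.ext h5 (by omega)

theorem sum_dist_le {F : ℕ → ℝ} (hF : ∀ m, 0 ≤ F m) {K k : ℕ} (hk : k ≤ K) :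
    ∑ l ∈ range (K + 1), F (l - k + (k - l)) ≤ 2 * ∑ m ∈ range (K + 1), F m := by
  rw [← sum_filter_add_sum_filter_not (range (K + 1)) (fun l => l < k), two_mul]
  refine add_le_add ?_ ?_
  · refine sum_le_of_inj (fun l => k - l) (fun l hl => ?_) (fun l hl l' hl' h => ?_)
      (fun m _ => hF m) fun l hl => ?_
    · exact mem_range.mpr (by omega)
    · have h1 := (mem_filter.mp (mem_coe.mp hl)).2
      have h2 := (mem_filter.mp (mem_coe.mp hl')).2
      have h3 : k - l = k - l' := h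
      omega
    · have h1 := (mem_filter.mp hl).2
      rw [Nat.sub_eq_zero_of_le h1.le, zero_add]
  · refine sum_le_of_inj (fun l => l - k) (fun l hl => ?_) (fun l hl l' hl' h => ?_)
      (fun m _ => hF m) fun l hl => ?_
    · have h1 := mem_range.mp (mem_filter.mp hl).1
      exact mem_range.mpr (by omega)
    · have h1 := (mem_filter.mp (mem_coe.mp hl)).2
      have h2 := (mem_filter.mp (mem_coe.mp hl')).2
      have h3 : l - k = l' - k := h
      omega
    · have h1 := (mem_filter.mp hl).2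
      rw [Nat.sub_eq_zero_of_le (not_lt.mp h1), add_zero]

/-- the number of solutions of `p + 2 ^ k = q + 2 ^ l` -/
theorem energy_le {C₁ C₂ : ℝ} (hC₁ : 0 < C₁)
    (h1 : ∀ h N : ℕ, h ≠ 0 → 2 ≤ N →
      (#{n ∈ range N | n.Prime ∧ (n + h).Prime} : ℝ) ≤ C₁ * s h * N / Real.log N ^ 2)
    (h2 : ∀ L : ℕ, ∑ m ∈ Icc 1 L, s (2 ^ m - 1) ≤ C₂ * L) {M : ℕ} (hM : 1 ≤ M) (K : ℕ) :
    (#{x ∈ (A M ×ˢ range (K + 1)) ×ˢ (A M ×ˢ range (K + 1)) |
      x.1.1 + 2 ^ x.1.2 = x.2.1 + 2 ^ x.2.2} : ℝ) ≤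
      (K + 1) * #(A M) + 4 * C₁ * C₂ * (K + 1) * K * ((M + 1) / Real.log (M + 1) ^ 2) := by
  have h3 : #{x ∈ (A M ×ˢ range (K + 1)) ×ˢ (A M ×ˢ range (K + 1)) |
      x.1.1 + 2 ^ x.1.2 = x.2.1 + 2 ^ x.2.2} ≤
      ∑ y ∈ range (K + 1) ×ˢ range (K + 1), #{q ∈ A M ×ˢ A M | q.1 + 2 ^ y.1 = q.2 + 2 ^ y.2} := by
    rw [← card_sigma]
    refine card_le_card_of_injOn (fun x => ⟨(x.1.2, x.2.2), (x.1.1, x.2.1)⟩) (fun x hx => ?_)
      fun x hx y hy h => ?_
    · have h4 := mem_filter.mp (mem_coe.mp hx)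
      have h5 := mem_product.mp h4.1
      have h6 := mem_product.mp h5.1
      have h7 := mem_product.mp h5.2
      exact mem_coe.mpr (mem_sigma.mpr ⟨mem_product.mpr ⟨h6.2, h7.2⟩,
        mem_filter.mpr ⟨mem_product.mpr ⟨h6.1, h7.1⟩, h4.2⟩⟩)
    · simp only [Sigma.mk.injEq, Prod.mk.injEq, heq_eq_eq] at h
      obtain ⟨⟨h4, h5⟩, h6, h7⟩ := h
      exact Prod.ext (Prod.ext h6 h4) (Prod.ext h7 h5)
  set W : ℝ := (M + 1) / Real.log (M + 1) ^ 2 with hW
  have hW0 : 0 ≤ W := by positivity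
  have h4 : ∀ k l : ℕ, (#{q ∈ A M ×ˢ A M | q.1 + 2 ^ k = q.2 + 2 ^ l} : ℝ) ≤
      (if k = l then (#(A M) : ℝ) else 0) + 2 * C₁ * W * s (2 ^ (l - k + (k - l)) - 1) := by
    intro k l
    have h5 := card_pair_le M k l
    split_ifs at h5 ⊢ with hkl
    · have h6 : (#{q ∈ A M ×ˢ A M | q.1 + 2 ^ k = q.2 + 2 ^ l} : ℝ) ≤ #(A M) := by
        exact_mod_cast h5
      have h7 : 0 ≤ 2 * C₁ * W * s (2 ^ (l - k + (k - l)) - 1) :=
        mul_nonneg (by positivity) (s_nonneg _)
      linarith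
    · have h6 : (#{q ∈ A M ×ˢ A M | q.1 + 2 ^ k = q.2 + 2 ^ l} : ℝ) ≤ #{n ∈ range (M + 1) |
          n.Prime ∧ (n + (2 ^ (l - k + (k - l)) - 1) * 2 ^ min k l).Prime} := by
        exact_mod_cast h5
      have h8 : 2 ^ (l - k + (k - l)) - 1 ≠ 0 := by
        have h9 : 1 < 2 ^ (l - k + (k - l)) := Nat.one_lt_two_pow (by omega)
        omega
      have h9 := h1 ((2 ^ (l - k + (k - l)) - 1) * 2 ^ min k l) (M + 1)
        (mul_ne_zero h8 (by positivity)) (by omega)
      have h10 : s ((2 ^ (l - k + (k - l)) - 1) * 2 ^ min k l) ≤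
          s (2 ^ (l - k + (k - l)) - 1) * 2 :=
        (s_mul_le h8 (by positivity)).trans
          (mul_le_mul_of_nonneg_left (s_two_pow_le _) (s_nonneg _))
      rw [zero_add]
      refine h6.trans (h9.trans ?_)
      push_cast
      calc C₁ * s ((2 ^ (l - k + (k - l)) - 1) * 2 ^ min k l) * (M + 1) / Real.log (M + 1) ^ 2
          = C₁ * s ((2 ^ (l - k + (k - l)) - 1) * 2 ^ min k l) * W := by rw [hW]; ring
        _ ≤ C₁ * (s (2 ^ (l - k + (k - l)) - 1) * 2) * W := by gcongr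
        _ = _ := by ring
  have h5 : ∑ m ∈ range (K + 1), s (2 ^ m - 1) ≤ C₂ * K := by
    refine le_trans (le_of_eq ?_) (h2 K)
    rw [range_eq_Ico, sum_eq_sum_Ico_succ_bot (by omega : 0 < K + 1)]
    have h6 : s (2 ^ 0 - 1) = 0 := by simp [s]
    rw [h6, zero_add]
    rfl
  calc (#{x ∈ (A M ×ˢ range (K + 1)) ×ˢ (A M ×ˢ range (K + 1)) |
      x.1.1 + 2 ^ x.1.2 = x.2.1 + 2 ^ x.2.2} : ℝ)
      ≤ ∑ y ∈ range (K + 1) ×ˢ range (K + 1),
          (#{q ∈ A M ×ˢ A M | q.1 + 2 ^ y.1 = q.2 + 2 ^ y.2} : ℝ) := by exact_mod_cast h3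
    _ ≤ ∑ y ∈ range (K + 1) ×ˢ range (K + 1), ((if y.1 = y.2 then (#(A M) : ℝ) else 0) +
          2 * C₁ * W * s (2 ^ (y.2 - y.1 + (y.1 - y.2)) - 1)) := sum_le_sum fun y _ => h4 _ _
    _ = (K + 1) * #(A M) + 2 * C₁ * W * ∑ k ∈ range (K + 1), ∑ l ∈ range (K + 1),
          s (2 ^ (l - k + (k - l)) - 1) := by
        rw [sum_add_distrib, ← mul_sum]
        congr 1
        · rw [sum_product]
          simp_rw [sum_ite_eq]
          rw [sum_congr rfl fun k hk => if_pos hk, sum_const, card_range, nsmul_eq_mul]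
          push_cast
          rfl
        · rw [sum_product]
    _ ≤ (K + 1) * #(A M) + 2 * C₁ * W * ∑ k ∈ range (K + 1), 2 * (C₂ * K) := by
        refine add_le_add le_rfl (mul_le_mul_of_nonneg_left ?_ (by positivity))
        refine sum_le_sum fun k hk => ?_
        refine (sum_dist_le (F := fun m => s (2 ^ m - 1)) (fun m => s_nonneg _)
          (Nat.lt_succ_iff.mp (mem_range.mp hk))).trans ?_
        exact mul_le_mul_of_nonneg_left h5 (by norm_num)
    _ = _ := by
        rw [sum_const, card_range, nsmul_eq_mul]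
        push_cast
        ring

end Rom

open Rom

/-- (T3) -/
theorem romStmt (h1 : PairStmt) (h2 : RomLemStmt) : RomStmt := by
  obtain ⟨C₁, hC₁, h1⟩ := h1
  obtain ⟨C₂, hC₂, h2⟩ := h2
  have hlog2 : 0 < Real.log 2 := Real.log_pos (by norm_num)
  set C₃ : ℝ := 4 / Real.log 2 + 32 * C₁ * C₂ / Real.log 2 ^ 2 with hC₃
  have hC₃0 : 0 < C₃ := by positivity
  refine ⟨1 / (16 * C₃) / 3, by positivity, ?_⟩
  -- estimates for large `M`
  have hlow : ∀ᶠ M : ℕ in atTop, Real.log 2 / 2 * (M / Real.log M) ≤ (Nat.primeCounting M : ℝ) := by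
    have h3 : Tendsto (fun N : ℕ => (N : ℝ) + 1) atTop atTop :=
      tendsto_atTop_add_const_right _ 1 tendsto_natCast_atTop_atTop
    have h4 := h3.eventually (Real.isLittleO_log_id_atTop.bound
      (show 0 < Real.log 2 / 4 by positivity))
    filter_upwards [h4, eventually_ge_atTop 3] with M hM hM3
    have hM1 : (3 : ℝ) ≤ M := by exact_mod_cast hM3
    have h6 : 0 < Real.log M := Real.log_pos (by linarith)
    rw [id_eq, Real.norm_of_nonneg (Real.log_nonneg (by linarith)),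
      Real.norm_of_nonneg (by linarith : (0 : ℝ) ≤ (M : ℝ) + 1)] at hM
    refine le_trans ?_ (Chebyshev.pi_ge M)
    rw [← mul_div_assoc]
    refine div_le_div_of_nonneg_right ?_ h6.le
    nlinarith
  have hup : ∀ᶠ M : ℕ in atTop, (Nat.primeCounting M : ℝ) ≤ 2 * (M / Real.log M) := by
    have h3 := (tendsto_natCast_atTop_atTop (R := ℝ)).eventually
      (Chebyshev.eventually_primeCounting_le (ε := 1 / 2) (by norm_num))
    filter_upwards [h3, eventually_ge_atTop 3] with M hM hM3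
    have hM1 : (3 : ℝ) ≤ M := by exact_mod_cast hM3
    have h6 : 0 < Real.log M := Real.log_pos (by linarith)
    rw [Nat.floor_natCast] at hM
    refine hM.trans ?_
    rw [← mul_div_assoc]
    refine div_le_div_of_nonneg_right ?_ h6.le
    refine mul_le_mul_of_nonneg_right ?_ (by linarith)
    have h7 : Real.log 4 = 2 * Real.log 2 := by
      rw [show (4 : ℝ) = 2 ^ 2 by norm_num, Real.log_pow]
      norm_num
    rw [h7]
    linarith [Real.log_two_lt_d9]
  have hMN : Tendsto (fun N : ℕ => N / 2) atTop atTop := Nat.tendsto_div_const_atTop (by norm_num)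
  filter_upwards [hMN.eventually hlow, hMN.eventually hup, eventually_ge_atTop 16] with N hl hu hN
  set M := N / 2 with hM
  have hM8 : 8 ≤ M := by omega
  have hM0 : (8 : ℝ) ≤ M := by exact_mod_cast hM8
  set L := Real.log M with hL
  have hL1 : 1 ≤ L := by
    rw [hL, Real.le_log_iff_exp_le (by linarith)]
    linarith [Real.exp_one_lt_d9]
  set K := Nat.log 2 M with hK
  have hK1 : 2 ^ K ≤ M := Nat.pow_log_le_self 2 (by omega)
  have hK2 : M < 2 ^ (K + 1) := Nat.lt_pow_succ_log_self (by norm_num) M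
  have hK3 : 1 ≤ K := by
    by_contra h
    have : K = 0 := by omega
    rw [this] at hK2
    omega
  have hK4 : (K : ℝ) * Real.log 2 ≤ L := by
    have : ((2 : ℝ) ^ K) ≤ M := by exact_mod_cast hK1
    have h3 := Real.log_le_log (by positivity) this
    rwa [Real.log_pow] at h3
  have hK5 : L ≤ (K + 1) * Real.log 2 := by
    have : (M : ℝ) ≤ (2 : ℝ) ^ (K + 1) := by exact_mod_cast hK2.le
    have h3 := Real.log_le_log (by linarith) this
    rw [Real.log_pow] at h3
    push_cast at h3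
    exact h3
  have hK6 : ((K : ℝ) + 1) ≤ 2 * L / Real.log 2 := by
    rw [le_div_iff₀ hlog2]
    have : (1 : ℝ) ≤ K := by exact_mod_cast hK3
    nlinarith
  -- the lower bound for the number of pairs
  have hS : (M : ℝ) / 2 ≤ #(A M) * (K + 1) := by
    rw [card_A]
    calc (M : ℝ) / 2 = Real.log 2 / 2 * (M / L) * (L / Real.log 2) := by
          field_simp
      _ ≤ (Nat.primeCounting M : ℝ) * (K + 1) := by
          refine mul_le_mul hl ?_ (by positivity) (Nat.cast_nonneg _)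
          rw [div_le_iff₀ hlog2]
          exact hK5
  -- the upper bound for the energy
  have hE : (#{x ∈ (A M ×ˢ range (K + 1)) ×ˢ (A M ×ˢ range (K + 1)) |
      x.1.1 + 2 ^ x.1.2 = x.2.1 + 2 ^ x.2.2} : ℝ) ≤ C₃ * M := by
    refine (energy_le hC₁ h1 h2 (by omega) K).trans ?_
    have h3 : ((K : ℝ) + 1) * #(A M) ≤ 4 / Real.log 2 * M := by
      rw [card_A]
      calc ((K : ℝ) + 1) * Nat.primeCounting M ≤ (2 * L / Real.log 2) * (2 * (M / L)) :=
            mul_le_mul hK6 hu (Nat.cast_nonneg _) (by positivity)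
        _ = _ := by
            field_simp
            norm_num
    have h4 : ((M : ℝ) + 1) / Real.log (M + 1) ^ 2 ≤ 2 * (M / L ^ 2) := by
      rw [← mul_div_assoc]
      have h5 : L ≤ Real.log (M + 1) := Real.log_le_log (by linarith) (by linarith)
      refine div_le_div₀ (by positivity) (by linarith) (by positivity) ?_
      exact pow_le_pow_left₀ (by linarith) h5 2
    have h6 : 4 * C₁ * C₂ * (K + 1) * K * (((M : ℝ) + 1) / Real.log (M + 1) ^ 2) ≤
        32 * C₁ * C₂ / Real.log 2 ^ 2 * M := by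
      calc 4 * C₁ * C₂ * (K + 1) * K * (((M : ℝ) + 1) / Real.log (M + 1) ^ 2)
          ≤ 4 * C₁ * C₂ * (2 * L / Real.log 2) * (2 * L / Real.log 2) * (2 * (M / L ^ 2)) := by
            gcongr
            linarith
        _ = _ := by
            field_simp
            ring
    rw [hC₃]
    linarith
  -- the image
  have hcs := card_sq_le (A M ×ˢ range (K + 1)) (fun x : ℕ × ℕ => x.1 + 2 ^ x.2)
  set T := (A M ×ˢ range (K + 1)).image (fun x : ℕ × ℕ => x.1 + 2 ^ x.2) with hT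
  have hcs' : ((#(A M) : ℝ) * (K + 1)) ^ 2 ≤ #T * (C₃ * M) := by
    have h3 : ((#(A M ×ˢ range (K + 1)) ^ 2 : ℕ) : ℝ) ≤
        ((#T * #{x ∈ (A M ×ˢ range (K + 1)) ×ˢ (A M ×ˢ range (K + 1)) |
          x.1.1 + 2 ^ x.1.2 = x.2.1 + 2 ^ x.2.2} : ℕ) : ℝ) := Nat.cast_le.mpr hcs
    rw [card_product, card_range] at h3
    push_cast at h3
    refine h3.trans (mul_le_mul_of_nonneg_left hE (Nat.cast_nonneg _))
  have hT1 : 1 / (16 * C₃) / 3 * N ≤ (#T : ℝ) := by
    have h3 : (M : ℝ) ^ 2 / 4 ≤ #T * (C₃ * M) := by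
      calc (M : ℝ) ^ 2 / 4 = (M / 2) ^ 2 := by ring
        _ ≤ _ := pow_le_pow_left₀ (by positivity) hS 2
        _ ≤ _ := hcs'
    have h4 : (M : ℝ) / 4 ≤ #T * C₃ := by
      have h5 : (M : ℝ) / 4 * M ≤ #T * C₃ * M := by linarith
      exact le_of_mul_le_mul_right h5 (by linarith)
    have h6 : (N : ℝ) ≤ 3 * M := by exact_mod_cast (by omega : N ≤ 3 * M)
    rw [div_div, one_div, inv_mul_le_iff₀ (by positivity)]
    nlinarith
  have hT2 : (T : Set ℕ) ⊆ {n : ℕ | n ≤ N ∧ ∃ p k : ℕ, p.Prime ∧ n = p + 2 ^ k} := by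
    intro n hn
    obtain ⟨x, hx, rfl⟩ := mem_image.mp (mem_coe.mp hn)
    have h3 := mem_product.mp hx
    have h4 := mem_filter.mp h3.1
    have h5 := mem_range.mp h4.1
    have h6 := mem_range.mp h3.2
    have h7 : 2 ^ x.2 ≤ 2 ^ K := Nat.pow_le_pow_right (by norm_num) (by omega)
    exact ⟨by show x.1 + 2 ^ x.2 ≤ N; omega, x.1, x.2, h4.2, rfl⟩
  have hfin : {n : ℕ | n ≤ N ∧ ∃ p k : ℕ, p.Prime ∧ n = p + 2 ^ k}.Finite :=
    (Set.finite_Iic N).subset fun n hn => hn.1
  have hT3 : #T ≤ Nat.card {n : ℕ | n ≤ N ∧ ∃ p k : ℕ, p.Prime ∧ n = p + 2 ^ k} := by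
    rw [Nat.card_coe_set_eq, ← Set.ncard_coe_finset]
    exact Set.ncard_le_ncard hT2 hfin
  exact hT1.trans (by exact_mod_cast hT3)

end Fermat.Agent.Cor.Gold
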