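import Fermat.Agent.Corollaries.Gold.Pair
import Fermat.Agent.Corollaries.Gold.RomLem
import Fermat.Agent.Corollaries.Gold.Romanov

/-!
# Prime pairs and Romanov's theorem

* `prime_pairs_le`: `#{n < N | n, n + h prime} ≤ C (σ(h) / h) N / (log N)²`, uniformly in `h`
  (Schnirelmann, Selberg);
* `romanov`: the integers of the form `p + 2 ^ k` have positive lower density (N. P. Romanov 1934).
-/

set_option autoImplicit false

open Finset Filter

namespace Fermat.Agent.Cor.Gold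

/-- **The number of prime pairs**, with the right order of magnitude, uniformly in the
difference. -/
theorem prime_pairs_le : ∃ C : ℝ, 0 < C ∧ ∀ h N : ℕ, h ≠ 0 → 2 ≤ N →
    (#{n ∈ range N | n.Prime ∧ (n + h).Prime} : ℝ) ≤
      C * (∑ e ∈ h.divisors, 1 / (e : ℝ)) * N / Real.log N ^ 2 :=
  pairStmt

/-- **Twin primes**: `#{n < N | n, n + 2 prime} ≤ C N / (log N)²`. -/
theorem twin_le : ∃ C : ℝ, 0 < C ∧ ∀ N : ℕ, 2 ≤ N →
    (#{n ∈ range N | n.Prime ∧ (n + 2).Prime} : ℝ) ≤ C * N / Real.log N ^ 2 := by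
  obtain ⟨C, hC, h⟩ := prime_pairs_le
  have h2 : 0 < ∑ e ∈ Nat.divisors 2, 1 / (e : ℝ) := by
    rw [Nat.Prime.divisors Nat.prime_two]
    norm_num
  refine ⟨C * ∑ e ∈ Nat.divisors 2, 1 / (e : ℝ), mul_pos hC h2, fun N hN => ?_⟩
  exact h 2 N two_ne_zero hN

/-- **Romanov's lemma**: `∑_{m ≤ L} ∑_{e ∣ 2 ^ m - 1} 1 / e ≤ C L`. -/
theorem romanov_lemma : ∃ C : ℝ, 0 < C ∧ ∀ L : ℕ,
    ∑ m ∈ Icc 1 L, ∑ e ∈ Nat.divisors (2 ^ m - 1), 1 / ((e : ℕ) : ℝ) ≤ C * L :=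
  romLemStmt

/-- **Romanov's theorem** (1934): the integers of the form `p + 2 ^ k` have positive lower
density. -/
theorem romanov : ∃ c : ℝ, 0 < c ∧ ∀ᶠ N : ℕ in atTop,
    c * N ≤ (Nat.card {n : ℕ | n ≤ N ∧ ∃ p k : ℕ, p.Prime ∧ n = p + 2 ^ k} : ℝ) :=
  romStmt pairStmt romLemStmt

end Fermat.Agent.Cor.Gold
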