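import Fermat.Agent.Corollaries.Gold.Romanov
import Fermat.Agent.Corollaries.Gold.BT

/-!
# Romanov's theorem for every base

The integers `p + a ^ k` have positive lower density, for every `a ≥ 2`; here from Romanov's lemma
for the base `a`.
-/

set_option autoImplicit false

open Finset Filter Topology

namespace Fermat.Agent.Cor.Gold

namespace RomA

open Rom (A card_A s_nonneg s_mul_le card_sq_le sum_dist_le)

theorem totient_pow_succ' {a : ℕ} (ha : a ≠ 0) (j : ℕ) :
    (a ^ (j + 1)).totient = a ^ j * a.totient := by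
  induction j with
  | zero => simp
  | succ j ih =>
    have h1 := Nat.totient_gcd_mul_totient_mul a (a ^ (j + 1))
    have h2 : a.gcd (a ^ (j + 1)) = a := Nat.gcd_eq_left (dvd_pow_self a (by omega))
    have h3 : 0 < a.totient := Nat.totient_pos.mpr (Nat.pos_of_ne_zero ha)
    rw [h2, ih, ← pow_succ'] at h1
    refine Nat.eq_of_mul_eq_mul_left h3 ?_
    rw [h1]
    ring

theorem s_pow_le {a : ℕ} (ha : a ≠ 0) (k : ℕ) : s (a ^ k) ≤ a / a.totient := by
  have hφ : (0 : ℝ) < a.totient := by exact_mod_cast Nat.totient_pos.mpr (Nat.pos_of_ne_zero ha)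
  have ha' : (0 : ℝ) < a := by exact_mod_cast Nat.pos_of_ne_zero ha
  rcases Nat.eq_zero_or_pos k with rfl | hk
  · have h1 : s (a ^ 0) = 1 := by simp [s]
    rw [h1, one_le_div hφ]
    exact_mod_cast Nat.totient_le a
  · have h1 := s_mul_totient_le (a ^ k) (pow_ne_zero k ha)
    obtain ⟨j, rfl⟩ : ∃ j, k = j + 1 := ⟨k - 1, by omega⟩
    have h2 := totient_pow_succ' ha j
    rw [h2] at h1
    push_cast at h1
    rw [le_div_iff₀ hφ]
    have h3 : (0 : ℝ) < (a : ℝ) ^ j := by positivity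
    have h4 : (a : ℝ) ^ j * (s (a ^ (j + 1)) * a.totient) ≤ (a : ℝ) ^ j * a := by
      calc (a : ℝ) ^ j * (s (a ^ (j + 1)) * a.totient)
          = s (a ^ (j + 1)) * ((a : ℝ) ^ j * a.totient) := by ring
        _ ≤ (a : ℝ) ^ (j + 1) := h1
        _ = _ := by ring
    exact le_of_mul_le_mul_left h4 h3

theorem card_pair_le {a : ℕ} (ha : 2 ≤ a) (M k l : ℕ) :
    #{q ∈ A M ×ˢ A M | q.1 + a ^ k = q.2 + a ^ l} ≤ (if k = l then #(A M) else
      #{n ∈ range (M + 1) | n.Prime ∧ (n + (a ^ (l - k + (k - l)) - 1) * a ^ min k l).Prime}) := by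
  split_ifs with hkl
  · refine card_le_card_of_injOn Prod.fst (fun q hq => ?_) fun q hq q' hq' h => ?_
    · exact mem_coe.mpr (mem_product.mp (mem_filter.mp (mem_coe.mp hq)).1).1
    · have h1 := (mem_filter.mp (mem_coe.mp hq)).2
      have h2 := (mem_filter.mp (mem_coe.mp hq')).2
      rw [hkl] at h1 h2
      exact Prod.ext h (by omega)
  · rcases Nat.lt_or_gt_of_ne hkl with h | h
    · have h3 : (a ^ (l - k + (k - l)) - 1) * a ^ min k l = a ^ l - a ^ k := by
        rw [min_eq_left h.le, Nat.sub_eq_zero_of_le h.le, add_zero, Nat.sub_mul, one_mul, ← pow_add,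
          Nat.sub_add_cancel h.le]
      have h4 : a ^ k ≤ a ^ l := Nat.pow_le_pow_right (by omega) h.le
      rw [h3]
      refine card_le_card_of_injOn Prod.snd (fun q hq => ?_) fun q hq q' hq' h5 => ?_
      · have h1 := mem_filter.mp (mem_coe.mp hq)
        have h2 := mem_product.mp h1.1
        have h6 := mem_filter.mp h2.1
        have h7 := mem_filter.mp h2.2
        have h8 : q.2 + (a ^ l - a ^ k) = q.1 := by omega
        exact mem_coe.mpr (mem_filter.mpr ⟨h7.1, h7.2, by rw [h8]; exact h6.2⟩)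
      · have h1 := (mem_filter.mp (mem_coe.mp hq)).2
        have h2 := (mem_filter.mp (mem_coe.mp hq')).2
        exact Prod.ext (by omega) h5
    · have h3 : (a ^ (l - k + (k - l)) - 1) * a ^ min k l = a ^ k - a ^ l := by
        rw [min_eq_right h.le, Nat.sub_eq_zero_of_le h.le, zero_add, Nat.sub_mul, one_mul,
          ← pow_add, Nat.sub_add_cancel h.le]
      have h4 : a ^ l ≤ a ^ k := Nat.pow_le_pow_right (by omega) h.le
      rw [h3]
      refine card_le_card_of_injOn Prod.fst (fun q hq => ?_) fun q hq q' hq' h5 => ?_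
      · have h1 := mem_filter.mp (mem_coe.mp hq)
        have h2 := mem_product.mp h1.1
        have h6 := mem_filter.mp h2.1
        have h7 := mem_filter.mp h2.2
        have h8 : q.1 + (a ^ k - a ^ l) = q.2 := by omega
        exact mem_coe.mpr (mem_filter.mpr ⟨h6.1, h6.2, by rw [h8]; exact h7.2⟩)
      · have h1 := (mem_filter.mp (mem_coe.mp hq)).2
        have h2 := (mem_filter.mp (mem_coe.mp hq')).2
        exact Prod.ext h5 (by omega)

/-- the number of solutions of `p + a ^ k = q + a ^ l` -/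
theorem energy_le {a : ℕ} (ha : 2 ≤ a) {C₁ C₂ : ℝ} (hC₁ : 0 < C₁)
    (h1 : ∀ h N : ℕ, h ≠ 0 → 2 ≤ N →
      (#{n ∈ range N | n.Prime ∧ (n + h).Prime} : ℝ) ≤ C₁ * s h * N / Real.log N ^ 2)
    (h2 : ∀ L : ℕ, ∑ m ∈ Icc 1 L, s (a ^ m - 1) ≤ C₂ * L) {M : ℕ} (hM : 1 ≤ M) (K : ℕ) :
    (#{x ∈ (A M ×ˢ range (K + 1)) ×ˢ (A M ×ˢ range (K + 1)) |
      x.1.1 + a ^ x.1.2 = x.2.1 + a ^ x.2.2} : ℝ) ≤
      (K + 1) * #(A M) + 2 * (a / a.totient) * C₁ * C₂ * (K + 1) * K *
        ((M + 1) / Real.log (M + 1) ^ 2) := by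
  have h3 : #{x ∈ (A M ×ˢ range (K + 1)) ×ˢ (A M ×ˢ range (K + 1)) |
      x.1.1 + a ^ x.1.2 = x.2.1 + a ^ x.2.2} ≤
      ∑ y ∈ range (K + 1) ×ˢ range (K + 1), #{q ∈ A M ×ˢ A M | q.1 + a ^ y.1 = q.2 + a ^ y.2} := by
    rw [← card_sigma]
    refine card_le_card_of_injOn (fun x => ⟨(x.1.2, x.2.2), (x.1.1, x.2.1)⟩) (fun x hx => ?_)
      fun x hx y hy h => ?_
    · have h4 := mem_filter.mp (mem_coe.mp hx)
      have h5 := mem_product.mp h4.1
      have h6 := mem_product.mp h5.1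
      have h7 := mem_product.mp h5.2
      exact mem_coe.mpr (mem_sigma.mpr ⟨mem_product.mpr ⟨h6.2, h7.2⟩,
        mem_filter.mpr ⟨mem_product.mpr ⟨h6.1, h7.1⟩, h4.2⟩⟩)
    · simp only [Sigma.mk.injEq, Prod.mk.injEq, heq_eq_eq] at h
      obtain ⟨⟨h4, h5⟩, h6, h7⟩ := h
      exact Prod.ext (Prod.ext h6 h4) (Prod.ext h7 h5)
  set W : ℝ := (M + 1) / Real.log (M + 1) ^ 2 with hW
  have hW0 : 0 ≤ W := by positivity
  set U : ℝ := a / a.totient with hU
  have hU0 : 0 ≤ U := by positivity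
  have h4 : ∀ k l : ℕ, (#{q ∈ A M ×ˢ A M | q.1 + a ^ k = q.2 + a ^ l} : ℝ) ≤
      (if k = l then (#(A M) : ℝ) else 0) + U * C₁ * W * s (a ^ (l - k + (k - l)) - 1) := by
    intro k l
    have h5 := card_pair_le ha M k l
    split_ifs at h5 ⊢ with hkl
    · have h6 : (#{q ∈ A M ×ˢ A M | q.1 + a ^ k = q.2 + a ^ l} : ℝ) ≤ #(A M) := by
        exact_mod_cast h5
      have h7 : 0 ≤ U * C₁ * W * s (a ^ (l - k + (k - l)) - 1) :=
        mul_nonneg (by positivity) (s_nonneg _)
      linarith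
    · have h6 : (#{q ∈ A M ×ˢ A M | q.1 + a ^ k = q.2 + a ^ l} : ℝ) ≤ #{n ∈ range (M + 1) |
          n.Prime ∧ (n + (a ^ (l - k + (k - l)) - 1) * a ^ min k l).Prime} := by
        exact_mod_cast h5
      have h8 : a ^ (l - k + (k - l)) - 1 ≠ 0 := by
        have h9 : 1 < a ^ (l - k + (k - l)) := Nat.one_lt_pow (by omega) (by omega)
        omega
      have h9 := h1 ((a ^ (l - k + (k - l)) - 1) * a ^ min k l) (M + 1)
        (mul_ne_zero h8 (by positivity)) (by omega)
      have h10 : s ((a ^ (l - k + (k - l)) - 1) * a ^ min k l) ≤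
          s (a ^ (l - k + (k - l)) - 1) * U :=
        (s_mul_le h8 (by positivity)).trans
          (mul_le_mul_of_nonneg_left (s_pow_le (by omega) _) (s_nonneg _))
      rw [zero_add]
      refine h6.trans (h9.trans ?_)
      push_cast
      calc C₁ * s ((a ^ (l - k + (k - l)) - 1) * a ^ min k l) * (M + 1) / Real.log (M + 1) ^ 2
          = C₁ * s ((a ^ (l - k + (k - l)) - 1) * a ^ min k l) * W := by rw [hW]; ring
        _ ≤ C₁ * (s (a ^ (l - k + (k - l)) - 1) * U) * W := by gcongr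
        _ = _ := by ring
  have h5 : ∑ m ∈ range (K + 1), s (a ^ m - 1) ≤ C₂ * K := by
    refine le_trans (le_of_eq ?_) (h2 K)
    rw [range_eq_Ico, sum_eq_sum_Ico_succ_bot (by omega : 0 < K + 1)]
    have h6 : s (a ^ 0 - 1) = 0 := by simp [s]
    rw [h6, zero_add]
    rfl
  calc (#{x ∈ (A M ×ˢ range (K + 1)) ×ˢ (A M ×ˢ range (K + 1)) |
      x.1.1 + a ^ x.1.2 = x.2.1 + a ^ x.2.2} : ℝ)
      ≤ ∑ y ∈ range (K + 1) ×ˢ range (K + 1),
          (#{q ∈ A M ×ˢ A M | q.1 + a ^ y.1 = q.2 + a ^ y.2} : ℝ) := by exact_mod_cast h3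
    _ ≤ ∑ y ∈ range (K + 1) ×ˢ range (K + 1), ((if y.1 = y.2 then (#(A M) : ℝ) else 0) +
          U * C₁ * W * s (a ^ (y.2 - y.1 + (y.1 - y.2)) - 1)) := sum_le_sum fun y _ => h4 _ _
    _ = (K + 1) * #(A M) + U * C₁ * W * ∑ k ∈ range (K + 1), ∑ l ∈ range (K + 1),
          s (a ^ (l - k + (k - l)) - 1) := by
        rw [sum_add_distrib, ← mul_sum]
        congr 1
        · rw [sum_product]
          simp_rw [sum_ite_eq]
          rw [sum_congr rfl fun k hk => if_pos hk, sum_const, card_range, nsmul_eq_mul]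
          push_cast
          rfl
        · rw [sum_product]
    _ ≤ (K + 1) * #(A M) + U * C₁ * W * ∑ k ∈ range (K + 1), 2 * (C₂ * K) := by
        refine add_le_add le_rfl (mul_le_mul_of_nonneg_left ?_ (by positivity))
        refine sum_le_sum fun k hk => ?_
        refine (sum_dist_le (F := fun m => s (a ^ m - 1)) (fun m => s_nonneg _)
          (Nat.lt_succ_iff.mp (mem_range.mp hk))).trans ?_
        exact mul_le_mul_of_nonneg_left h5 (by norm_num)
    _ = _ := by
        rw [sum_const, card_range, nsmul_eq_mul]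
        push_cast
        ring

end RomA

open Rom (A card_A card_sq_le)

/-- Romanov's theorem for the base `a`, from Romanov's lemma for the base `a` -/
theorem romA_of {a : ℕ} (ha : 2 ≤ a)
    (h2 : ∃ C : ℝ, 0 < C ∧ ∀ L : ℕ, ∑ m ∈ Icc 1 L, s (a ^ m - 1) ≤ C * L) :
    ∃ c : ℝ, 0 < c ∧ ∀ᶠ N : ℕ in atTop,
      c * N ≤ (Nat.card {n : ℕ | n ≤ N ∧ ∃ p k : ℕ, p.Prime ∧ n = p + a ^ k} : ℝ) := by
  obtain ⟨C₁, hC₁, h1⟩ := pairStmt
  obtain ⟨C₂, hC₂, h2⟩ := h2
  have ha2 : (2 : ℝ) ≤ a := by exact_mod_cast ha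
  have hφ : (0 : ℝ) < a.totient := by exact_mod_cast Nat.totient_pos.mpr (by omega : 0 < a)
  set U : ℝ := a / a.totient with hU
  have hU0 : 0 < U := by positivity
  have hlog2' : 0 < Real.log 2 := Real.log_pos (by norm_num)
  have hlog2 : 0 < Real.log a := Real.log_pos (by linarith)
  set C₃ : ℝ := 4 / Real.log a + 16 * U * C₁ * C₂ / Real.log a ^ 2 with hC₃
  have hC₃0 : 0 < C₃ := by positivity
  set κ : ℝ := Real.log 2 / (2 * Real.log a) with hκ
  have hκ0 : 0 < κ := by positivity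
  refine ⟨κ ^ 2 / (4 * C₃) / 3, by positivity, ?_⟩
  -- estimates for large `M`
  have hlow : ∀ᶠ M : ℕ in atTop, Real.log 2 / 2 * (M / Real.log M) ≤ (Nat.primeCounting M : ℝ) := by
    have h3 : Tendsto (fun N : ℕ => (N : ℝ) + 1) atTop atTop :=
      tendsto_atTop_add_const_right _ 1 tendsto_natCast_atTop_atTop
    have h4 := h3.eventually (Real.isLittleO_log_id_atTop.bound
      (show 0 < Real.log 2 / 4 by positivity))
    filter_upwards [h4, eventually_ge_atTop 3] with M hM hM3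
    have hM1 : (3 : ℝ) ≤ M := by exact_mod_cast hM3
    have h6 : 0 < Real.log M := Real.log_pos (by linarith)
    rw [id_eq, Real.norm_of_nonneg (Real.log_nonneg (by linarith)),
      Real.norm_of_nonneg (by linarith : (0 : ℝ) ≤ (M : ℝ) + 1)] at hM
    refine le_trans ?_ (Chebyshev.pi_ge M)
    rw [← mul_div_assoc]
    refine div_le_div_of_nonneg_right ?_ h6.le
    nlinarith
  have hup : ∀ᶠ M : ℕ in atTop, (Nat.primeCounting M : ℝ) ≤ 2 * (M / Real.log M) := by
    have h3 := (tendsto_natCast_atTop_atTop (R := ℝ)).eventually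
      (Chebyshev.eventually_primeCounting_le (ε := 1 / 2) (by norm_num))
    filter_upwards [h3, eventually_ge_atTop 3] with M hM hM3
    have hM1 : (3 : ℝ) ≤ M := by exact_mod_cast hM3
    have h6 : 0 < Real.log M := Real.log_pos (by linarith)
    rw [Nat.floor_natCast] at hM
    refine hM.trans ?_
    rw [← mul_div_assoc]
    refine div_le_div_of_nonneg_right ?_ h6.le
    refine mul_le_mul_of_nonneg_right ?_ (by linarith)
    have h7 : Real.log 4 = 2 * Real.log 2 := by
      rw [show (4 : ℝ) = 2 ^ 2 by norm_num, Real.log_pow]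
      norm_num
    rw [h7]
    linarith [Real.log_two_lt_d9]
  have hMN : Tendsto (fun N : ℕ => N / 2) atTop atTop := Nat.tendsto_div_const_atTop (by norm_num)
  filter_upwards [hMN.eventually hlow, hMN.eventually hup, eventually_ge_atTop (2 * a + 16)] with N hl hu hN
  set M := N / 2 with hM
  have hM8 : 8 ≤ M := by omega
  have hM0 : (8 : ℝ) ≤ M := by exact_mod_cast hM8
  set L := Real.log M with hL
  have hL1 : 1 ≤ L := by
    rw [hL, Real.le_log_iff_exp_le (by linarith)]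
    linarith [Real.exp_one_lt_d9]
  set K := Nat.log a M with hK
  have hK1 : a ^ K ≤ M := Nat.pow_log_le_self a (by omega)
  have hK2 : M < a ^ (K + 1) := Nat.lt_pow_succ_log_self (by omega) M
  have hK3 : 1 ≤ K := Nat.log_pos (by omega) (by omega)
  have hK4 : (K : ℝ) * Real.log a ≤ L := by
    have : ((a : ℝ) ^ K) ≤ M := by exact_mod_cast hK1
    have h3 := Real.log_le_log (by positivity) this
    rwa [Real.log_pow] at h3
  have hK5 : L ≤ (K + 1) * Real.log a := by
    have : (M : ℝ) ≤ (a : ℝ) ^ (K + 1) := by exact_mod_cast hK2.le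
    have h3 := Real.log_le_log (by linarith) this
    rw [Real.log_pow] at h3
    push_cast at h3
    exact h3
  have hK6 : ((K : ℝ) + 1) ≤ 2 * L / Real.log a := by
    rw [le_div_iff₀ hlog2]
    have : (1 : ℝ) ≤ K := by exact_mod_cast hK3
    nlinarith
  -- the lower bound for the number of pairs
  have hS : κ * M ≤ #(A M) * (K + 1) := by
    rw [card_A]
    calc κ * M = Real.log 2 / 2 * (M / L) * (L / Real.log a) := by
          rw [hκ]
          field_simp
      _ ≤ (Nat.primeCounting M : ℝ) * (K + 1) := by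
          refine mul_le_mul hl ?_ (by positivity) (Nat.cast_nonneg _)
          rw [div_le_iff₀ hlog2]
          exact hK5
  -- the upper bound for the energy
  have hE : (#{x ∈ (A M ×ˢ range (K + 1)) ×ˢ (A M ×ˢ range (K + 1)) |
      x.1.1 + a ^ x.1.2 = x.2.1 + a ^ x.2.2} : ℝ) ≤ C₃ * M := by
    refine (RomA.energy_le ha hC₁ h1 h2 (by omega) K).trans ?_
    have h3 : ((K : ℝ) + 1) * #(A M) ≤ 4 / Real.log a * M := by
      rw [card_A]
      calc ((K : ℝ) + 1) * Nat.primeCounting M ≤ (2 * L / Real.log a) * (2 * (M / L)) :=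
            mul_le_mul hK6 hu (Nat.cast_nonneg _) (by positivity)
        _ = _ := by
            field_simp
            norm_num
    have h4 : ((M : ℝ) + 1) / Real.log (M + 1) ^ 2 ≤ 2 * (M / L ^ 2) := by
      rw [← mul_div_assoc]
      have h5 : L ≤ Real.log (M + 1) := Real.log_le_log (by linarith) (by linarith)
      refine div_le_div₀ (by positivity) (by linarith) (by positivity) ?_
      exact pow_le_pow_left₀ (by linarith) h5 2
    have h6 : 2 * U * C₁ * C₂ * (K + 1) * K * (((M : ℝ) + 1) / Real.log (M + 1) ^ 2) ≤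
        16 * U * C₁ * C₂ / Real.log a ^ 2 * M := by
      calc 2 * U * C₁ * C₂ * (K + 1) * K * (((M : ℝ) + 1) / Real.log (M + 1) ^ 2)
          ≤ 2 * U * C₁ * C₂ * (2 * L / Real.log a) * (2 * L / Real.log a) * (2 * (M / L ^ 2)) := by
            gcongr
            linarith
        _ = _ := by
            field_simp
            ring
    rw [hC₃]
    linarith
  -- the image
  have hcs := card_sq_le (A M ×ˢ range (K + 1)) (fun x : ℕ × ℕ => x.1 + a ^ x.2)
  set T := (A M ×ˢ range (K + 1)).image (fun x : ℕ × ℕ => x.1 + a ^ x.2) with hT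
  have hcs' : ((#(A M) : ℝ) * (K + 1)) ^ 2 ≤ #T * (C₃ * M) := by
    have h3 : ((#(A M ×ˢ range (K + 1)) ^ 2 : ℕ) : ℝ) ≤
        ((#T * #{x ∈ (A M ×ˢ range (K + 1)) ×ˢ (A M ×ˢ range (K + 1)) |
          x.1.1 + a ^ x.1.2 = x.2.1 + a ^ x.2.2} : ℕ) : ℝ) := Nat.cast_le.mpr hcs
    rw [card_product, card_range] at h3
    push_cast at h3
    refine h3.trans (mul_le_mul_of_nonneg_left hE (Nat.cast_nonneg _))
  have hT1 : κ ^ 2 / (4 * C₃) / 3 * N ≤ (#T : ℝ) := by
    have h3 : (κ * M) ^ 2 ≤ #T * (C₃ * M) := by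
      calc (κ * (M : ℝ)) ^ 2 ≤ _ := pow_le_pow_left₀ (by positivity) hS 2
        _ ≤ _ := hcs'
    have h4 : κ ^ 2 * (M : ℝ) ≤ #T * C₃ := by
      have h5 : κ ^ 2 * (M : ℝ) * M ≤ #T * C₃ * M := by linarith
      exact le_of_mul_le_mul_right h5 (by linarith)
    have h6 : (N : ℝ) ≤ 3 * M := by exact_mod_cast (by omega : N ≤ 3 * M)
    have h7 : (0 : ℝ) ≤ #T * C₃ := by positivity
    rw [div_div, div_mul_eq_mul_div, div_le_iff₀ (by positivity)]
    calc κ ^ 2 * N ≤ κ ^ 2 * (3 * M) := mul_le_mul_of_nonneg_left h6 (by positivity)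
      _ = 3 * (κ ^ 2 * M) := by ring
      _ ≤ 3 * (#T * C₃) := mul_le_mul_of_nonneg_left h4 (by norm_num)
      _ ≤ _ := by linarith
  have hT2 : (T : Set ℕ) ⊆ {n : ℕ | n ≤ N ∧ ∃ p k : ℕ, p.Prime ∧ n = p + a ^ k} := by
    intro n hn
    obtain ⟨x, hx, rfl⟩ := mem_image.mp (mem_coe.mp hn)
    have h3 := mem_product.mp hx
    have h4 := mem_filter.mp h3.1
    have h5 := mem_range.mp h4.1
    have h6 := mem_range.mp h3.2
    have h7 : a ^ x.2 ≤ a ^ K := Nat.pow_le_pow_right (by omega) (by omega)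
    exact ⟨by show x.1 + a ^ x.2 ≤ N; omega, x.1, x.2, h4.2, rfl⟩
  have hfin : {n : ℕ | n ≤ N ∧ ∃ p k : ℕ, p.Prime ∧ n = p + a ^ k}.Finite :=
    (Set.finite_Iic N).subset fun n hn => hn.1
  have hT3 : #T ≤ Nat.card {n : ℕ | n ≤ N ∧ ∃ p k : ℕ, p.Prime ∧ n = p + a ^ k} := by
    rw [Nat.card_coe_set_eq, ← Set.ncard_coe_finset]
    exact Set.ncard_le_ncard hT2 hfin
  exact hT1.trans (by exact_mod_cast hT3)

end Fermat.Agent.Cor.Gold
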