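import Fermat.Agent.Corollaries.Gold.RomLem
import Fermat.Agent.Corollaries.Gold.RomanovA

/-!
# Romanov's lemma and Romanov's theorem for every base

The proof of `RomLem` (helper41) with `2` replaced by `a ≥ 2`.
-/

set_option autoImplicit false

open Finset Filter

namespace Fermat.Agent.Cor.Gold

namespace RomLemA

open RomLem (s_le_prod prod_primes_le two_pow_card_le)

variable {a : ℕ}

theorem dvd_iff (ha : 2 ≤ a) (e j : ℕ) : e ∣ a ^ j - 1 ↔ orderOf (a : ZMod e) ∣ j := by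
  rw [orderOf_dvd_iff_pow_eq_one, ← ZMod.natCast_eq_zero_iff,
    Nat.cast_sub (Nat.one_le_pow _ _ (by omega))]
  push_cast
  exact sub_eq_zero

theorem two_le_pow (ha : 2 ≤ a) {j : ℕ} (hj : 1 ≤ j) : 2 ≤ a ^ j :=
  calc 2 ≤ a ^ 1 := by simpa using ha
    _ ≤ a ^ j := Nat.pow_le_pow_right (by omega) hj

/-- the part of the sum with `a` of order `j` modulo `e` -/
noncomputable def F (a j : ℕ) : ℝ :=
  ∑ e ∈ (a ^ j - 1).divisors with orderOf (a : ZMod e) = j, 1 / (e : ℝ)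

theorem F_nonneg (a j : ℕ) : 0 ≤ F a j := sum_nonneg fun _ _ => by positivity

theorem s_pow_le (ha : 2 ≤ a) {m L : ℕ} (hm : m ∈ Icc 1 L) :
    s (a ^ m - 1) ≤ ∑ j ∈ Icc 1 L, if j ∣ m then F a j else 0 := by
  rw [mem_Icc] at hm
  have h1 : s (a ^ m - 1) = ∑ e ∈ (a ^ m - 1).divisors,
      ∑ j ∈ Icc 1 L, if orderOf (a : ZMod e) = j then 1 / (e : ℝ) else 0 := by
    refine sum_congr rfl fun e he => ?_
    rw [sum_ite_eq, if_pos]
    have h := (dvd_iff ha e m).1 (Nat.dvd_of_mem_divisors he)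
    rw [mem_Icc]
    exact ⟨Nat.pos_of_dvd_of_pos h (by omega), (Nat.le_of_dvd (by omega) h).trans hm.2⟩
  rw [h1, sum_comm]
  refine sum_le_sum fun j hj => ?_
  rw [← sum_filter]
  split_ifs with h
  · refine sum_le_sum_of_subset_of_nonneg (fun e he => ?_) fun _ _ _ => by positivity
    rw [mem_filter] at he ⊢
    refine ⟨Nat.mem_divisors.2 ⟨(dvd_iff ha e j).2 he.2.dvd, ?_⟩, he.2⟩
    have := two_le_pow ha (mem_Icc.1 hj).1
    omega
  · apply le_of_eq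
    rw [filter_eq_empty_iff.2, sum_empty]
    intro e he h'
    exact h (h' ▸ (dvd_iff ha e m).1 (Nat.dvd_of_mem_divisors he))

theorem sum_s_le (ha : 2 ≤ a) (L : ℕ) :
    ∑ m ∈ Icc 1 L, s (a ^ m - 1) ≤ L * ∑ j ∈ Icc 1 L, F a j / j := by
  calc ∑ m ∈ Icc 1 L, s (a ^ m - 1) ≤
        ∑ m ∈ Icc 1 L, ∑ j ∈ Icc 1 L, if j ∣ m then F a j else 0 :=
        sum_le_sum fun m hm => s_pow_le ha hm
    _ = ∑ j ∈ Icc 1 L, ∑ m ∈ Icc 1 L, if j ∣ m then F a j else 0 := sum_comm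
    _ ≤ ∑ j ∈ Icc 1 L, L * (F a j / j) := by
        refine sum_le_sum fun j hj => ?_
        rw [← sum_filter, sum_const, nsmul_eq_mul]
        have h1 : #{m ∈ Icc 1 L | j ∣ m} = L / j := Nat.Ioc_filter_dvd_card_eq_div L j
        rw [h1]
        have h2 : ((L / j : ℕ) : ℝ) ≤ (L : ℝ) / j := Nat.cast_div_le
        calc ((L / j : ℕ) : ℝ) * F a j ≤ (L : ℝ) / j * F a j :=
              mul_le_mul_of_nonneg_right h2 (F_nonneg a j)
          _ = _ := by ring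
    _ = _ := by rw [mul_sum]

/-- `∏_{m ≤ x} (a ^ m - 1)` -/
def D (a x : ℕ) : ℕ := ∏ m ∈ Icc 1 x, (a ^ m - 1)

theorem D_ne_zero (ha : 2 ≤ a) (x : ℕ) : D a x ≠ 0 := by
  rw [D, prod_ne_zero_iff]
  intro m hm
  have := two_le_pow ha (mem_Icc.1 hm).1
  omega

theorem D_le (ha : 2 ≤ a) (x : ℕ) : D a x ≤ a ^ (x ^ 2) := by
  calc D a x ≤ ∏ _m ∈ Icc 1 x, a ^ x := by
        refine prod_le_prod' fun m hm => ?_
        exact (Nat.sub_le _ _).trans (Nat.pow_le_pow_right (by omega) (mem_Icc.1 hm).2)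
    _ = a ^ (x ^ 2) := by
        rw [prod_const, Nat.card_Icc, ← pow_mul]; congr 1; rw [Nat.add_sub_cancel]; ring

theorem sum_F_le (ha : 2 ≤ a) (x : ℕ) : ∑ j ∈ Icc 1 x, F a j ≤ s (D a x) := by
  calc ∑ j ∈ Icc 1 x, F a j ≤ ∑ j ∈ Icc 1 x, ∑ e ∈ (D a x).divisors,
        if orderOf (a : ZMod e) = j then 1 / (e : ℝ) else 0 := by
        refine sum_le_sum fun j hj => ?_
        rw [← sum_filter]
        refine sum_le_sum_of_subset_of_nonneg (fun e he => ?_) fun _ _ _ => by positivity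
        rw [mem_filter] at he ⊢
        refine ⟨Nat.mem_divisors.2 ⟨?_, D_ne_zero ha x⟩, he.2⟩
        exact (Nat.dvd_of_mem_divisors he.1).trans (dvd_prod_of_mem (fun m => a ^ m - 1) hj)
    _ = ∑ e ∈ (D a x).divisors, ∑ j ∈ Icc 1 x,
        if orderOf (a : ZMod e) = j then 1 / (e : ℝ) else 0 := sum_comm
    _ ≤ s (D a x) := by
        refine sum_le_sum fun e _ => ?_
        rw [sum_ite_eq]
        split_ifs
        · exact le_rfl
        · positivity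

theorem s_D_le (ha : 2 ≤ a) {x : ℕ} (hx : 1 ≤ x) :
    s (D a x) ≤ 3 * Real.exp ((1 + Real.log a) / 3) * (x : ℝ) ^ (2 / 3 : ℝ) := by
  set T := (D a x).primeFactors with hT
  have hx0 : (0 : ℝ) < x := by exact_mod_cast hx
  have ha0 : (2 : ℝ) ≤ a := by exact_mod_cast ha
  have hT1 : ∀ p ∈ T, p.Prime := fun p hp => Nat.prime_of_mem_primeFactors hp
  have hnn : ∀ S ⊆ T, 0 ≤ ∏ p ∈ S, (1 - (p : ℝ)⁻¹)⁻¹ := by
    intro S hS
    refine prod_nonneg fun p hp => inv_nonneg.2 (sub_nonneg.2 (inv_le_one_of_one_le₀ ?_))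
    exact_mod_cast (hT1 p (hS hp)).one_le
  set T' := (T.erase 2).erase 3 with hT'
  have h0 : ∏ p ∈ T, (1 - (p : ℝ)⁻¹)⁻¹ ≤ 2 * ∏ p ∈ T.erase 2, (1 - (p : ℝ)⁻¹)⁻¹ := by
    by_cases h3 : 2 ∈ T
    · rw [← mul_prod_erase T _ h3]
      norm_num
    · have := hnn T subset_rfl
      rw [erase_eq_of_notMem h3]
      linarith
  have h1 : ∏ p ∈ T.erase 2, (1 - (p : ℝ)⁻¹)⁻¹ ≤ 3 / 2 * ∏ p ∈ T', (1 - (p : ℝ)⁻¹)⁻¹ := by
    by_cases h3 : 3 ∈ T.erase 2
    · rw [← mul_prod_erase (T.erase 2) _ h3]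
      norm_num [hT']
    · have := hnn (T.erase 2) (erase_subset _ _)
      rw [hT', erase_eq_of_notMem h3]
      linarith
  have h2 : ∏ p ∈ T', (1 - (p : ℝ)⁻¹)⁻¹ ≤ Real.exp ((1 + Real.log #T') / 3) := by
    refine prod_primes_le _ fun p hp => ?_
    rw [hT', mem_erase, mem_erase] at hp
    have h3 := hT1 p hp.2.2
    have h4 : p % 3 ≠ 0 := fun h =>
      hp.1 ((Nat.prime_dvd_prime_iff_eq Nat.prime_three h3).1 (Nat.dvd_of_mod_eq_zero h)).symm
    have h5 : p % 2 = 1 := (h3.eq_two_or_odd).resolve_left hp.2.1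
    have := h3.two_le
    exact ⟨by omega, h5, h4⟩
  have h3 : #T' ≤ a * x ^ 2 := by
    refine (card_le_card ((erase_subset _ _).trans (erase_subset _ _))).trans ?_
    refine (Nat.pow_le_pow_iff_right (a := 2) (by norm_num)).1 ?_
    refine (two_pow_card_le (D_ne_zero ha x)).trans ((D_le ha x).trans ?_)
    rw [pow_mul]
    exact Nat.pow_le_pow_left (Nat.lt_two_pow_self).le _
  have h4 : Real.log (#T') ≤ Real.log a + 2 * Real.log x := by
    have h5 : (0 : ℝ) ≤ Real.log x := Real.log_nonneg (by exact_mod_cast hx)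
    have h6 : (0 : ℝ) ≤ Real.log a := Real.log_nonneg (by linarith)
    rcases Nat.eq_zero_or_pos #T' with h | h
    · rw [h, Nat.cast_zero, Real.log_zero]; linarith
    · calc Real.log (#T') ≤ Real.log ((a : ℝ) * (x : ℝ) ^ 2) :=
            Real.log_le_log (by exact_mod_cast h) (by exact_mod_cast h3)
        _ = Real.log a + 2 * Real.log x := by
            rw [Real.log_mul (by positivity) (by positivity), Real.log_pow]; norm_num
  calc s (D a x) ≤ ∏ p ∈ T, (1 - (p : ℝ)⁻¹)⁻¹ := s_le_prod (D_ne_zero ha x)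
    _ ≤ 3 * ∏ p ∈ T', (1 - (p : ℝ)⁻¹)⁻¹ := by linarith
    _ ≤ 3 * Real.exp ((1 + Real.log #T') / 3) := by gcongr
    _ ≤ 3 * Real.exp ((1 + (Real.log a + 2 * Real.log x)) / 3) := by gcongr
    _ = 3 * (Real.exp ((1 + Real.log a) / 3) * Real.exp (Real.log x * (2 / 3))) := by
        rw [← Real.exp_add]; congr 2; ring
    _ = _ := by rw [Real.rpow_def_of_pos hx0]; ring

theorem abel (a L : ℕ) : ∑ j ∈ Icc 1 L, F a j / j =
    (∑ i ∈ Icc 1 L, F a i) / (L + 1) +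
      ∑ j ∈ Icc 1 L, (∑ i ∈ Icc 1 j, F a i) / (j * (j + 1)) := by
  induction L with
  | zero => simp
  | succ L ih =>
    rw [sum_Icc_succ_top (by omega), sum_Icc_succ_top (by omega : 1 ≤ L + 1)
      (fun j : ℕ => (∑ i ∈ Icc 1 j, F a i) / ((j : ℝ) * (j + 1))), ih,
      sum_Icc_succ_top (by omega) (F a)]
    push_cast
    have h1 : (L : ℝ) + 1 ≠ 0 := by positivity
    have h2 : (L : ℝ) + 1 + 1 ≠ 0 := by positivity
    field_simp
    ring

end RomLemA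

open RomLemA in
/-- **Romanov's lemma** for the base `a` -/
theorem romLemA {a : ℕ} (ha : 2 ≤ a) : ∃ C : ℝ, 0 < C ∧ ∀ L : ℕ,
    ∑ m ∈ Icc 1 L, s (a ^ m - 1) ≤ C * L := by
  set c : ℝ := 3 * Real.exp ((1 + Real.log a) / 3) with hc
  have hc0 : 0 < c := by positivity
  have hsum : Summable (fun n : ℕ => 1 / (n : ℝ) ^ (4 / 3 : ℝ)) :=
    Real.summable_one_div_nat_rpow.2 (by norm_num)
  set K : ℝ := ∑' n : ℕ, 1 / (n : ℝ) ^ (4 / 3 : ℝ) with hK
  have hK0 : 0 ≤ K := tsum_nonneg fun n => by positivity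
  have hE : ∀ x : ℕ, 1 ≤ x → ∑ i ∈ Icc 1 x, F a i ≤ c * (x : ℝ) ^ (2 / 3 : ℝ) := fun x hx =>
    (sum_F_le ha x).trans (s_D_le ha hx)
  refine ⟨c + c * K, by positivity, fun L => ?_⟩
  rcases Nat.eq_zero_or_pos L with h0 | h0
  · simp [h0]
  have hL0 : (1 : ℝ) ≤ L := by exact_mod_cast h0
  have h1 : (∑ i ∈ Icc 1 L, F a i) / ((L : ℝ) + 1) ≤ c := by
    rw [div_le_iff₀ (by positivity)]
    refine (hE L h0).trans (mul_le_mul_of_nonneg_left ?_ hc0.le)
    calc (L : ℝ) ^ (2 / 3 : ℝ) ≤ (L : ℝ) ^ (1 : ℝ) :=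
          Real.rpow_le_rpow_of_exponent_le hL0 (by norm_num)
      _ = L := Real.rpow_one _
      _ ≤ L + 1 := by linarith
  have h2 : ∑ j ∈ Icc 1 L, (∑ i ∈ Icc 1 j, F a i) / ((j : ℝ) * (j + 1)) ≤ c * K := by
    calc ∑ j ∈ Icc 1 L, (∑ i ∈ Icc 1 j, F a i) / ((j : ℝ) * (j + 1)) ≤
          ∑ j ∈ Icc 1 L, c * (1 / (j : ℝ) ^ (4 / 3 : ℝ)) := by
          refine sum_le_sum fun j hj => ?_
          have hj1 : 1 ≤ j := (mem_Icc.1 hj).1
          have hj0 : (0 : ℝ) < j := by exact_mod_cast hj1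
          rw [div_le_iff₀ (by positivity)]
          refine (hE j hj1).trans ?_
          have e1 : (j : ℝ) ^ (2 / 3 : ℝ) * (j : ℝ) ^ (4 / 3 : ℝ) = (j : ℝ) ^ 2 := by
            rw [← Real.rpow_add hj0, ← Real.rpow_natCast]; norm_num
          have e2 : 0 < (j : ℝ) ^ (4 / 3 : ℝ) := Real.rpow_pos_of_pos hj0 _
          calc c * (j : ℝ) ^ (2 / 3 : ℝ) = c * (1 / (j : ℝ) ^ (4 / 3 : ℝ)) *
                ((j : ℝ) ^ (2 / 3 : ℝ) * (j : ℝ) ^ (4 / 3 : ℝ)) := by field_simp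
            _ = c * (1 / (j : ℝ) ^ (4 / 3 : ℝ)) * (j : ℝ) ^ 2 := by rw [e1]
            _ ≤ _ := by
              refine mul_le_mul_of_nonneg_left ?_ (by positivity)
              nlinarith
      _ = c * ∑ j ∈ Icc 1 L, 1 / (j : ℝ) ^ (4 / 3 : ℝ) := by rw [mul_sum]
      _ ≤ c * K := by
          refine mul_le_mul_of_nonneg_left ?_ hc0.le
          exact hsum.sum_le_tsum _ fun _ _ => by positivity
  calc ∑ m ∈ Icc 1 L, s (a ^ m - 1) ≤ L * ∑ j ∈ Icc 1 L, F a j / j := sum_s_le ha L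
    _ ≤ L * (c + c * K) := by
        rw [abel]
        exact mul_le_mul_of_nonneg_left (add_le_add h1 h2) (by positivity)
    _ = _ := by ring

/-- **Romanov's theorem** (1934) for every base `a ≥ 2`: the integers of the form `p + a ^ k` have
positive lower density. -/
theorem romanov_base {a : ℕ} (ha : 2 ≤ a) : ∃ c : ℝ, 0 < c ∧ ∀ᶠ N : ℕ in atTop,
    c * N ≤ (Nat.card {n : ℕ | n ≤ N ∧ ∃ p k : ℕ, p.Prime ∧ n = p + a ^ k} : ℝ) :=
  romA_of ha (romLemA ha)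

end Fermat.Agent.Cor.Gold
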