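import Fermat.Agent.Corollaries.Gold.Pair
import Fermat.Agent.Corollaries.Gold.MeanSq
import Fermat.Agent.Corollaries.ZetaK.PNTAP

/-!
# Small gaps between prime numbers (P. Erdős, 1940)

There is `c < 1` such that for all large `N` there are primes `N < p < p' ≤ 2 N` with
`p' - p < c log p`; in particular `liminf (p_{n+1} - p_n) / log p_n < 1`.
-/

set_option autoImplicit false

open Finset Filter Topology

namespace Fermat.Agent.Cor.Gold

namespace Gaps

/-- the next prime number -/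
def nx (p : ℕ) : ℕ := Nat.find (Nat.exists_infinite_primes (p + 1))

theorem lt_nx (p : ℕ) : p < nx p := (Nat.find_spec (Nat.exists_infinite_primes (p + 1))).1

theorem nx_prime (p : ℕ) : (nx p).Prime := (Nat.find_spec (Nat.exists_infinite_primes (p + 1))).2

theorem nx_le {p q : ℕ} (hq : q.Prime) (h : p < q) : nx p ≤ q :=
  Nat.find_min' (Nat.exists_infinite_primes (p + 1)) ⟨h, hq⟩

/-- the primes in `(N, 2 N]` -/
def PN (N : ℕ) : Finset ℕ := {p ∈ Ioc N (2 * N) | p.Prime}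

/-- the primes in `(N, 2 N]`, without the last one -/
def PN' (N : ℕ) : Finset ℕ := {p ∈ PN N | nx p ≤ 2 * N}

theorem card_PN (N : ℕ) : Nat.primeCounting (2 * N) = Nat.primeCounting N + #(PN N) := by
  have h1 : ∀ M : ℕ, Nat.primeCounting M = #((range (M + 1)).filter Nat.Prime) := fun M => by
    rw [Nat.primeCounting, Nat.primeCounting', Nat.count_eq_card_filter_range]
  rw [h1, h1, PN, ← card_union_of_disjoint]
  · congr 1
    ext p
    simp only [mem_filter, mem_union, mem_range, mem_Ioc]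
    constructor
    · rintro ⟨h2, h3⟩
      by_cases h4 : p ≤ N
      · exact Or.inl ⟨by omega, h3⟩
      · exact Or.inr ⟨⟨by omega, by omega⟩, h3⟩
    · rintro (⟨h2, h3⟩ | ⟨⟨h2, h4⟩, h3⟩)
      · exact ⟨by omega, h3⟩
      · exact ⟨by omega, h3⟩
  · rw [Finset.disjoint_left]
    intro p hp hp2
    have h2 := mem_range.mp (mem_filter.mp hp).1
    have h3 := mem_Ioc.mp (mem_filter.mp hp2).1
    omega

theorem card_PN_le (N : ℕ) : #(PN N) ≤ #(PN' N) + 1 := by
  have h1 : #(PN N \ PN' N) ≤ 1 := by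
    rw [card_le_one]
    intro p hp q hq
    rw [Finset.mem_sdiff] at hp hq
    have hp1 := mem_filter.mp hp.1
    have hq1 := mem_filter.mp hq.1
    have hp2 := (mem_Ioc.mp hp1.1).2
    have hq2 := (mem_Ioc.mp hq1.1).2
    rcases lt_trichotomy p q with h | h | h
    · have h3 : p ∈ PN' N := mem_filter.mpr ⟨hp.1, (nx_le hq1.2 h).trans hq2⟩
      exact absurd h3 hp.2
    · exact h
    · have h3 : q ∈ PN' N := mem_filter.mpr ⟨hq.1, (nx_le hp1.2 h).trans hp2⟩
      exact absurd h3 hq.2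
  have h2 : #(PN N) ≤ #(PN N \ PN' N) + #(PN' N) := by
    have := card_le_card (subset_union_left (s₁ := PN N) (s₂ := PN' N))
    rw [← sdiff_union_self_eq_union] at this
    exact this.trans (card_union_le _ _)
  omega

theorem sum_gap_le (N : ℕ) : ∑ p ∈ PN' N, (nx p - p) ≤ N := by
  have h1 : ∑ p ∈ PN' N, (nx p - p) = #((PN' N).sigma fun p => Ico p (nx p)) := by
    rw [card_sigma]
    exact sum_congr rfl fun p _ => (Nat.card_Ico p (nx p)).symm
  have h2 : #((PN' N).sigma fun p => Ico p (nx p)) ≤ #(Ioc N (2 * N)) := by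
    refine card_le_card_of_injOn (fun x => x.2) (fun x hx => ?_) fun x hx y hy hxy => ?_
    · have h3 := mem_sigma.mp (mem_coe.mp hx)
      have h4 := mem_filter.mp h3.1
      have h5 := mem_Ioc.mp (mem_filter.mp h4.1).1
      have h6 := mem_Ico.mp h3.2
      exact mem_coe.mpr (mem_Ioc.mpr ⟨(by omega : N < x.2), (by omega : x.2 ≤ 2 * N)⟩)
    · have h3 := mem_sigma.mp (mem_coe.mp hx)
      have h4 := mem_sigma.mp (mem_coe.mp hy)
      have h5 := mem_Ico.mp h3.2
      have h6 := mem_Ico.mp h4.2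
      have h7 : x.2 = y.2 := hxy
      have h8 := (mem_filter.mp (mem_filter.mp h3.1).1).2
      have h9 := (mem_filter.mp (mem_filter.mp h4.1).1).2
      have h10 : x.1 = y.1 := by
        rcases lt_trichotomy x.1 y.1 with h | h | h
        · have := nx_le h9 h
          omega
        · exact h
        · have := nx_le h8 h
          omega
      exact Sigma.ext h10 (heq_of_eq h7)
  rw [Nat.card_Ioc] at h2
  omega

/-- the prime number theorem in `(N, 2 N]` -/
theorem card_PN_ge {ε : ℝ} (hε : 0 < ε) : ∀ᶠ N : ℕ in atTop,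
    (1 - ε) * (N / Real.log N) ≤ (#(PN N) : ℝ) := by
  have h1 := prime_number_theorem
  set δ := min (ε / 8) (1 / 2) with hδ
  have hδ0 : 0 < δ := by positivity
  have hδ1 : δ ≤ ε / 8 := min_le_left _ _
  have hδ2 : δ ≤ 1 / 2 := min_le_right _ _
  have h2 : Tendsto (fun N : ℕ => 2 * N) atTop atTop :=
    tendsto_atTop_mono (fun N => by show N ≤ 2 * N; omega) tendsto_id
  have h3 := h1.eventually (eventually_le_nhds (show (1 : ℝ) < 1 + δ by linarith))
  have h4 := (h1.comp h2).eventually (eventually_ge_nhds (show 1 - δ < (1 : ℝ) by linarith))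
  have h5 : ∀ᶠ N : ℕ in atTop, 1 / δ ≤ Real.log N :=
    (Real.tendsto_log_atTop.comp tendsto_natCast_atTop_atTop).eventually_ge_atTop _
  filter_upwards [h3, h4, h5, eventually_ge_atTop 3] with N h3 h4 h5 hN
  have hN0 : (3 : ℝ) ≤ N := by exact_mod_cast hN
  have hL : 0 < Real.log N := Real.log_pos (by linarith)
  set L := Real.log N with hLdef
  have h6 : (Nat.primeCounting (2 * N) : ℝ) = Nat.primeCounting N + #(PN N) := by
    exact_mod_cast card_PN N
  have h7 : (Nat.primeCounting N : ℝ) ≤ (1 + δ) * (N / L) := by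
    rw [div_le_iff₀ (by linarith)] at h3
    rw [← mul_div_assoc, le_div_iff₀ hL]
    exact h3
  simp only [Function.comp_apply] at h4
  push_cast at h4
  have h8 : Real.log (2 * N) = Real.log 2 + L := Real.log_mul (by norm_num) (by linarith)
  have hl2 : Real.log 2 ≤ 1 := by linarith [Real.log_two_lt_d9]
  have hl2' : 0 < Real.log 2 := Real.log_pos (by norm_num)
  rw [h8, le_div_iff₀ (by linarith)] at h4
  have h9 : (1 - 2 * δ) * 2 * (N / L) ≤ (Nat.primeCounting (2 * N) : ℝ) := by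
    have h10 : Real.log 2 + L ≤ (1 + δ) * L := by
      have : 1 ≤ δ * L := by
        rw [div_le_iff₀ hδ0] at h5
        linarith
      linarith
    have h11 : (1 - δ) * (2 * N) ≤ (Nat.primeCounting (2 * N) : ℝ) * ((1 + δ) * L) :=
      h4.trans (mul_le_mul_of_nonneg_left h10 (Nat.cast_nonneg _))
    have h12 : (1 - 2 * δ) * (1 + δ) ≤ 1 - δ := by nlinarith
    have h13 : (1 - 2 * δ) * (1 + δ) * (2 * N) ≤
        (Nat.primeCounting (2 * N) : ℝ) * ((1 + δ) * L) :=
      (mul_le_mul_of_nonneg_right h12 (by linarith)).trans h11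
    have h14 : (1 - 2 * δ) * (2 * N) ≤ (Nat.primeCounting (2 * N) : ℝ) * L := by
      have h15 : (1 + δ) * ((1 - 2 * δ) * (2 * N)) ≤
          (1 + δ) * ((Nat.primeCounting (2 * N) : ℝ) * L) := by linarith
      exact le_of_mul_le_mul_left h15 (by linarith)
    rw [← mul_div_assoc, div_le_iff₀ hL]
    linarith
  have hD : 0 < (N : ℝ) / L := by positivity
  nlinarith [mul_le_mul_of_nonneg_right hδ1 hD.le]

/-- the number of the gaps in `[(1 - c) L, (1 + c) L]` -/
theorem card_gap_le {C₁ C₂ : ℝ} (hC₁ : 0 < C₁)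
    (h1 : ∀ h N : ℕ, h ≠ 0 → 2 ≤ N →
      (#{n ∈ range N | n.Prime ∧ (n + h).Prime} : ℝ) ≤ C₁ * s h * N / Real.log N ^ 2)
    (h2 : ∀ N : ℕ, ∑ n ∈ Icc 1 N, s n ^ 2 ≤ C₂ * N) (hC₂ : 0 < C₂)
    {c : ℝ} (hc : 0 < c) (hc1 : c ≤ 1 / 2) {N : ℕ} (hN : 3 ≤ N) (hL : 1 ≤ c * Real.log N) :
    (#{p ∈ PN' N | (1 - c) * Real.log N ≤ ((nx p - p : ℕ) : ℝ) ∧
      ((nx p - p : ℕ) : ℝ) ≤ (1 + c) * Real.log N} : ℝ) ≤
      3 * C₁ * √(6 * c * C₂) * (N / Real.log N) := by
  set L := Real.log N with hLdef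
  have hN0 : (3 : ℝ) ≤ N := by exact_mod_cast hN
  have hL0 : 0 < L := Real.log_pos (by linarith)
  set B := {p ∈ PN' N | (1 - c) * L ≤ ((nx p - p : ℕ) : ℝ) ∧
      ((nx p - p : ℕ) : ℝ) ≤ (1 + c) * L} with hB
  set H := Icc ⌈(1 - c) * L⌉₊ ⌊(1 + c) * L⌋₊ with hH
  have hH1 : ∀ h ∈ H, 1 ≤ h := by
    intro h hh
    have h3 := (mem_Icc.mp hh).1
    have h4 : 0 < ⌈(1 - c) * L⌉₊ := Nat.ceil_pos.mpr (mul_pos (by linarith) hL0)
    omega
  have hcard : (#H : ℝ) ≤ 3 * (c * L) := by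
    rw [hH, Nat.card_Icc]
    have h3 : ((⌊(1 + c) * L⌋₊ : ℕ) : ℝ) ≤ (1 + c) * L := Nat.floor_le (by positivity)
    have h4 : (1 - c) * L ≤ ((⌈(1 - c) * L⌉₊ : ℕ) : ℝ) := Nat.le_ceil _
    rcases le_total ⌈(1 - c) * L⌉₊ (⌊(1 + c) * L⌋₊ + 1) with h5 | h5
    · rw [Nat.cast_sub h5]
      push_cast
      linarith
    · rw [Nat.sub_eq_zero_of_le h5]
      push_cast
      positivity
  have hs : (∑ h ∈ H, s h) ^ 2 ≤ 6 * c * C₂ * L ^ 2 := by
    have h3 : ∑ h ∈ H, s h ^ 2 ≤ C₂ * (2 * L) := by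
      calc ∑ h ∈ H, s h ^ 2 ≤ ∑ h ∈ Icc 1 ⌊(1 + c) * L⌋₊, s h ^ 2 := by
            refine sum_le_sum_of_subset_of_nonneg (fun h hh => ?_) fun _ _ _ => sq_nonneg _
            exact mem_Icc.mpr ⟨hH1 h hh, (mem_Icc.mp hh).2⟩
        _ ≤ C₂ * ⌊(1 + c) * L⌋₊ := h2 _
        _ ≤ C₂ * (2 * L) := by
            refine mul_le_mul_of_nonneg_left ((Nat.floor_le (by positivity)).trans ?_) hC₂.le
            nlinarith
    calc (∑ h ∈ H, s h) ^ 2 ≤ #H * ∑ h ∈ H, s h ^ 2 := sq_sum_le_card_mul_sum_sq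
      _ ≤ 3 * (c * L) * (C₂ * (2 * L)) :=
          mul_le_mul hcard h3 (sum_nonneg fun _ _ => sq_nonneg _) (by positivity)
      _ = _ := by ring
  have hs' : ∑ h ∈ H, s h ≤ √(6 * c * C₂) * L := by
    have h3 : (0 : ℝ) ≤ √(6 * c * C₂) * L := by positivity
    refine le_of_sq_le_sq ?_ h3
    rw [mul_pow, Real.sq_sqrt (by positivity)]
    exact hs
  have h3 : #B = ∑ h ∈ H, #{p ∈ B | nx p - p = h} := by
    refine card_eq_sum_card_fiberwise fun p hp => ?_
    have h4 := (mem_filter.mp (mem_coe.mp hp)).2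
    exact mem_coe.mpr (mem_Icc.mpr ⟨Nat.ceil_le.mpr h4.1, Nat.le_floor h4.2⟩)
  have h4 : ∀ h ∈ H, (#{p ∈ B | nx p - p = h} : ℝ) ≤ C₁ * s h * (3 * (N / L ^ 2)) := by
    intro h hh
    have h5 : #{p ∈ B | nx p - p = h} ≤ #{n ∈ range (2 * N + 1) | n.Prime ∧ (n + h).Prime} := by
      refine card_le_card fun p hp => ?_
      have h6 := mem_filter.mp hp
      have h7 := mem_filter.mp (mem_filter.mp (mem_filter.mp h6.1).1).1
      have h8 := lt_nx p
      have h9 : p + h = nx p := by omega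
      refine mem_filter.mpr ⟨mem_range.mpr ?_, h7.2, h9 ▸ nx_prime p⟩
      have := (mem_Ioc.mp h7.1).2
      omega
    have h6 := h1 h (2 * N + 1) (by have := hH1 h hh; omega) (by omega)
    have h7 : (#{p ∈ B | nx p - p = h} : ℝ) ≤
        #{n ∈ range (2 * N + 1) | n.Prime ∧ (n + h).Prime} := by exact_mod_cast h5
    have hs0 : 0 ≤ s h := sum_nonneg fun _ _ => by positivity
    refine h7.trans (h6.trans ?_)
    rw [mul_div_assoc]
    refine mul_le_mul_of_nonneg_left ?_ (by positivity)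
    rw [← mul_div_assoc]
    have h8 : L ≤ Real.log ((2 * N + 1 : ℕ) : ℝ) :=
      Real.log_le_log (by linarith) (by push_cast; linarith)
    refine div_le_div₀ (by positivity) (by push_cast; linarith) (by positivity) ?_
    exact pow_le_pow_left₀ hL0.le h8 2
  calc (#B : ℝ) = ∑ h ∈ H, (#{p ∈ B | nx p - p = h} : ℝ) := by exact_mod_cast h3
    _ ≤ ∑ h ∈ H, C₁ * s h * (3 * (N / L ^ 2)) := sum_le_sum h4
    _ = C₁ * (3 * (N / L ^ 2)) * ∑ h ∈ H, s h := by
        rw [mul_sum]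
        exact sum_congr rfl fun h _ => by ring
    _ ≤ C₁ * (3 * (N / L ^ 2)) * (√(6 * c * C₂) * L) :=
        mul_le_mul_of_nonneg_left hs' (by positivity)
    _ = _ := by
        field_simp

end Gaps

open Gaps

/-- **Small gaps between prime numbers** (Erdős 1940): there is `c < 1` such that for all large `N`
there are primes `N < p < p' ≤ 2 N` with `p' - p < c log p`. -/
theorem small_gaps : ∃ c : ℝ, 0 < c ∧ c < 1 ∧ ∀ᶠ N : ℕ in atTop, ∃ p p' : ℕ,
    p.Prime ∧ p'.Prime ∧ N < p ∧ p < p' ∧ p' ≤ 2 * N ∧ (p' : ℝ) - p < c * Real.log p := by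
  obtain ⟨C₁, hC₁, h1⟩ := pairStmt
  obtain ⟨C₂, hC₂, h2⟩ := meanSqStmt
  set c : ℝ := min (1 / 2) (1 / (864 * C₁ ^ 2 * C₂)) with hc
  have hc0 : 0 < c := by positivity
  have hc1 : c ≤ 1 / 2 := min_le_left _ _
  have hc2 : 3 * C₁ * √(6 * c * C₂) ≤ 1 / 4 := by
    have h3 : c ≤ 1 / (864 * C₁ ^ 2 * C₂) := min_le_right _ _
    have h4 : √(6 * c * C₂) ≤ 1 / (12 * C₁) := by
      rw [Real.sqrt_le_left (by positivity)]
      calc 6 * c * C₂ ≤ 6 * (1 / (864 * C₁ ^ 2 * C₂)) * C₂ := by gcongr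
        _ = (1 / (12 * C₁)) ^ 2 := by
            field_simp
            norm_num
    calc 3 * C₁ * √(6 * c * C₂) ≤ 3 * C₁ * (1 / (12 * C₁)) := by gcongr
      _ = 1 / 4 := by
          field_simp
          norm_num
  refine ⟨1 - c, by linarith, by linarith, ?_⟩
  have h5 : ∀ᶠ N : ℕ in atTop, 1 / c ≤ Real.log N :=
    (Real.tendsto_log_atTop.comp tendsto_natCast_atTop_atTop).eventually_ge_atTop _
  have h6 : ∀ᶠ N : ℕ in atTop, Real.log N ≤ c / 16 * N := by
    have := (tendsto_natCast_atTop_atTop (R := ℝ)).eventually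
      (Real.isLittleO_log_id_atTop.bound (show 0 < c / 16 by positivity))
    filter_upwards [this, eventually_ge_atTop 3] with N hN hN3
    have hN0 : (3 : ℝ) ≤ N := by exact_mod_cast hN3
    rwa [id_eq, Real.norm_of_nonneg (Real.log_nonneg (by linarith)),
      Real.norm_of_nonneg (by linarith)] at hN
  filter_upwards [card_PN_ge (show 0 < c / 8 by positivity), h5, h6, eventually_ge_atTop 3]
    with N h3 h5 h6 hN
  have hN0 : (3 : ℝ) ≤ N := by exact_mod_cast hN
  set L := Real.log N with hL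
  have hL0 : 0 < L := Real.log_pos (by linarith)
  have hcL : 1 ≤ c * L := by
    rw [div_le_iff₀ hc0] at h5
    linarith
  by_contra hcon
  push Not at hcon
  -- all the gaps are large
  have hgap : ∀ p ∈ PN' N, (1 - c) * L ≤ ((nx p - p : ℕ) : ℝ) := by
    intro p hp
    have h7 := mem_filter.mp hp
    have h8 := mem_filter.mp h7.1
    have h9 := (mem_Ioc.mp h8.1).1
    have h10 := hcon p (nx p) h8.2 (nx_prime p) h9 (lt_nx p) h7.2
    rw [Nat.cast_sub (lt_nx p).le]
    refine le_trans ?_ h10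
    refine mul_le_mul_of_nonneg_left ?_ (by linarith)
    exact Real.log_le_log (by linarith) (by exact_mod_cast h9.le)
  set B := {p ∈ PN' N | (1 - c) * L ≤ ((nx p - p : ℕ) : ℝ) ∧
      ((nx p - p : ℕ) : ℝ) ≤ (1 + c) * L} with hB
  have hBc : (#B : ℝ) ≤ 1 / 4 * (N / L) :=
    (card_gap_le hC₁ h1 h2 hC₂ hc0 hc1 hN hcL).trans
      (mul_le_mul_of_nonneg_right hc2 (by positivity))
  have hsum : ∑ p ∈ PN' N, ((nx p - p : ℕ) : ℝ) ≤ N := by exact_mod_cast sum_gap_le N
  have hlow : ∀ p ∈ PN' N, (1 + c) * L - (if p ∈ B then 2 * c * L else 0) ≤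
      ((nx p - p : ℕ) : ℝ) := by
    intro p hp
    split_ifs with h7
    · have := hgap p hp
      linarith
    · have h8 : ¬ ((nx p - p : ℕ) : ℝ) ≤ (1 + c) * L := fun h8 =>
        h7 (mem_filter.mpr ⟨hp, hgap p hp, h8⟩)
      linarith [not_le.mp h8]
  have h7 : (1 + c) * L * #(PN' N) - 2 * c * L * #B ≤ N := by
    refine le_trans (le_of_eq ?_) ((sum_le_sum hlow).trans hsum)
    rw [sum_sub_distrib, sum_const, nsmul_eq_mul, ← sum_filter, filter_mem_eq_inter,
      inter_eq_right.mpr (filter_subset _ _), sum_const, nsmul_eq_mul]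
    ring
  have h8 : (#(PN N) : ℝ) ≤ #(PN' N) + 1 := by exact_mod_cast card_PN_le N
  have h9 : (1 - c / 8) * (N / L) - 1 ≤ (#(PN' N) : ℝ) := by linarith
  have h10 : (1 + c) * L * ((1 - c / 8) * (N / L) - 1) ≤ (1 + c) * L * #(PN' N) :=
    mul_le_mul_of_nonneg_left h9 (by positivity)
  have h11 : 2 * c * L * #B ≤ 2 * c * L * (1 / 4 * (N / L)) :=
    mul_le_mul_of_nonneg_left hBc (by positivity)
  have h12 : (1 + c) * L * ((1 - c / 8) * (N / L) - 1) =
      (1 + c) * (1 - c / 8) * N - (1 + c) * L := by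
    field_simp
  have h13 : 2 * c * L * (1 / 4 * (N / L)) = c / 2 * N := by
    field_simp
    norm_num
  rw [h12] at h10
  rw [h13] at h11
  have h14 : (1 + c) * (1 - c / 8) * N - (1 + c) * L - c / 2 * N ≤ N := by linarith
  nlinarith [mul_pos hc0 (show (0 : ℝ) < N by linarith), mul_nonneg hc0.le hL0.le,
    mul_nonneg (mul_nonneg hc0.le hc0.le) (show (0 : ℝ) ≤ N by linarith)]

end Fermat.Agent.Cor.Gold
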