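import Fermat.Agent.Corollaries.Gold.Final
import Fermat.Agent.Corollaries.ZetaK.PNTAP

/-!
# Sums of two primes of a set of primes of positive relative density

* `density_of`: if `#{p ≤ N | p ∈ S} ≥ c N / log N` for a set `S` of primes, then the sums of two
  elements of `S` have positive lower density;
* `density_ap`: the sums of two primes `≡ a mod q` (`a` prime to `q`).
-/

set_option autoImplicit false

open Finset Filter Topology

namespace Fermat.Agent.Cor.Gold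

section

variable {S : ℕ → Prop} [DecidablePred S]

/-- the number of representations of `n` as a sum of two elements of `S` -/
def rS (S : ℕ → Prop) [DecidablePred S] (n : ℕ) : ℕ := #{p ∈ range n | S p ∧ S (n - p)}

theorem rS_le (hS : ∀ p, S p → p.Prime) (n : ℕ) : rS S n ≤ r n := by
  refine card_le_card fun p hp => ?_
  rw [mem_filter] at hp
  exact mem_filter.mpr ⟨hp.1, hS _ hp.2.1, hS _ hp.2.2⟩

theorem sq_card_le (hS : ∀ p, S p → p.Prime) (M N : ℕ) (h : 2 * M ≤ N) :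
    #{p ∈ Icc 1 M | S p} ^ 2 ≤ ∑ n ∈ Icc 1 N, rS S n := by
  set A := {p ∈ Icc 1 M | S p} with hA
  have h2 : ∑ n ∈ Icc 1 N, rS S n = #((Icc 1 N).sigma fun n =>
      {p ∈ range n | S p ∧ S (n - p)}) := by
    rw [card_sigma]
    rfl
  rw [h2, sq, ← card_product]
  refine card_le_card_of_injOn (fun x => ⟨x.1 + x.2, x.1⟩) (fun x hx => ?_) fun x hx y hy hxy => ?_
  · rw [mem_coe, mem_product, hA, mem_filter, mem_filter, mem_Icc, mem_Icc] at hx
    obtain ⟨⟨h3, h4⟩, h5, h6⟩ := hx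
    have h7 := (hS _ h4).pos
    have h8 := (hS _ h6).pos
    have h9 : S (x.1 + x.2 - x.1) := by
      rw [Nat.add_sub_cancel_left]
      exact h6
    exact mem_coe.mpr (mem_sigma.mpr ⟨mem_Icc.mpr ⟨(by omega : 1 ≤ x.1 + x.2),
      (by omega : x.1 + x.2 ≤ N)⟩, mem_filter.mpr ⟨mem_range.mpr (by omega : x.1 < x.1 + x.2),
      h4, h9⟩⟩)
  · simp only [Sigma.mk.injEq] at hxy
    obtain ⟨h3, h4⟩ := hxy
    have h5 : x.1 = y.1 := by simpa using h4
    exact Prod.ext h5 (by omega)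

/-- **The sums of two elements of a set of primes of positive relative density have positive lower
density.** -/
theorem density_of (hS : ∀ p, S p → p.Prime) {c : ℝ} (hc : 0 < c)
    (h : ∀ᶠ N : ℕ in atTop, c * N / Real.log N ≤ (#{p ∈ Icc 1 N | S p} : ℝ)) :
    ∃ c' : ℝ, 0 < c' ∧ ∀ᶠ N : ℕ in atTop,
      c' * N ≤ (Nat.card {n : ℕ | n ≤ N ∧ ∃ p q : ℕ, S p ∧ S q ∧ n = p + q} : ℝ) := by
  obtain ⟨C, hC, hU⟩ := r_le
  obtain ⟨M₂, hM₂, h2⟩ := meanSqStmt
  refine ⟨(c / 3) ^ 4 / (256 * C ^ 2 * M₂), by positivity, ?_⟩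
  have hMN : Tendsto (fun N : ℕ => N / 2) atTop atTop := Nat.tendsto_div_const_atTop (by norm_num)
  filter_upwards [hMN.eventually h, eventually_ge_atTop 16] with N hN hN2
  set T := {n ∈ Icc 1 N | 0 < rS S n} with hT
  have hN0 : (16 : ℝ) ≤ N := by exact_mod_cast hN2
  have hlog : 0 < Real.log N := Real.log_pos (by linarith)
  set L := Real.log N with hL
  have hsum : ∑ n ∈ Icc 1 N, (rS S n : ℝ) = ∑ n ∈ T, (rS S n : ℝ) := by
    refine (sum_filter_of_ne fun n _ hne => ?_).symm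
    rcases Nat.eq_zero_or_pos (rS S n) with h | h
    · simp [h] at hne
    · exact h
  have hb : ∀ n ∈ T, (rS S n : ℝ) ≤ 16 * C * (N / L ^ 2) * s n := by
    intro n hn
    rw [hT, mem_filter, mem_Icc] at hn
    have hr : (rS S n : ℝ) ≤ r n := by exact_mod_cast rS_le hS n
    have hn2 : 2 ≤ n := by
      rcases Nat.lt_or_ge n 2 with h | h
      · have h3 : n = 1 := by omega
        have h4 := rS_le hS n
        rw [h3, r_one] at h4
        rw [h3] at hn
        omega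
      · exact h
    calc (rS S n : ℝ) ≤ r n := hr
      _ ≤ C * s n * n / Real.log n ^ 2 := hU n hn2
      _ = C * s n * (n / Real.log n ^ 2) := by ring
      _ ≤ C * s n * (16 * (N / L ^ 2)) :=
        mul_le_mul_of_nonneg_left (div_log_sq_le hn2 hn.1.2) (mul_nonneg hC.le (s_nonneg n))
      _ = _ := by ring
  have hq : ∑ n ∈ T, (rS S n : ℝ) ^ 2 ≤ (16 * C * (N / L ^ 2)) ^ 2 * (M₂ * N) := by
    calc ∑ n ∈ T, (rS S n : ℝ) ^ 2 ≤ ∑ n ∈ T, (16 * C * (N / L ^ 2)) ^ 2 * s n ^ 2 :=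
          sum_le_sum fun n hn => by
            rw [← mul_pow]; exact pow_le_pow_left₀ (Nat.cast_nonneg _) (hb n hn) 2
      _ = (16 * C * (N / L ^ 2)) ^ 2 * ∑ n ∈ T, s n ^ 2 := by rw [mul_sum]
      _ ≤ (16 * C * (N / L ^ 2)) ^ 2 * ∑ n ∈ Icc 1 N, s n ^ 2 := by
        refine mul_le_mul_of_nonneg_left ?_ (sq_nonneg _)
        exact sum_le_sum_of_subset_of_nonneg (filter_subset _ _) fun _ _ _ => sq_nonneg _
      _ ≤ _ := mul_le_mul_of_nonneg_left (h2 N) (sq_nonneg _)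
  have hcs : (∑ n ∈ T, (rS S n : ℝ)) ^ 2 ≤ #T * ∑ n ∈ T, (rS S n : ℝ) ^ 2 :=
    sq_sum_le_card_mul_sum_sq
  -- the lower bound
  have hlow : (c / 3 * N / L) ^ 2 ≤ ∑ n ∈ Icc 1 N, (rS S n : ℝ) := by
    have h3 : ((#{p ∈ Icc 1 (N / 2) | S p} ^ 2 : ℕ) : ℝ) ≤ ∑ n ∈ Icc 1 N, (rS S n : ℝ) := by
      have := sq_card_le hS (N / 2) N (by omega)
      exact_mod_cast this
    refine le_trans ?_ h3
    push_cast
    refine pow_le_pow_left₀ (by positivity) (le_trans ?_ hN) 2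
    have h4 : (8 : ℝ) ≤ ((N / 2 : ℕ) : ℝ) := by exact_mod_cast (by omega : 8 ≤ N / 2)
    have h5 : 0 < Real.log ((N / 2 : ℕ) : ℝ) := Real.log_pos (by linarith)
    have h6 : ((N / 2 : ℕ) : ℝ) ≤ N := by exact_mod_cast Nat.div_le_self N 2
    have h7 : Real.log ((N / 2 : ℕ) : ℝ) ≤ L := Real.log_le_log (by linarith) h6
    have h8 : (N : ℝ) ≤ 3 * ((N / 2 : ℕ) : ℝ) := by exact_mod_cast (by omega : N ≤ 3 * (N / 2))
    refine div_le_div₀ (by positivity) ?_ h5 h7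
    nlinarith
  have hall : (c / 3 * N / L) ^ 4 ≤ #T * ((16 * C * (N / L ^ 2)) ^ 2 * (M₂ * N)) := by
    calc (c / 3 * N / L) ^ 4 = ((c / 3 * N / L) ^ 2) ^ 2 := by ring
      _ ≤ (∑ n ∈ T, (rS S n : ℝ)) ^ 2 := by
          refine pow_le_pow_left₀ (by positivity) ?_ 2
          rw [← hsum]; exact hlow
      _ ≤ _ := hcs
      _ ≤ _ := mul_le_mul_of_nonneg_left hq (Nat.cast_nonneg _)
  have hfin : (c / 3) ^ 4 * N ≤ #T * (256 * C ^ 2 * M₂) := by
    have e1 : (c / 3 * (N : ℝ) / L) ^ 4 = (c / 3) ^ 4 * N * (N ^ 3 / L ^ 4) := by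
      field_simp
    have e2 : (#T : ℝ) * ((16 * C * (N / L ^ 2)) ^ 2 * (M₂ * N)) =
        #T * (256 * C ^ 2 * M₂) * (N ^ 3 / L ^ 4) := by
      field_simp; ring
    rw [e1, e2] at hall
    exact le_of_mul_le_mul_right hall (by positivity)
  have hT2 : (T : Set ℕ) ⊆ {n : ℕ | n ≤ N ∧ ∃ p q : ℕ, S p ∧ S q ∧ n = p + q} := by
    intro n hn
    have h3 := mem_filter.mp (mem_coe.mp hn)
    obtain ⟨p, hp⟩ := card_pos.mp h3.2
    have h4 := mem_filter.mp hp
    have h5 := mem_range.mp h4.1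
    exact ⟨(mem_Icc.mp h3.1).2, p, n - p, h4.2.1, h4.2.2, by omega⟩
  have hfinite : {n : ℕ | n ≤ N ∧ ∃ p q : ℕ, S p ∧ S q ∧ n = p + q}.Finite :=
    (Set.finite_Iic N).subset fun n hn => hn.1
  have hT3 : #T ≤ Nat.card {n : ℕ | n ≤ N ∧ ∃ p q : ℕ, S p ∧ S q ∧ n = p + q} := by
    rw [Nat.card_coe_set_eq, ← Set.ncard_coe_finset]
    exact Set.ncard_le_ncard hT2 hfinite
  have hT1 : (c / 3) ^ 4 / (256 * C ^ 2 * M₂) * N ≤ (#T : ℝ) := by
    rw [div_mul_eq_mul_div, div_le_iff₀ (by positivity)]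
    exact hfin
  exact hT1.trans (by exact_mod_cast hT3)

end

/-- **The sums of two primes of a given class prime to `q` have positive lower density.** -/
theorem density_ap {q : ℕ} [NeZero q] {a : ZMod q} (ha : IsUnit a) :
    ∃ c : ℝ, 0 < c ∧ ∀ᶠ N : ℕ in atTop, c * N ≤ (Nat.card {n : ℕ | n ≤ N ∧ ∃ p p' : ℕ,
      (p.Prime ∧ (p : ZMod q) = a) ∧ (p'.Prime ∧ (p' : ZMod q) = a) ∧ n = p + p'} : ℝ) := by
  have hφ : (0 : ℝ) < q.totient := by exact_mod_cast Nat.totient_pos.mpr (NeZero.pos q)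
  refine density_of (S := fun p => p.Prime ∧ (p : ZMod q) = a) (fun p hp => hp.1)
    (c := (q.totient : ℝ)⁻¹ / 2) (by positivity) ?_
  have h1 := (Fermat.Agent.Cor.prime_number_theorem_ap_nat ha).eventually
    (eventually_ge_nhds (show (q.totient : ℝ)⁻¹ / 2 < (q.totient : ℝ)⁻¹ by
      have : 0 < (q.totient : ℝ)⁻¹ := by positivity
      linarith))
  filter_upwards [h1, eventually_ge_atTop 3] with N hN hN3
  have hN0 : (3 : ℝ) ≤ N := by exact_mod_cast hN3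
  have hlog : 0 < Real.log N := Real.log_pos (by linarith)
  rw [le_div_iff₀ (by linarith)] at hN
  rw [div_le_iff₀ hlog]
  exact hN

end Fermat.Agent.Cor.Gold
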